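import Mathlib
import Fermat.Prelude.Def_AlgebraicCurve_DivisorClassGroup
import Fermat.Prelude.Def_AlgebraicCurve_Repartitions

/-!
# Places of a function field via Dedekind charts (item 77 WP-A / S24 layer A1)

Abstract part: `R` a Dedekind domain with fraction field `F`, containing `K`.
-/

set_option autoImplicit false

noncomputable section

open AlgebraicCurve IsDedekindDomain WithZero

namespace FA_RR

variable {K F : Type*} [Field K] [Field F] [Algebra K F]

section Basic

variable (v : Place K F)

theorem mem_iff_adicValuation_le_one {f : F} :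
    f ∈ v.toValuationSubring ↔ v.adicValuation f ≤ 1 := by
  constructor
  · exact v.adicValuation_le_one_of_mem
  · intro h
    by_contra hf
    have hf0 : f ≠ 0 := fun h0 => hf (h0 ▸ v.toValuationSubring.zero_mem)
    have hinv : f⁻¹ ∈ v.toValuationSubring :=
      (v.toValuationSubring.mem_or_inv_mem f).resolve_left hf
    -- `f⁻¹` is a non-unit of the valuation ring, so its valuation is `< 1`
    have h1 : v.adicValuation f⁻¹ ≤ 1 := v.adicValuation_le_one_of_mem hinv
    have h2 : v.adicValuation f * v.adicValuation f⁻¹ = 1 := by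
      rw [← map_mul, mul_inv_cancel₀ hf0, map_one]
    have h3 : v.adicValuation f = 1 := by
      apply le_antisymm h
      by_contra hlt
      push Not at hlt
      have : v.adicValuation f * v.adicValuation f⁻¹ < 1 := by
        calc v.adicValuation f * v.adicValuation f⁻¹
            ≤ v.adicValuation f * 1 := by gcongr
          _ = v.adicValuation f := mul_one _
          _ < 1 := hlt
      exact absurd h2 (ne_of_lt this)
    have h4 : v.adicValuation f⁻¹ = 1 := by rw [h3, one_mul] at h2; exact h2
    -- so `f⁻¹` is a unit of the valuation ring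
    have h5 : IsUnit (⟨f⁻¹, hinv⟩ : v.toValuationSubring) :=
      (v.adicValuation_coe_eq_one_iff ⟨f⁻¹, hinv⟩).mp h4
    obtain ⟨u, hu⟩ := h5
    have h6 : ((u⁻¹ : v.toValuationSubringˣ) : v.toValuationSubring) * ⟨f⁻¹, hinv⟩ = 1 := by
      rw [← hu]; exact u.inv_mul
    have h7 : (((u⁻¹ : v.toValuationSubringˣ) : v.toValuationSubring) : F) * f⁻¹ = 1 := by
      have := congrArg (Subtype.val) h6
      simpa using this
    have h8 : (((u⁻¹ : v.toValuationSubringˣ) : v.toValuationSubring) : F) = f := by
      field_simp at h7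
      exact h7
    exact hf (h8 ▸ ((u⁻¹ : v.toValuationSubringˣ) : v.toValuationSubring).2)

theorem mem_iff_ord {f : F} :
    f ∈ v.toValuationSubring ↔ f = 0 ∨ 0 ≤ v.ord f := by
  rw [mem_iff_adicValuation_le_one, v.adicValuation_le_one_iff]

theorem adicValuation_lt_one_iff {f : F} :
    v.adicValuation f < 1 ↔ f = 0 ∨ 0 < v.ord f := by
  rcases eq_or_ne f 0 with rfl | hf
  · simp
  · rw [v.adicValuation_eq_exp_neg_ord hf, ← WithZero.exp_zero, WithZero.exp_lt_exp]
    simp [hf]

theorem adicValuation_eq_one_iff {f : F} (hf : f ≠ 0) :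
    v.adicValuation f = 1 ↔ v.ord f = 0 := by
  rw [v.adicValuation_eq_exp_neg_ord hf, ← WithZero.exp_zero, WithZero.exp_inj]
  omega

theorem ord_algebraMap (c : K) : v.ord (algebraMap K F c) = 0 := by
  rcases eq_or_ne c 0 with rfl | hc
  · simp
  have h1 : 0 ≤ v.ord (algebraMap K F c) := by
    have := (mem_iff_ord v).mp (v.algebraMap_mem' c)
    rcases this with h | h
    · exact absurd h (by simpa using hc)
    · exact h
  have h2 : 0 ≤ v.ord (algebraMap K F c⁻¹) := by
    have := (mem_iff_ord v).mp (v.algebraMap_mem' c⁻¹)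
    rcases this with h | h
    · exact absurd h (by simpa using hc)
    · exact h
  rw [map_inv₀, v.ord_inv] at h2
  omega

theorem ord_add_ge {f g : F} (hfg : f + g ≠ 0) (n : ℤ)
    (hf : f = 0 ∨ n ≤ v.ord f) (hg : g = 0 ∨ n ≤ v.ord g) : n ≤ v.ord (f + g) := by
  have h1 : v.adicValuation f ≤ exp (-n) := v.adicValuation_le_exp_iff.mpr (by simpa using hf)
  have h2 : v.adicValuation g ≤ exp (-n) := v.adicValuation_le_exp_iff.mpr (by simpa using hg)
  have h3 : v.adicValuation (f + g) ≤ exp (-n) :=
    (Valuation.map_add _ _ _).trans (max_le h1 h2)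
  rcases v.adicValuation_le_exp_iff.mp h3 with h | h
  · exact absurd h hfg
  · simpa using h

theorem ord_neg (f : F) : v.ord (-f) = v.ord f := by
  simp [Place.ord, Valuation.map_neg]

theorem ord_sub_ge {f g : F} (hfg : f - g ≠ 0) (n : ℤ)
    (hf : f = 0 ∨ n ≤ v.ord f) (hg : g = 0 ∨ n ≤ v.ord g) : n ≤ v.ord (f - g) := by
  rw [sub_eq_add_neg] at hfg ⊢
  refine ord_add_ge v hfg n hf ?_
  rcases hg with h | h
  · left; simp [h]
  · right; rwa [ord_neg]

/-- If `ord f < ord g` then `ord (f + g) = ord f`. -/
theorem ord_add_eq_of_lt {f g : F} (hf : f ≠ 0) (hg : g = 0 ∨ v.ord f < v.ord g) :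
    v.ord (f + g) = v.ord f := by
  rcases hg with rfl | hg
  · simp
  by_cases hg0 : g = 0
  · simp [hg0]
  have hfg : f + g ≠ 0 := by
    intro h
    have : f = -g := eq_neg_of_add_eq_zero_left h
    rw [this, ord_neg] at hg
    exact lt_irrefl _ hg
  apply le_antisymm
  · by_contra hlt
    push Not at hlt
    have h1 : v.ord f + 1 ≤ v.ord ((f + g) - g) := by
      refine ord_sub_ge v (by simpa using hf) _ (Or.inr (by omega)) (Or.inr (by omega))
    rw [add_sub_cancel_right] at h1
    omega
  · exact ord_add_ge v hfg _ (Or.inr le_rfl) (Or.inr hg.le)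

end Basic

section Abstract

variable {R : Type*} [CommRing R] [IsDedekindDomain R] [Algebra R F] [IsFractionRing R F]
  [Algebra K R] [IsScalarTower K R F]

/-- The valuation of the place attached to a height one prime is the adic valuation. -/
theorem adicValuation_ofHeightOneSpectrum (w : HeightOneSpectrum R) (f : F) :
    (Place.ofHeightOneSpectrum (K := K) (F := F) w).adicValuation f = w.valuation F f := by
  set v := Place.ofHeightOneSpectrum (K := K) (F := F) w with hv
  have hmem : ∀ g : F, g ∈ v.toValuationSubring ↔ w.valuation F g ≤ 1 := fun g => Iff.rfl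
  have hle : ∀ g : F, v.adicValuation g ≤ 1 ↔ w.valuation F g ≤ 1 := fun g => by
    rw [← mem_iff_adicValuation_le_one, hmem]
  -- units
  have hunit : ∀ g : F, g ≠ 0 → (v.adicValuation g = 1 ↔ w.valuation F g = 1) := by
    intro g hg
    have e1 : ∀ (val : Valuation F ℤᵐ⁰), val g = 1 ↔ (val g ≤ 1 ∧ val g⁻¹ ≤ 1) := by
      intro val
      have hmul : val g * val g⁻¹ = 1 := by rw [← map_mul, mul_inv_cancel₀ hg, map_one]
      constructor
      · intro h
        rw [h, one_mul] at hmul
        exact ⟨h.le, hmul.le⟩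
      · rintro ⟨h1, h2⟩
        apply le_antisymm h1
        by_contra hlt
        push Not at hlt
        have : val g * val g⁻¹ < 1 := by
          calc val g * val g⁻¹ ≤ val g * 1 := by gcongr
            _ = val g := mul_one _
            _ < 1 := hlt
        exact absurd hmul (ne_of_lt this)
    rw [e1 v.adicValuation, e1 (w.valuation F), hle, hle]
  -- a uniformizer of `w`
  obtain ⟨π, hπ⟩ := w.valuation_exists_uniformizer F
  have hπ0 : π ≠ 0 := by
    rintro rfl
    rw [map_zero] at hπ
    exact WithZero.exp_ne_zero hπ.symm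
  -- an irreducible of the valuation ring of `v`
  obtain ⟨ϖ, hϖ⟩ := IsDiscreteValuationRing.exists_irreducible v.toValuationSubring
  have hϖv : v.adicValuation (ϖ : F) = exp (-1 : ℤ) := v.adicValuation_coe_irreducible hϖ
  have hϖ0 : (ϖ : F) ≠ 0 := by
    intro h
    rw [h, map_zero] at hϖv
    exact WithZero.exp_ne_zero hϖv.symm
  -- `w (ϖ) = exp (-1)`
  have hϖw : w.valuation F (ϖ : F) = exp (-1 : ℤ) := by
    -- π / ϖ ^ k
    have hlt : w.valuation F (ϖ : F) < 1 := by
      have h1 : w.valuation F (ϖ : F) ≤ 1 := (hle _).mp (by rw [hϖv]; exact exp_le_exp.mpr (by norm_num) |>.trans_eq exp_zero)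
      refine lt_of_le_of_ne h1 fun h => ?_
      have := (hunit _ hϖ0).mpr h
      rw [hϖv] at this
      exact absurd this (by rw [← exp_zero]; exact fun h => by simpa using exp_inj.mp h)
    -- write `w ϖ = exp (-k)`, `k ≥ 1`
    have hne : w.valuation F (ϖ : F) ≠ 0 := (Valuation.ne_zero_iff _).mpr hϖ0
    obtain ⟨k, hk⟩ : ∃ k : ℤ, w.valuation F (ϖ : F) = exp k := ⟨_, (exp_log hne).symm⟩
    have hk1 : k ≤ -1 := by
      rw [hk, ← exp_zero, exp_lt_exp] at hlt
      omega
    -- consider `g = ϖ / π` : `w g = exp (k + 1) ≤ 1`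
    have hg : w.valuation F ((ϖ : F) * π⁻¹) ≤ 1 := by
      rw [map_mul, map_inv₀, hk, hπ, ← exp_neg, ← exp_add, ← exp_zero, exp_le_exp]
      omega
    have hg' : v.adicValuation ((ϖ : F) * π⁻¹) ≤ 1 := (hle _).mpr hg
    -- `v π < 1`
    have hπlt : v.adicValuation π < 1 := by
      have h1 : v.adicValuation π ≤ 1 := (hle _).mpr (by rw [hπ]; exact exp_le_exp.mpr (by norm_num) |>.trans_eq exp_zero)
      refine lt_of_le_of_ne h1 fun h => ?_
      have := (hunit _ hπ0).mp h
      rw [hπ] at this
      exact absurd this (by rw [← exp_zero]; exact fun h => by simpa using exp_inj.mp h)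
    have hπne : v.adicValuation π ≠ 0 := (Valuation.ne_zero_iff _).mpr hπ0
    obtain ⟨m, hm⟩ : ∃ m : ℤ, v.adicValuation π = exp m := ⟨_, (exp_log hπne).symm⟩
    have hm1 : m ≤ -1 := by
      rw [hm, ← exp_zero, exp_lt_exp] at hπlt
      omega
    rw [map_mul, map_inv₀, hϖv, hm, ← exp_neg, ← exp_add, ← exp_zero, exp_le_exp] at hg'
    have hm2 : m = -1 := by omega
    -- now `π / ϖ` is a `v`-unit hence a `w`-unit
    have hu : v.adicValuation (π * (ϖ : F)⁻¹) = 1 := by
      rw [map_mul, map_inv₀, hϖv, hm, hm2, ← exp_neg, ← exp_add, ← exp_zero]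
      congr 1
    have hu' := (hunit _ (mul_ne_zero hπ0 (inv_ne_zero hϖ0))).mp hu
    rw [map_mul, map_inv₀, hπ, hk, ← exp_neg, ← exp_add, ← exp_zero, exp_inj] at hu'
    rw [hk]
    congr 1
    omega
  rcases eq_or_ne f 0 with rfl | hf
  · simp
  obtain ⟨u, hu⟩ := v.exists_unit_mul_zpow hf hϖ
  have hu1 : v.adicValuation ((u : v.toValuationSubring) : F) = 1 :=
    (v.adicValuation_coe_eq_one_iff _).mpr u.isUnit
  have hu0 : ((u : v.toValuationSubring) : F) ≠ 0 := by
    intro h
    rw [h] at hu1
    simp at hu1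
  have hu2 : w.valuation F ((u : v.toValuationSubring) : F) = 1 := (hunit _ hu0).mp hu1
  rw [hu, map_mul, map_mul, map_zpow₀, map_zpow₀, hu1, hu2, hϖv, hϖw]

theorem ord_ofHeightOneSpectrum (w : HeightOneSpectrum R) (f : F) :
    (Place.ofHeightOneSpectrum (K := K) (F := F) w).ord f = -(WithZero.log (w.valuation F f)) := by
  rw [Place.ord, adicValuation_ofHeightOneSpectrum]

theorem ofHeightOneSpectrum_injective :
    Function.Injective (Place.ofHeightOneSpectrum (K := K) (F := F) (R := R)) := by
  intro w₁ w₂ h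
  by_contra hne
  -- there is `a ∈ w₁ \ w₂`
  have hnle : ¬ w₁.asIdeal ≤ w₂.asIdeal := by
    intro hle
    apply hne
    exact HeightOneSpectrum.ext (w₁.isMaximal.eq_of_le w₂.isPrime.ne_top hle)
  obtain ⟨a, ha1, ha2⟩ := SetLike.not_le_iff_exists.mp hnle
  have h1 : w₁.valuation F (algebraMap R F a) < 1 := (w₁.valuation_lt_one_iff_mem a).mpr ha1
  have h2 : w₂.valuation F (algebraMap R F a) = 1 := by
    refine le_antisymm (w₂.valuation_le_one a) ?_
    by_contra hlt
    push Not at hlt
    exact ha2 ((w₂.valuation_lt_one_iff_mem a).mp hlt)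
  have := adicValuation_ofHeightOneSpectrum (K := K) w₁ (algebraMap R F a)
  rw [h, adicValuation_ofHeightOneSpectrum, h2] at this
  rw [← this] at h1
  exact lt_irrefl _ h1

/-- Every place whose valuation ring contains `R` comes from a height one prime of `R`. -/
theorem exists_ofHeightOneSpectrum_eq (v : Place K F)
    (hv : ∀ r : R, algebraMap R F r ∈ v.toValuationSubring) :
    ∃ w : HeightOneSpectrum R, Place.ofHeightOneSpectrum (K := K) (F := F) w = v := by
  -- the prime `𝔭 = 𝔪_v ∩ R`
  let φ : R →+* v.toValuationSubring := (algebraMap R F).codRestrict v.toValuationSubring.toSubring hv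
  let p : Ideal R := (IsLocalRing.maximalIdeal v.toValuationSubring).comap φ
  have hp : p.IsPrime := Ideal.comap_isPrime φ _
  have hφ : ∀ r : R, ((φ r : v.toValuationSubring) : F) = algebraMap R F r := fun r => rfl
  have hp0 : p ≠ ⊥ := by
    intro hbot
    -- every nonzero element of `R` is a unit of `O_v`, so `O_v = ⊤`
    apply v.ne_top'
    rw [eq_top_iff]
    intro f _
    obtain ⟨a, s, hs, rfl⟩ := IsFractionRing.div_surjective (A := R) f
    have hs0 : s ≠ 0 := nonZeroDivisors.ne_zero hs
    have hsp : s ∉ p := by rw [hbot]; simpa using hs0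
    have hunit : IsUnit (φ s) := by
      by_contra hnu
      exact hsp ((IsLocalRing.mem_maximalIdeal _).mpr hnu)
    obtain ⟨u, hu⟩ := hunit
    have : (algebraMap R F s)⁻¹ = (((u⁻¹ : v.toValuationSubringˣ) : v.toValuationSubring) : F) := by
      have h1 : ((u : v.toValuationSubring) : F) = algebraMap R F s := by rw [hu, hφ]
      have h2 : ((u : v.toValuationSubring) : F) *
          (((u⁻¹ : v.toValuationSubringˣ) : v.toValuationSubring) : F) = 1 := by
        exact congrArg Subtype.val u.mul_inv
      rw [h1] at h2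
      exact (eq_inv_of_mul_eq_one_right h2).symm
    rw [div_eq_mul_inv, this]
    exact mul_mem (hv a) (Subtype.mem _)
  let w : HeightOneSpectrum R := ⟨p, hp, hp0⟩
  refine ⟨w, ?_⟩
  apply Place.ext
  rw [Place.ofHeightOneSpectrum_toValuationSubring,
    ← HeightOneSpectrum.valuationSubringAtPrime_eq_valuationSubring]
  refine ValuationSubring.eq_of_le_of_ne_top _ ?_ v.ne_top'
  -- the localisation at `p` is contained in `O_v`
  intro f hf
  have hf' : f ∈ (HeightOneSpectrum.valuationSubringAtPrime F w).toSubring := hf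
  rw [HeightOneSpectrum.valuationSubringAtPrime_toSubring] at hf'
  obtain ⟨a, s, hs, rfl⟩ := hf'
  have hsp : s ∉ p := hs
  have hunit : IsUnit (φ s) := by
    by_contra hnu
    exact hsp ((IsLocalRing.mem_maximalIdeal _).mpr hnu)
  obtain ⟨u, hu⟩ := hunit
  have : (algebraMap R F s)⁻¹ = (((u⁻¹ : v.toValuationSubringˣ) : v.toValuationSubring) : F) := by
    have h1 : ((u : v.toValuationSubring) : F) = algebraMap R F s := by rw [hu, hφ]
    have h2 : ((u : v.toValuationSubring) : F) *
        (((u⁻¹ : v.toValuationSubringˣ) : v.toValuationSubring) : F) = 1 := by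
      exact congrArg Subtype.val u.mul_inv
    rw [h1] at h2
    exact (eq_inv_of_mul_eq_one_right h2).symm
  rw [this]
  exact mul_mem (hv a) (Subtype.mem _)

end Abstract

end FA_RR

end
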