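import Mathlib
import Fermat.Prelude.Def_AlgebraicCurve_CanonicalDivisor
import Fermat.Prelude.Def_AlgebraicCurve_IsCurveOver
import Fermat.Prelude.Def_AlgebraicCurve_Repartitions

/-!
# Riemann–Roch for function fields (item 77): interface

`K` algebraically closed of characteristic zero, `F / K` a function field in one variable
(`FA_RR_IsFF K F`).  All work packages prove / consume the `FA_RR_Target_*` propositions below.
See `NOTES/plan/RR.md`.
-/

set_option autoImplicit false

open AlgebraicCurve KaehlerDifferential

noncomputable section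

variable (K F : Type*) [Field K] [Field F] [Algebra K F]

/-- `F / K` is a function field in one variable: finite over `K(x)` for some transcendental `x`. -/
def FA_RR_IsFF : Prop :=
  ∃ x : F, Transcendental K x ∧ FiniteDimensional (IntermediateField.adjoin K {x}) F

/-! ## WP-A : places (Dedekind charts) -/

/-- (A1) every place has residue field `K`. -/
def FA_RR_Target_residue : Prop :=
  ∀ (v : Place K F) (f : F), v.adicValuation f ≤ 1 →
    ∃ c : K, v.adicValuation (f - algebraMap K F c) < 1

/-- (A2) the divisor of zeros of a transcendental `x` exists and has degree `[F : K(x)]`. -/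
def FA_RR_Target_sumZeros : Prop :=
  ∀ x : F, Transcendental K x →
    ∃ D : Divisor K F, (∀ v : Place K F, D v = max (v.ord x) 0) ∧
      Divisor.degree D = (Module.finrank (IntermediateField.adjoin K {x}) F : ℤ)

/-- (A3) `repartitions` = functions on places with finitely many poles. -/
def FA_RR_Target_repartitions : Prop :=
  ∀ α : Place K F → F, α ∈ repartitions K F ↔ {v : Place K F | v.ord (α v) < 0}.Finite

/-! ## WP-D : Kähler differentials -/

/-- (D1) `Ω[F/K]` is one-dimensional, spanned by `dt` for every transcendental `t`. -/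
def FA_RR_Target_kaehler : Prop :=
  ∀ t : F, Transcendental K t → ∀ ω : Ω[F⁄K], ∃ f : F, ω = f • D K F t

/-- (D2) `dt ≠ 0` for transcendental `t`. -/
def FA_RR_Target_D_ne_zero : Prop :=
  ∀ t : F, Transcendental K t → D K F t ≠ 0

/-! ## WP-B : Riemann's theorem -/

def FA_RR_Target_finiteL : Prop :=
  ∀ D : Divisor K F, Module.Finite K (riemannRochSpace D)

def FA_RR_Target_finiteH1 : Prop :=
  ∀ D : Divisor K F, Module.Finite K (H1 D)

/-- `ℓ(D) - h¹(D) = deg D + 1 - g`. -/
def FA_RR_Target_euler : Prop :=
  ∀ D : Divisor K F,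
    (Module.finrank K (riemannRochSpace D) : ℤ) - (Module.finrank K (H1 D) : ℤ)
      = Divisor.degree D + 1 - (genusFF K F : ℤ)

/-! ## WP-T/L : residues (Tate) -/

/-- Local residues: vanish on regular differentials, `res (h dt/t) = h(v)`, residue theorem. -/
def FA_RR_Target_residues : Prop :=
  ∃ res : Place K F → (Ω[F⁄K] →ₗ[K] K),
    (∀ (v : Place K F) (f g : F), v.adicValuation f ≤ 1 → v.adicValuation g ≤ 1 →
      res v (f • D K F g) = 0) ∧
    (∀ (v : Place K F) (t h : F) (c : K), v.ord t = 1 →
      v.adicValuation (h - algebraMap K F c) < 1 → res v ((h * t⁻¹) • D K F t) = c) ∧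
    (∀ ω : Ω[F⁄K], (Function.support fun v => res v ω).Finite ∧ ∑ᶠ v, res v ω = 0)

/-! ## WP-C : Weil differentials and duality -/

/-- A Weil differential: a `K`-linear form on the repartitions vanishing on `F` and on some
`A(D)`. -/
def FA_RR_IsWeil (lam : ↥(repartitions K F) →ₗ[K] K) : Prop :=
  (∀ α ∈ principalRepartitions K F, lam α = 0) ∧
    ∃ D : Divisor K F, ∀ α ∈ repartitionsOf D, lam α = 0

/-- Every nonzero Weil differential has a divisor `W`; `deg W = 2g - 2`; `ℓ(W - D) = h¹(D)`. -/
def FA_RR_Target_weil : Prop :=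
  ∀ lam : ↥(repartitions K F) →ₗ[K] K, lam ≠ 0 → FA_RR_IsWeil K F lam →
    ∃ W : Divisor K F,
      (∀ D : Divisor K F, (∀ α ∈ repartitionsOf D, lam α = 0) ↔ D ≤ W) ∧
      Divisor.degree W = 2 * (genusFF K F : ℤ) - 2 ∧
      ∀ D : Divisor K F,
        Module.finrank K (riemannRochSpace (W - D)) = Module.finrank K (H1 D)

/-! ## Final statements (WP-E) -/

/-- The regular differentials. -/
def FA_RR_regularDifferentials : Set Ω[F⁄K] :=
  {ω | ω = 0 ∨ ∀ v : Place K F, 0 ≤ v.ordDifferential ω}

end
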