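import Mathlib
import Fermat.Agent.Lib.RR.Chart
import Fermat.Agent.Lib.RR.Interface

/-!
# The chart at a transcendental element `x` (item 77 WP-A / S24 layer A1)

`chartRing K x` = integral closure of `K[x]` in `F`; its height one primes are exactly the places
`v` with `x ∈ O_v`.
-/

set_option autoImplicit false
set_option linter.style.haveILetI false

noncomputable section

open AlgebraicCurve IsDedekindDomain IntermediateField WithZero
open scoped IntermediateField.algebraAdjoinAdjoin

namespace FA_RR

variable {K F : Type*} [Field K] [Field F] [Algebra K F]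

variable (K) in
/-- The chart ring at `x`: the integral closure of `K[x]` in `F`. -/
abbrev chartRing (x : F) : Subalgebra (Algebra.adjoin K {x}) F :=
  integralClosure (Algebra.adjoin K {x}) F

theorem isPrincipalIdealRing_adjoin {x : F} (hx : Transcendental K x) :
    IsPrincipalIdealRing (Algebra.adjoin K {x}) :=
  IsPrincipalIdealRing.of_surjective
    (Polynomial.algEquivOfTranscendental K x hx).toRingEquiv.toRingHom
    (Polynomial.algEquivOfTranscendental K x hx).surjective

theorem isFractionRing_chartRing (x : F) [FiniteDimensional K⟮x⟯ F] :
    IsFractionRing (chartRing K x) F :=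
  integralClosure.isFractionRing_of_finite_extension K⟮x⟯ F

section
variable [CharZero K] {x : F} (hx : Transcendental K x) [FiniteDimensional K⟮x⟯ F]
include hx

theorem isDedekindDomain_chartRing : IsDedekindDomain (chartRing K x) := by
  have : IsPrincipalIdealRing (Algebra.adjoin K {x}) := isPrincipalIdealRing_adjoin hx
  have : CharZero K⟮x⟯ := charZero_of_injective_algebraMap (algebraMap K K⟮x⟯).injective
  exact integralClosure.isDedekindDomain (Algebra.adjoin K {x}) K⟮x⟯ F

theorem finite_chartRing : Module.Finite (Algebra.adjoin K {x}) (chartRing K x) := by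
  have : IsPrincipalIdealRing (Algebra.adjoin K {x}) := isPrincipalIdealRing_adjoin hx
  have : CharZero K⟮x⟯ := charZero_of_injective_algebraMap (algebraMap K K⟮x⟯).injective
  exact IsIntegralClosure.finite (Algebra.adjoin K {x}) K⟮x⟯ F (chartRing K x)

theorem finiteType_chartRing : Algebra.FiniteType K (chartRing K x) := by
  have h1 : Module.Finite (Algebra.adjoin K {x}) (chartRing K x) := finite_chartRing hx
  have h2 : Algebra.FiniteType K (Algebra.adjoin K {x}) := by
    rw [← Subalgebra.fg_iff_finiteType]
    have := Subalgebra.fg_adjoin_finset (R := K) (A := F) {x}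
    simpa using this
  exact Algebra.FiniteType.trans h2 inferInstance

theorem finrank_chartRing :
    Module.finrank (Algebra.adjoin K {x}) (chartRing K x) = Module.finrank K⟮x⟯ F := by
  have : IsPrincipalIdealRing (Algebra.adjoin K {x}) := isPrincipalIdealRing_adjoin hx
  have : CharZero K⟮x⟯ := charZero_of_injective_algebraMap (algebraMap K K⟮x⟯).injective
  exact IsIntegralClosure.rank (Algebra.adjoin K {x}) K⟮x⟯ F (chartRing K x)

end

/-- The valuation ring of a place as a `K`-subalgebra. -/
def placeSubalgebra (v : Place K F) : Subalgebra K F :=
  { v.toValuationSubring.toSubring with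
    algebraMap_mem' := v.algebraMap_mem' }

theorem mem_placeSubalgebra {v : Place K F} {f : F} :
    f ∈ placeSubalgebra v ↔ f ∈ v.toValuationSubring := Iff.rfl

theorem adjoin_le_placeSubalgebra {v : Place K F} {x : F} (hx : x ∈ v.toValuationSubring) :
    Algebra.adjoin K {x} ≤ placeSubalgebra v :=
  Algebra.adjoin_le (by
    intro y hy
    rw [Set.mem_singleton_iff] at hy
    subst hy
    exact hx)

/-- If `x ∈ O_v` then the whole chart ring is contained in `O_v`. -/
theorem chartRing_le (v : Place K F) {x : F} (hx : x ∈ v.toValuationSubring)
    (r : chartRing K x) : (r : F) ∈ v.toValuationSubring := by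
  have hr : IsIntegral (Algebra.adjoin K {x}) (r : F) := r.2
  -- integral over `O_v`
  obtain ⟨p, hp, hpr⟩ := hr
  have hle := adjoin_le_placeSubalgebra (K := K) hx
  let ι : (Algebra.adjoin K {x}) →+* v.toValuationSubring :=
    { toFun := fun a => ⟨(a : F), hle a.2⟩
      map_one' := rfl
      map_mul' := fun _ _ => rfl
      map_zero' := rfl
      map_add' := fun _ _ => rfl }
  have hint : IsIntegral v.toValuationSubring (r : F) := by
    refine ⟨p.map ι, hp.map ι, ?_⟩
    rw [Polynomial.eval₂_map]
    exact hpr
  obtain ⟨y, hy⟩ := IsIntegrallyClosed.isIntegral_iff.mp hint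
  rw [← hy]
  exact y.2

theorem x_mem_chartRing (x : F) : x ∈ chartRing K x := by
  have : x = algebraMap (Algebra.adjoin K {x}) F ⟨x, Algebra.subset_adjoin (Set.mem_singleton x)⟩ :=
    rfl
  rw [this]
  exact Subalgebra.algebraMap_mem _ _

section
variable [CharZero K] {x : F} (hx : Transcendental K x) [FiniteDimensional K⟮x⟯ F]
include hx

/-- The place attached to a height one prime of the chart ring. -/
def chartPlace
    (w : @HeightOneSpectrum (chartRing K x) _) : Place K F :=
  haveI := isDedekindDomain_chartRing hx
  haveI := isFractionRing_chartRing (K := K) x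
  Place.ofHeightOneSpectrum (K := K) (F := F) w

theorem chartPlace_injective : Function.Injective (chartPlace hx) := by
  haveI := isDedekindDomain_chartRing hx
  haveI := isFractionRing_chartRing (K := K) x
  exact ofHeightOneSpectrum_injective

theorem chartPlace_adicValuation (w : @HeightOneSpectrum (chartRing K x) _) (f : F) :
    (chartPlace hx w).adicValuation f =
      (haveI := isDedekindDomain_chartRing hx
       haveI := isFractionRing_chartRing (K := K) x
       w.valuation F f) := by
  haveI := isDedekindDomain_chartRing hx
  haveI := isFractionRing_chartRing (K := K) x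
  exact adicValuation_ofHeightOneSpectrum w f

/-- Every place with `x ∈ O_v` is a chart place. -/
theorem exists_chartPlace_eq (v : Place K F) (hv : x ∈ v.toValuationSubring) :
    ∃ w, chartPlace hx w = v := by
  haveI := isDedekindDomain_chartRing hx
  haveI := isFractionRing_chartRing (K := K) x
  exact exists_ofHeightOneSpectrum_eq v (chartRing_le v hv)

theorem x_mem_chartPlace (w : @HeightOneSpectrum (chartRing K x) _) :
    x ∈ (chartPlace hx w).toValuationSubring := by
  haveI := isDedekindDomain_chartRing hx
  haveI := isFractionRing_chartRing (K := K) x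
  show w.valuation F x ≤ 1
  exact w.valuation_le_one (⟨x, x_mem_chartRing x⟩ : chartRing K x)

end

end FA_RR

end
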