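import Mathlib
import Fermat.Agent.Lib.RR.ChartX

/-!
# Residue fields of places are `K` (item 77 WP-A, A1)
-/

set_option autoImplicit false
set_option linter.style.haveILetI false

noncomputable section

open AlgebraicCurve IsDedekindDomain IntermediateField WithZero
open scoped IntermediateField.algebraAdjoinAdjoin

namespace FA_RR

variable {K F : Type*} [Field K] [Field F] [Algebra K F]

section Abstract

variable {R : Type*} [CommRing R] [IsDedekindDomain R] [Algebra R F] [IsFractionRing R F]
  [Algebra K R] [IsScalarTower K R F]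

/-- In a Dedekind domain of finite type over an algebraically closed field, every element is
congruent to a constant modulo a maximal ideal. -/
theorem exists_const_sub_mem [IsAlgClosed K] [Algebra.FiniteType K R]
    (w : HeightOneSpectrum R) (r : R) : ∃ c : K, r - algebraMap K R c ∈ w.asIdeal := by
  haveI : w.asIdeal.IsMaximal := w.isMaximal
  letI : Field (R ⧸ w.asIdeal) := Ideal.Quotient.field w.asIdeal
  haveI : Algebra.FiniteType K (R ⧸ w.asIdeal) :=
    Algebra.FiniteType.of_surjective (Ideal.Quotient.mkₐ K w.asIdeal)
      (Ideal.Quotient.mkₐ_surjective K w.asIdeal)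
  haveI : Module.Finite K (R ⧸ w.asIdeal) := finite_of_finite_type_of_isJacobsonRing K _
  haveI : Algebra.IsIntegral K (R ⧸ w.asIdeal) := Algebra.IsIntegral.of_finite K _
  have hbij : Function.Bijective (algebraMap K (R ⧸ w.asIdeal)) :=
    IsAlgClosed.algebraMap_bijective_of_isIntegral
  obtain ⟨c, hc⟩ := hbij.2 (Ideal.Quotient.mk w.asIdeal r)
  refine ⟨c, ?_⟩
  rw [← Ideal.Quotient.eq_zero_iff_mem, map_sub, ← hc]
  exact sub_eq_zero.mpr rfl

/-- Every element of the valuation ring of `w` is congruent to a constant. -/
theorem exists_const_valuation_sub_lt_one [IsAlgClosed K] [Algebra.FiniteType K R]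
    (w : HeightOneSpectrum R) (f : F) (hf : w.valuation F f ≤ 1) :
    ∃ c : K, w.valuation F (f - algebraMap K F c) < 1 := by
  have hmem : f ∈ (w.valuation F).valuationSubring := hf
  rw [← HeightOneSpectrum.valuationSubringAtPrime_eq_valuationSubring] at hmem
  have hmem' : f ∈ (HeightOneSpectrum.valuationSubringAtPrime F w).toSubring := hmem
  rw [HeightOneSpectrum.valuationSubringAtPrime_toSubring] at hmem'
  obtain ⟨a, s, hs, rfl⟩ := hmem'
  have hsw : s ∉ w.asIdeal := hs
  obtain ⟨ca, hca⟩ := exists_const_sub_mem (K := K) w a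
  obtain ⟨cs, hcs⟩ := exists_const_sub_mem (K := K) w s
  have hcs0 : cs ≠ 0 := by
    rintro rfl
    rw [map_zero, sub_zero] at hcs
    exact hsw hcs
  have hs0 : algebraMap R F s ≠ 0 := by
    intro h
    have : s = 0 := (IsFractionRing.injective R F) (by rw [h, map_zero])
    exact hsw (this ▸ w.asIdeal.zero_mem)
  have hcsF : algebraMap K F cs ≠ 0 := by simpa using hcs0
  refine ⟨ca / cs, ?_⟩
  -- the numerator
  set num : R := (a - algebraMap K R ca) * algebraMap K R cs
      - algebraMap K R ca * (s - algebraMap K R cs) with hnum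
  have hnum_mem : num ∈ w.asIdeal :=
    w.asIdeal.sub_mem (w.asIdeal.mul_mem_right _ hca) (w.asIdeal.mul_mem_left _ hcs)
  have hval_num : w.valuation F (algebraMap R F num) < 1 :=
    (w.valuation_lt_one_iff_mem num).mpr hnum_mem
  have hval_s : w.valuation F (algebraMap R F s) = 1 := by
    refine le_antisymm (w.valuation_le_one s) ?_
    by_contra hlt
    push Not at hlt
    exact hsw ((w.valuation_lt_one_iff_mem s).mp hlt)
  have hval_cs : w.valuation F (algebraMap K F cs) = 1 := by
    have h1 : w.valuation F (algebraMap K F cs) ≤ 1 := by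
      rw [IsScalarTower.algebraMap_apply K R F]
      exact w.valuation_le_one _
    have h2 : w.valuation F (algebraMap K F cs⁻¹) ≤ 1 := by
      rw [IsScalarTower.algebraMap_apply K R F]
      exact w.valuation_le_one _
    have h3 : w.valuation F (algebraMap K F cs) * w.valuation F (algebraMap K F cs⁻¹) = 1 := by
      rw [← map_mul, ← map_mul, mul_inv_cancel₀ hcs0, map_one, map_one]
    refine le_antisymm h1 ?_
    by_contra hlt
    push Not at hlt
    have : w.valuation F (algebraMap K F cs) * w.valuation F (algebraMap K F cs⁻¹) < 1 := by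
      calc _ ≤ w.valuation F (algebraMap K F cs) * 1 := by gcongr
        _ = _ := mul_one _
        _ < 1 := hlt
    exact absurd h3 (ne_of_lt this)
  have hkey : algebraMap R F a * (algebraMap R F s)⁻¹ - algebraMap K F (ca / cs)
      = algebraMap R F num * ((algebraMap R F s)⁻¹ * (algebraMap K F cs)⁻¹) := by
    rw [hnum]
    simp only [map_sub, map_mul, ← IsScalarTower.algebraMap_apply K R F, map_div₀]
    field_simp
    ring
  have : (algebraMap R F a * (algebraMap R F s)⁻¹ : F) =
      (HeightOneSpectrum.valuationSubringAtPrime F w).subtype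
        ⟨algebraMap R F a * (algebraMap R F s)⁻¹, hmem⟩ := rfl
  show w.valuation F (_ - algebraMap K F (ca / cs)) < 1
  have hgoal : w.valuation F (algebraMap R F a * (algebraMap R F s)⁻¹ - algebraMap K F (ca / cs))
      < 1 := by
    rw [hkey, map_mul, map_mul, map_inv₀, map_inv₀, hval_s, hval_cs]
    simpa using hval_num
  convert hgoal using 2

/-- **(A1), chart form**: every place coming from a finite type Dedekind chart has residue
field `K`. -/
theorem residue_ofHeightOneSpectrum [IsAlgClosed K] [Algebra.FiniteType K R]
    (w : HeightOneSpectrum R) (f : F)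
    (hf : (Place.ofHeightOneSpectrum (K := K) (F := F) w).adicValuation f ≤ 1) :
    ∃ c : K, (Place.ofHeightOneSpectrum (K := K) (F := F) w).adicValuation
      (f - algebraMap K F c) < 1 := by
  rw [adicValuation_ofHeightOneSpectrum] at hf
  obtain ⟨c, hc⟩ := exists_const_valuation_sub_lt_one (K := K) w f hf
  exact ⟨c, by rwa [adicValuation_ofHeightOneSpectrum]⟩

end Abstract

end FA_RR

end
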