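import Mathlib
import Fermat.Agent.Lib.RR.ChartRes

/-!
# The fundamental identity `deg (x)_0 = [F : K(x)]` (item 77 WP-A, A2)
-/

set_option autoImplicit false
set_option linter.style.haveILetI false

noncomputable section

open AlgebraicCurve IsDedekindDomain IntermediateField WithZero
open scoped IntermediateField.algebraAdjoinAdjoin

namespace FA_RR

variable {K F : Type*} [Field K] [Field F] [Algebra K F]

/-- `x` as an element of `K[x]`. -/
abbrev xA (K : Type*) [Field K] {F : Type*} [Field F] [Algebra K F] (x : F) :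
    Algebra.adjoin K {x} :=
  ⟨x, Algebra.subset_adjoin (Set.mem_singleton x)⟩

/-- `x` as an element of the chart ring. -/
abbrev xR (K : Type*) [Field K] {F : Type*} [Field F] [Algebra K F] (x : F) :
    chartRing K x :=
  ⟨x, x_mem_chartRing x⟩

/-- The ideal `(x)` of `K[x]`. -/
abbrev pX (K : Type*) [Field K] {F : Type*} [Field F] [Algebra K F] (x : F) :
    Ideal (Algebra.adjoin K {x}) :=
  Ideal.span {xA K x}

theorem prime_xA {x : F} (hx : Transcendental K x) : Prime (xA K x) := by
  let e := Polynomial.algEquivOfTranscendental K x hx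
  have h1 : e Polynomial.X = xA K x := by
    apply Subtype.ext
    simp [e, Polynomial.algEquivOfTranscendental]
  rw [← h1]
  exact (MulEquiv.prime_iff e.toMulEquiv).mpr Polynomial.prime_X

theorem xA_ne_zero {x : F} (hx : Transcendental K x) : xA K x ≠ 0 := (prime_xA hx).ne_zero

theorem pX_ne_bot {x : F} (hx : Transcendental K x) : pX K x ≠ ⊥ := by
  rw [Ne, Ideal.span_singleton_eq_bot]
  exact xA_ne_zero hx

theorem pX_isPrime {x : F} (hx : Transcendental K x) : (pX K x).IsPrime :=
  (Ideal.span_singleton_prime (xA_ne_zero hx)).mpr (prime_xA hx)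

theorem pX_isMaximal {x : F} (hx : Transcendental K x) : (pX K x).IsMaximal := by
  haveI := isPrincipalIdealRing_adjoin hx
  exact (pX_isPrime hx).isMaximal (pX_ne_bot hx)

theorem algebraMap_xA (x : F) :
    algebraMap (Algebra.adjoin K {x}) (chartRing K x) (xA K x) = xR K x := rfl

theorem map_pX (x : F) :
    (pX K x).map (algebraMap (Algebra.adjoin K {x}) (chartRing K x)) = Ideal.span {xR K x} := by
  rw [Ideal.map_span, Set.image_singleton, algebraMap_xA]

theorem xR_ne_zero {x : F} (hx : Transcendental K x) : xR K x ≠ 0 := by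
  intro h
  have : x = 0 := congrArg Subtype.val h
  exact hx (this ▸ isAlgebraic_zero)

section
variable [CharZero K] {x : F} (hx : Transcendental K x) [FiniteDimensional K⟮x⟯ F]
include hx

theorem xR_mem_of_primesOver (q : (pX K x).primesOver (chartRing K x)) : xR K x ∈ q.1 := by
  have hlo : q.1.LiesOver (pX K x) := q.2.2
  have h1 : xA K x ∈ pX K x := Ideal.subset_span (Set.mem_singleton _)
  rw [hlo.over, Ideal.under_def, Ideal.mem_comap] at h1
  exact h1

theorem ne_bot_of_primesOver (q : (pX K x).primesOver (chartRing K x)) : q.1 ≠ ⊥ := by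
  intro h
  have := xR_mem_of_primesOver hx q
  rw [h, Ideal.mem_bot] at this
  exact xR_ne_zero hx this

/-- The height one prime attached to a prime over `(x)`. -/
def primeToHOS (q : (pX K x).primesOver (chartRing K x)) :
    @HeightOneSpectrum (chartRing K x) _ :=
  ⟨q.1, q.2.1, ne_bot_of_primesOver hx q⟩

/-- The place attached to a prime over `(x)`: a zero of `x`. -/
def zeroPlace (q : (pX K x).primesOver (chartRing K x)) : Place K F :=
  chartPlace hx (primeToHOS hx q)

theorem zeroPlace_injective : Function.Injective (zeroPlace hx) := by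
  intro q₁ q₂ h
  have := chartPlace_injective hx h
  apply Subtype.ext
  exact congrArg HeightOneSpectrum.asIdeal this

theorem liesOver_of_mem (w : @HeightOneSpectrum (chartRing K x) _) (hw : xR K x ∈ w.asIdeal) :
    w.asIdeal.LiesOver (pX K x) := by
  constructor
  haveI := pX_isMaximal hx
  have hle : pX K x ≤ w.asIdeal.under (Algebra.adjoin K {x}) := by
    rw [Ideal.span_le]
    intro y hy
    rw [Set.mem_singleton_iff] at hy
    subst hy
    exact hw
  have hne : w.asIdeal.under (Algebra.adjoin K {x}) ≠ ⊤ := by
    haveI : (w.asIdeal.under (Algebra.adjoin K {x})).IsPrime :=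
      Ideal.comap_isPrime _ _
    exact Ideal.IsPrime.ne_top inferInstance
  exact (pX_isMaximal hx).eq_of_le hne hle

theorem ord_zeroPlace (q : (pX K x).primesOver (chartRing K x)) :
    (zeroPlace hx q).ord x = (q.1.ramificationIdx (Algebra.adjoin K {x}) : ℤ) := by
  haveI := isDedekindDomain_chartRing hx
  haveI := isFractionRing_chartRing (K := K) x
  haveI : q.1.IsPrime := q.2.1
  haveI : q.1.LiesOver (pX K x) := q.2.2
  have hmap : (pX K x).map (algebraMap (Algebra.adjoin K {x}) (chartRing K x)) ≠ ⊥ := by
    rw [map_pX, Ne, Ideal.span_singleton_eq_bot]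
    exact xR_ne_zero hx
  rw [Ideal.IsDedekindDomain.ramificationIdx_eq_multiplicity (pX K x) q.1 hmap, map_pX]
  have hval : (primeToHOS hx q).valuation F x = (primeToHOS hx q).intValuation (xR K x) :=
    HeightOneSpectrum.valuation_of_algebraMap (K := F) (primeToHOS hx q) (xR K x)
  rw [Place.ord, zeroPlace, chartPlace_adicValuation, hval,
    HeightOneSpectrum.intValuation_eq_exp_neg_multiplicity _ (xR_ne_zero hx), WithZero.log_exp]
  simp [primeToHOS]

theorem ord_zeroPlace_pos (q : (pX K x).primesOver (chartRing K x)) :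
    0 < (zeroPlace hx q).ord x := by
  haveI := isDedekindDomain_chartRing hx
  haveI := isFractionRing_chartRing (K := K) x
  have h := xR_mem_of_primesOver hx q
  have h2 : (primeToHOS hx q).valuation F (algebraMap (chartRing K x) F (xR K x)) < 1 :=
    ((primeToHOS hx q).valuation_lt_one_iff_mem _).mpr h
  have h3 : (zeroPlace hx q).adicValuation x < 1 := by
    rw [zeroPlace, chartPlace_adicValuation]
    exact h2
  rcases (adicValuation_lt_one_iff _).mp h3 with h0 | h0
  · exact absurd (h0 ▸ isAlgebraic_zero) hx
  · exact h0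

theorem exists_zeroPlace (v : Place K F) (hv : 0 < v.ord x) : ∃ q, zeroPlace hx q = v := by
  haveI := isDedekindDomain_chartRing hx
  haveI := isFractionRing_chartRing (K := K) x
  have hx0 : x ≠ 0 := fun h => hx (h ▸ isAlgebraic_zero)
  have hmem : x ∈ v.toValuationSubring := (mem_iff_ord v).mpr (Or.inr hv.le)
  obtain ⟨w, rfl⟩ := exists_chartPlace_eq hx v hmem
  have h1 : (chartPlace hx w).adicValuation x < 1 :=
    (adicValuation_lt_one_iff _).mpr (Or.inr hv)
  rw [chartPlace_adicValuation] at h1
  have h2 : xR K x ∈ w.asIdeal := (w.valuation_lt_one_iff_mem (K := F) (xR K x)).mp h1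
  refine ⟨⟨w.asIdeal, w.isPrime, liesOver_of_mem hx w h2⟩, ?_⟩
  rfl

end

end FA_RR

end
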