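import Mathlib
import Fermat.Agent.Lib.RR.ChartSum

/-!
# `deg (x)_0 = [F : K(x)]` and `HasPrincipalDivisors` (item 77 WP-A, A2/A3)
-/

set_option autoImplicit false
set_option linter.style.haveILetI false

noncomputable section

open AlgebraicCurve IsDedekindDomain IntermediateField WithZero
open scoped IntermediateField.algebraAdjoinAdjoin

namespace FA_RR

variable {K F : Type*} [Field K] [Field F] [Algebra K F]

theorem finiteDimensional_adjoin (hF : FA_RR_IsFF K F) {y : F} (hy : Transcendental K y) :
    FiniteDimensional K⟮y⟯ F := by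
  obtain ⟨x, hx, hfin⟩ := hF
  let e : RatFunc K ≃ₐ[K] K⟮x⟯ := RatFunc.algEquivOfTranscendental x hx
  letI : Algebra (RatFunc K) F := ((K⟮x⟯.val).comp e.toAlgHom).toRingHom.toAlgebra
  haveI : IsScalarTower K (RatFunc K) F := IsScalarTower.of_algebraMap_eq (fun c => by
    show algebraMap K F c = (K⟮x⟯.val) (e (algebraMap K (RatFunc K) c))
    rw [e.commutes]
    rfl)
  haveI : FunctionField K F := by
    show Module.Finite (RatFunc K) F
    refine Module.Finite.of_equiv_equiv (A₁ := K⟮x⟯) (B₁ := F) e.symm.toRingEquiv
      (RingEquiv.refl F) ?_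
    ext a
    show (K⟮x⟯.val) (e (e.symm a)) = (a : F)
    rw [e.apply_symm_apply]
    rfl
  exact FunctionField.finiteDimensional_of_adjoin_transcendental hy

theorem transcendental_inv {x : F} (hx : Transcendental K x) : Transcendental K x⁻¹ := by
  intro h
  exact hx (by simpa using h.inv)

theorem transcendental_sub_const {x : F} (hx : Transcendental K x) (c : K) :
    Transcendental K (x - algebraMap K F c) := by
  intro h
  apply hx
  have := h.add (isAlgebraic_algebraMap (R := K) (A := F) c)
  simpa using this

/-- An element of `F` algebraic over the algebraically closed field `K` is constant. -/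
theorem exists_const_of_isAlgebraic [IsAlgClosed K] {f : F} (hf : IsAlgebraic K f) :
    ∃ c : K, algebraMap K F c = f := by
  have hint : IsIntegral K f := hf.isIntegral
  have := IsAlgClosed.degree_eq_one_of_irreducible K (minpoly.irreducible hint)
  exact minpoly.mem_range_of_degree_eq_one K f this

/-- **(A1)** every place of a function field over an algebraically closed field of
characteristic zero has residue field `K`. -/
theorem residue [IsAlgClosed K] [CharZero K] (hF : FA_RR_IsFF K F) :
    FA_RR_Target_residue K F := by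
  intro v f hf
  obtain ⟨x, hx, -⟩ := id hF
  -- choose `y ∈ {x, x⁻¹}` in the valuation ring
  obtain ⟨y, hy, hyv⟩ : ∃ y : F, Transcendental K y ∧ y ∈ v.toValuationSubring := by
    rcases v.toValuationSubring.mem_or_inv_mem x with h | h
    · exact ⟨x, hx, h⟩
    · exact ⟨x⁻¹, transcendental_inv hx, h⟩
  haveI := finiteDimensional_adjoin hF hy
  haveI := isDedekindDomain_chartRing hy
  haveI := isFractionRing_chartRing (K := K) y
  haveI := finiteType_chartRing hy
  obtain ⟨w, rfl⟩ := exists_chartPlace_eq hy v hyv
  exact residue_ofHeightOneSpectrum w f hf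

/-- Every place has degree one. -/
theorem deg_eq_one [IsAlgClosed K] [CharZero K] (hF : FA_RR_IsFF K F) (v : Place K F) :
    v.deg = 1 := by
  have hres := residue hF
  have hsurj : Function.Surjective (algebraMap K v.ResidueField) := by
    intro z
    obtain ⟨a, rfl⟩ := IsLocalRing.residue_surjective z
    have ha : v.adicValuation (a : F) ≤ 1 := v.adicValuation_le_one_of_mem a.2
    obtain ⟨c, hc⟩ := hres v a ha
    refine ⟨c, ?_⟩
    have h1 : (a : F) - algebraMap K F c = ((a - algebraMap K v.toValuationSubring c :
        v.toValuationSubring) : F) := rfl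
    rw [h1, v.adicValuation_coe] at hc
    have h2 : a - algebraMap K v.toValuationSubring c ∈
        IsLocalRing.maximalIdeal v.toValuationSubring := by
      have := (v.heightOneSpectrum.intValuation_lt_one_iff_mem _).mp hc
      simpa using this
    have h3 : IsLocalRing.residue v.toValuationSubring (a - algebraMap K v.toValuationSubring c)
        = 0 := (IsLocalRing.residue_eq_zero_iff _).mpr h2
    rw [map_sub, sub_eq_zero] at h3
    rw [h3]
    rfl
  have hbij : Function.Bijective (algebraMap K v.ResidueField) :=
    ⟨(algebraMap K v.ResidueField).injective, hsurj⟩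
  show Module.finrank K v.ResidueField = 1
  rw [← Module.finrank_self K]
  exact ((AlgEquiv.ofBijective (Algebra.ofId K v.ResidueField) hbij).toLinearEquiv.finrank_eq).symm

section
variable [IsAlgClosed K] [CharZero K] {x : F} (hx : Transcendental K x)
  [FiniteDimensional K⟮x⟯ F]
include hx

theorem inertiaDeg_eq_one (q : (pX K x).primesOver (chartRing K x)) :
    q.1.inertiaDeg (Algebra.adjoin K {x}) = 1 := by
  haveI := isDedekindDomain_chartRing hx
  haveI := finiteType_chartRing hx
  haveI : q.1.IsPrime := q.2.1
  haveI : q.1.LiesOver (pX K x) := q.2.2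
  haveI := pX_isMaximal hx
  haveI : q.1.IsMaximal := q.2.1.isMaximal (ne_bot_of_primesOver hx q)
  rw [Ideal.inertiaDeg_eq_of_isMaximal (pX K x) q.1]
  letI : Field (Algebra.adjoin K {x} ⧸ pX K x) := Ideal.Quotient.field _
  letI : Field (chartRing K x ⧸ q.1) := Ideal.Quotient.field _
  have hsurj : Function.Surjective
      (algebraMap (Algebra.adjoin K {x} ⧸ pX K x) (chartRing K x ⧸ q.1)) := by
    intro z
    obtain ⟨r, rfl⟩ := Ideal.Quotient.mk_surjective z
    obtain ⟨c, hc⟩ := exists_const_sub_mem (K := K) (primeToHOS hx q) r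
    refine ⟨Ideal.Quotient.mk _ (algebraMap K (Algebra.adjoin K {x}) c), ?_⟩
    have h1 : Ideal.Quotient.mk q.1 r = Ideal.Quotient.mk q.1 (algebraMap K (chartRing K x) c) :=
      (Ideal.Quotient.eq).mpr hc
    rw [h1]
    rfl
  have hbij : Function.Bijective
      (algebraMap (Algebra.adjoin K {x} ⧸ pX K x) (chartRing K x ⧸ q.1)) :=
    ⟨RingHom.injective (algebraMap (Algebra.adjoin K {x} ⧸ pX K x) (chartRing K x ⧸ q.1)), hsurj⟩
  rw [← Module.finrank_self (Algebra.adjoin K {x} ⧸ pX K x)]
  exact ((AlgEquiv.ofBijective (Algebra.ofId _ _) hbij).toLinearEquiv.finrank_eq).symm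

/-- **(A2)** the divisor of zeros of `x` has degree `[F : K(x)]`. -/
theorem sumZeros_aux (hF : FA_RR_IsFF K F) :
    ∃ D : Divisor K F, (∀ v : Place K F, D v = max (v.ord x) 0) ∧
      Divisor.degree D = (Module.finrank K⟮x⟯ F : ℤ) := by
  classical
  haveI := isDedekindDomain_chartRing hx
  haveI := finite_chartRing hx
  haveI := isPrincipalIdealRing_adjoin hx
  haveI := pX_isPrime hx
  haveI : Fintype ((pX K x).primesOver (chartRing K x)) :=
    (Algebra.QuasiFinite.finite_primesOver (pX K x)).fintype
  let e : (pX K x).primesOver (chartRing K x) → ℤ :=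
    fun q => (q.1.ramificationIdx (Algebra.adjoin K {x}) : ℤ)
  let D : Divisor K F := ∑ q : (pX K x).primesOver (chartRing K x),
    Finsupp.single (zeroPlace hx q) (e q)
  refine ⟨D, ?_, ?_⟩
  · intro v
    have hD : D v = ∑ q : (pX K x).primesOver (chartRing K x),
        if zeroPlace hx q = v then e q else 0 := by
      simp only [D, Finsupp.coe_finset_sum, Finset.sum_apply, Finsupp.single_apply]
    by_cases hv : 0 < v.ord x
    · obtain ⟨q₀, rfl⟩ := exists_zeroPlace hx v hv
      rw [hD, Finset.sum_eq_single q₀]
      · rw [if_pos rfl, max_eq_left hv.le]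
        exact (ord_zeroPlace hx q₀).symm
      · intro q _ hq
        rw [if_neg (fun h => hq (zeroPlace_injective hx h))]
      · intro h
        exact absurd (Finset.mem_univ _) h
    · rw [hD, max_eq_right (not_lt.mp hv)]
      apply Finset.sum_eq_zero
      intro q _
      rw [if_neg]
      rintro rfl
      exact hv (ord_zeroPlace_pos hx q)
  · have h1 : Divisor.degree D = ∑ q : (pX K x).primesOver (chartRing K x), e q := by
      simp only [D, map_sum, Divisor.degree_single, deg_eq_one hF, Nat.cast_one, mul_one]
    have h2 := Ideal.sum_ramification_inertia_eq_finrank (pX K x) (chartRing K x)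
    simp only [inertiaDeg_eq_one hx, mul_one] at h2
    rw [h1, ← finrank_chartRing hx, ← h2]
    push_cast
    rfl

end

/-- **(A2)** `FA_RR_Target_sumZeros`. -/
theorem sumZeros [IsAlgClosed K] [CharZero K] (hF : FA_RR_IsFF K F) :
    FA_RR_Target_sumZeros K F := by
  intro x hx
  haveI := finiteDimensional_adjoin hF hx
  exact sumZeros_aux hx hF

end FA_RR

end
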