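import Mathlib
import Fermat.Agent.Lib.RR.SumZeros

/-!
# `HasPrincipalDivisors` and the description of repartitions (item 77 WP-A, A3/A5)
-/

set_option autoImplicit false
set_option linter.style.haveILetI false

noncomputable section

open AlgebraicCurve IsDedekindDomain IntermediateField WithZero

namespace FA_RR

variable {K F : Type*} [Field K] [Field F] [Algebra K F]

theorem adjoin_inv_eq (x : F) : K⟮x⁻¹⟯ = K⟮x⟯ := by
  apply le_antisymm
  · rw [adjoin_simple_le_iff]
    exact inv_mem (mem_adjoin_simple_self K x)
  · rw [adjoin_simple_le_iff]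
    have h : (x⁻¹)⁻¹ ∈ K⟮x⁻¹⟯ := inv_mem (mem_adjoin_simple_self K x⁻¹)
    rwa [inv_inv] at h

theorem adjoin_sub_const_eq (x : F) (c : K) : K⟮x - algebraMap K F c⟯ = K⟮x⟯ := by
  apply le_antisymm
  · rw [adjoin_simple_le_iff]
    exact sub_mem (mem_adjoin_simple_self K x) (_root_.algebraMap_mem _ c)
  · rw [adjoin_simple_le_iff]
    have h : (x - algebraMap K F c) + algebraMap K F c ∈ K⟮x - algebraMap K F c⟯ :=
      add_mem (mem_adjoin_simple_self K _) (_root_.algebraMap_mem _ c)
    rwa [sub_add_cancel] at h

theorem finrank_adjoin_inv (x : F) :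
    Module.finrank K⟮x⁻¹⟯ F = Module.finrank K⟮x⟯ F := by
  rw [adjoin_inv_eq]

theorem finrank_adjoin_sub_const (x : F) (c : K) :
    Module.finrank K⟮x - algebraMap K F c⟯ F = Module.finrank K⟮x⟯ F := by
  rw [adjoin_sub_const_eq]

/-- **(A3)** principal divisors exist and have degree zero. -/
theorem hasPrincipalDivisors [IsAlgClosed K] [CharZero K] (hF : FA_RR_IsFF K F) :
    HasPrincipalDivisors K F := by
  constructor
  intro f hf
  by_cases halg : IsAlgebraic K f
  · obtain ⟨c, rfl⟩ := exists_const_of_isAlgebraic halg
    exact ⟨0, fun v => by simp [ord_algebraMap], by simp⟩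
  · have htr : Transcendental K f := halg
    obtain ⟨D₀, hD₀, hdeg₀⟩ := sumZeros hF f htr
    obtain ⟨D₁, hD₁, hdeg₁⟩ := sumZeros hF f⁻¹ (transcendental_inv htr)
    refine ⟨D₀ - D₁, fun v => ?_, ?_⟩
    · rw [Finsupp.sub_apply, hD₀, hD₁, v.ord_inv]
      rcases le_total 0 (v.ord f) with h | h
      · rw [max_eq_left h, max_eq_right (by omega)]; ring
      · rw [max_eq_right h, max_eq_left (by omega)]; ring
    · rw [map_sub, hdeg₀, hdeg₁, finrank_adjoin_inv, sub_self]

/-- the set of poles of a function is finite -/
theorem finite_poles [IsAlgClosed K] [CharZero K] (hF : FA_RR_IsFF K F) (f : F) :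
    {v : Place K F | v.ord f < 0}.Finite := by
  rcases eq_or_ne f 0 with rfl | hf
  · simp
  haveI := hasPrincipalDivisors hF
  obtain ⟨D, hD, -⟩ := HasPrincipalDivisors.exists_divisor (K := K) f hf
  apply Set.Finite.subset D.support.finite_toSet
  intro v hv
  simp only [Set.mem_setOf_eq] at hv
  simp only [Finset.mem_coe, Finsupp.mem_support_iff, hD v]
  omega

theorem finite_ord_ne_zero [IsAlgClosed K] [CharZero K] (hF : FA_RR_IsFF K F) (f : F) :
    {v : Place K F | v.ord f ≠ 0}.Finite := by
  rcases eq_or_ne f 0 with rfl | hf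
  · simp
  haveI := hasPrincipalDivisors hF
  obtain ⟨D, hD, -⟩ := HasPrincipalDivisors.exists_divisor (K := K) f hf
  apply Set.Finite.subset D.support.finite_toSet
  intro v hv
  simp only [Set.mem_setOf_eq] at hv
  simp only [Finset.mem_coe, Finsupp.mem_support_iff, hD v]
  exact hv

/-- The functions on places with finitely many poles, as an `F`-subalgebra. -/
def finitePoles [IsAlgClosed K] [CharZero K] (hF : FA_RR_IsFF K F) :
    Subalgebra F (Place K F → F) where
  carrier := {β | {v : Place K F | v.ord (β v) < 0}.Finite}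
  mul_mem' := by
    intro β γ hβ hγ
    apply Set.Finite.subset (Set.Finite.union hβ hγ)
    intro v hv
    simp only [Set.mem_setOf_eq, Pi.mul_apply] at hv
    simp only [Set.mem_union, Set.mem_setOf_eq]
    by_contra hcon
    push Not at hcon
    have hβ0 : β v ≠ 0 := by
      intro h
      rw [h, zero_mul] at hv
      simp at hv
    have hγ0 : γ v ≠ 0 := by
      intro h
      rw [h, mul_zero] at hv
      simp at hv
    rw [v.ord_mul hβ0 hγ0] at hv
    omega
  add_mem' := by
    intro β γ hβ hγ
    apply Set.Finite.subset (Set.Finite.union hβ hγ)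
    intro v hv
    simp only [Set.mem_setOf_eq, Pi.add_apply] at hv
    simp only [Set.mem_union, Set.mem_setOf_eq]
    by_contra hcon
    push Not at hcon
    have h0 : β v + γ v ≠ 0 := by
      intro h
      rw [h] at hv
      simp at hv
    have := ord_add_ge v h0 0 (Or.inr hcon.1) (Or.inr hcon.2)
    omega
  algebraMap_mem' := by
    intro f
    exact finite_poles hF f

/-- **(A5)** the repartitions are exactly the functions with finitely many poles. -/
theorem repartitions_iff [IsAlgClosed K] [CharZero K] (hF : FA_RR_IsFF K F) :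
    FA_RR_Target_repartitions K F := by
  intro α
  constructor
  · intro hα
    have hle : repartitions K F ≤ finitePoles hF := by
      apply Algebra.adjoin_le
      intro β hβ
      have : {v : Place K F | v.ord (β v) < 0} = {v : Place K F | ¬v.adicValuation (β v) ≤ 1} :=
        Set.ext fun v => (v.not_adicValuation_le_one_iff).symm
      show {v : Place K F | v.ord (β v) < 0}.Finite
      rw [this]
      exact hβ
    exact hle hα
  · exact mem_repartitions_of_finite_ord

end FA_RR

end
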