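import Mathlib
import Fermat.Agent.Lib.RR.Principal

/-!
# Kähler differentials of a function field (item 77 WP-D / S24 layer A4, part 1)

`Ω[F⁄K] = F · dt` for every transcendental `t` (characteristic zero), and `dt ≠ 0`.
-/

set_option autoImplicit false
set_option linter.style.haveILetI false

noncomputable section

open AlgebraicCurve IsDedekindDomain IntermediateField WithZero KaehlerDifferential
open scoped IntermediateField.algebraAdjoinAdjoin TensorProduct

namespace FA_RR

variable {K F : Type*} [Field K] [Field F] [Algebra K F]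

/-- The derivation `d/dt` on `K[t]`. -/
def derivAdjoin {t : F} (ht : Transcendental K t) :
    Derivation K (Algebra.adjoin K {t}) (Algebra.adjoin K {t}) :=
  Derivation.mk'
    ((Polynomial.algEquivOfTranscendental K t ht).toLinearMap ∘ₗ
      (Polynomial.derivative' (R := K)).toLinearMap ∘ₗ
      (Polynomial.algEquivOfTranscendental K t ht).symm.toLinearMap)
    (by
      intro a b
      simp only [LinearMap.coe_comp, Function.comp_apply, AlgEquiv.toLinearMap_apply, map_mul,
        Derivation.coeFn_coe, Derivation.leibniz, map_add, smul_eq_mul,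
        AlgEquiv.apply_symm_apply])

theorem derivAdjoin_apply {t : F} (ht : Transcendental K t) (a : Algebra.adjoin K {t}) :
    derivAdjoin ht a = Polynomial.algEquivOfTranscendental K t ht
      (Polynomial.derivative ((Polynomial.algEquivOfTranscendental K t ht).symm a)) := rfl

theorem algEquiv_X {t : F} (ht : Transcendental K t) :
    Polynomial.algEquivOfTranscendental K t ht Polynomial.X = xA K t := by
  apply Subtype.ext
  simp [Polynomial.algEquivOfTranscendental]

theorem derivAdjoin_xA {t : F} (ht : Transcendental K t) : derivAdjoin ht (xA K t) = 1 := by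
  rw [derivAdjoin_apply, ← algEquiv_X ht, AlgEquiv.symm_apply_apply, Polynomial.derivative_X,
    map_one]

/-- `Ω[K[t]⁄K]` is spanned by `dt`. -/
theorem exists_smul_D_adjoin {t : F} (ht : Transcendental K t)
    (ω : Ω[Algebra.adjoin K {t}⁄K]) :
    ∃ a : Algebra.adjoin K {t}, ω = a • D K (Algebra.adjoin K {t}) (xA K t) := by
  have hω : ω ∈ Submodule.span (Algebra.adjoin K {t})
      (Set.range (D K (Algebra.adjoin K {t}))) := by
    rw [span_range_derivation]; trivial
  induction hω using Submodule.span_induction with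
  | mem y hy =>
    obtain ⟨a, rfl⟩ := hy
    obtain ⟨p, rfl⟩ := (Polynomial.algEquivOfTranscendental K t ht).surjective a
    refine ⟨Polynomial.aeval (xA K t) (Polynomial.derivative p), ?_⟩
    have h1 : Polynomial.algEquivOfTranscendental K t ht p = Polynomial.aeval (xA K t) p := by
      have : (Polynomial.algEquivOfTranscendental K t ht : Polynomial K →ₐ[K] _) =
          Polynomial.aeval (xA K t) := by
        apply Polynomial.algHom_ext
        rw [Polynomial.aeval_X]
        exact algEquiv_X ht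
      exact congrArg (fun f => f p) (congrArg DFunLike.coe this)
    rw [h1]
    exact Derivation.map_aeval _ p (xA K t)
  | zero => exact ⟨0, by simp⟩
  | add y z _ _ hy hz =>
    obtain ⟨a, rfl⟩ := hy
    obtain ⟨b, rfl⟩ := hz
    exact ⟨a + b, (add_smul _ _ _).symm⟩
  | smul c y _ hy =>
    obtain ⟨a, rfl⟩ := hy
    exact ⟨c * a, by rw [mul_smul]⟩

section
variable [CharZero K] {t : F} (ht : Transcendental K t) [FiniteDimensional K⟮t⟯ F]

omit ht in
theorem formallyEtale_adjoin : Algebra.FormallyEtale (Algebra.adjoin K {t}) F := by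
  haveI : CharZero K⟮t⟯ := charZero_of_injective_algebraMap (algebraMap K K⟮t⟯).injective
  haveI : Algebra.FormallyEtale (Algebra.adjoin K {t}) K⟮t⟯ :=
    Algebra.FormallyEtale.of_isLocalization (nonZeroDivisors (Algebra.adjoin K {t}))
  haveI : Algebra.FormallyEtale K⟮t⟯ F := Algebra.FormallyEtale.of_isSeparable K⟮t⟯ F
  exact Algebra.FormallyEtale.comp (Algebra.adjoin K {t}) K⟮t⟯ F

include ht

/-- `Ω[F⁄K]` is spanned by `dt`. -/
theorem exists_smul_D (ω : Ω[F⁄K]) : ∃ f : F, ω = f • D K F t := by
  haveI := formallyEtale_adjoin (K := K) (t := t)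
  let E := tensorKaehlerEquivOfFormallyEtale K (Algebra.adjoin K {t}) F
  have key : ∀ z : F ⊗[Algebra.adjoin K {t}] Ω[Algebra.adjoin K {t}⁄K],
      ∃ f : F, z = f ⊗ₜ[Algebra.adjoin K {t}] (D K (Algebra.adjoin K {t}) (xA K t)) := by
    intro z
    induction z using TensorProduct.induction_on with
    | zero => exact ⟨0, by simp⟩
    | tmul f ω₀ =>
      obtain ⟨a, rfl⟩ := exists_smul_D_adjoin ht ω₀
      exact ⟨a • f, by rw [TensorProduct.smul_tmul]⟩
    | add y z hy hz =>
      obtain ⟨f, rfl⟩ := hy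
      obtain ⟨g, rfl⟩ := hz
      exact ⟨f + g, (TensorProduct.add_tmul _ _ _).symm⟩
  obtain ⟨f, hf⟩ := key (E.symm ω)
  refine ⟨f, ?_⟩
  have h1 : ω = E (f ⊗ₜ[Algebra.adjoin K {t}] (D K (Algebra.adjoin K {t}) (xA K t))) := by
    rw [← hf, LinearEquiv.apply_symm_apply]
  rw [h1]
  show mapBaseChange K (Algebra.adjoin K {t}) F _ = _
  rw [mapBaseChange_tmul, map_D]
  rfl

/-- `dt ≠ 0`. -/
theorem D_ne_zero : D K F t ≠ 0 := by
  haveI := formallyEtale_adjoin (K := K) (t := t)
  intro h0
  let E := tensorKaehlerEquivOfFormallyEtale K (Algebra.adjoin K {t}) F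
  have h1 : E.symm (D K F (algebraMap (Algebra.adjoin K {t}) F (xA K t))) =
      1 ⊗ₜ D K (Algebra.adjoin K {t}) (xA K t) :=
    tensorKaehlerEquivOfFormallyEtale_symm_D_algebraMap K (Algebra.adjoin K {t}) F (xA K t)
  have h2 : algebraMap (Algebra.adjoin K {t}) F (xA K t) = t := rfl
  rw [h2, h0, map_zero] at h1
  let φ : Ω[Algebra.adjoin K {t}⁄K] →ₗ[Algebra.adjoin K {t}] Algebra.adjoin K {t} :=
    (derivAdjoin ht).liftKaehlerDifferential
  let ψ : F ⊗[Algebra.adjoin K {t}] Ω[Algebra.adjoin K {t}⁄K] →ₗ[Algebra.adjoin K {t}] F :=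
    (TensorProduct.rid (Algebra.adjoin K {t}) F).toLinearMap ∘ₗ LinearMap.lTensor F φ
  have h3 : ψ (1 ⊗ₜ D K (Algebra.adjoin K {t}) (xA K t)) = 1 := by
    have e1 : LinearMap.lTensor F φ (1 ⊗ₜ D K (Algebra.adjoin K {t}) (xA K t)) =
        (1 : F) ⊗ₜ[Algebra.adjoin K {t}] φ (D K (Algebra.adjoin K {t}) (xA K t)) :=
      LinearMap.lTensor_tmul F φ 1 _
    have e2 : φ (D K (Algebra.adjoin K {t}) (xA K t)) = 1 := by
      show (derivAdjoin ht).liftKaehlerDifferential _ = 1
      rw [Derivation.liftKaehlerDifferential_comp_D, derivAdjoin_xA]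
    show (TensorProduct.rid (Algebra.adjoin K {t}) F)
      (LinearMap.lTensor F φ (1 ⊗ₜ D K (Algebra.adjoin K {t}) (xA K t))) = 1
    rw [e1, e2, TensorProduct.rid_tmul, one_smul]
  rw [← h1, map_zero] at h3
  exact zero_ne_one h3

end

/-- **(D1)** `FA_RR_Target_kaehler`. -/
theorem kaehler [CharZero K] (hF : FA_RR_IsFF K F) : FA_RR_Target_kaehler K F := by
  intro t ht ω
  haveI := finiteDimensional_adjoin hF ht
  exact exists_smul_D ht ω

/-- **(D2)** `FA_RR_Target_D_ne_zero`. -/
theorem D_ne_zero' [CharZero K] (hF : FA_RR_IsFF K F) : FA_RR_Target_D_ne_zero K F := by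
  intro t ht
  haveI := finiteDimensional_adjoin hF ht
  exact D_ne_zero ht

end FA_RR

end
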