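import Mathlib
import Fermat.Agent.Lib.RR.Kaehler

/-!
# Regularity of `d/dt` at a place (item 77 / S24 layer A4, part 2)

For a place `v` with uniformizer `t` and `u ∈ O_v`:  `du = g • dt` with `g ∈ O_v`.
Proof: `Ω[O_v⁄K]` is a finite `O_v`-module (essentially of finite type) and is generated by
`dt` modulo the maximal ideal (residue field `K`); Nakayama.
-/

set_option autoImplicit false
set_option linter.style.haveILetI false

noncomputable section

open AlgebraicCurve IsDedekindDomain IntermediateField WithZero KaehlerDifferential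
open scoped IntermediateField.algebraAdjoinAdjoin

namespace FA_RR

variable {K F : Type*} [Field K] [Field F] [Algebra K F]

/-- The inclusion of the chart ring into the valuation ring of a place containing `x`. -/
def chartIncl (v : Place K F) {x : F} (hx : x ∈ v.toValuationSubring) :
    chartRing K x →ₐ[K] v.toValuationSubring where
  toFun r := ⟨(r : F), chartRing_le v hx r⟩
  map_one' := rfl
  map_mul' _ _ := rfl
  map_zero' := rfl
  map_add' _ _ := rfl
  commutes' _ := rfl

theorem chartIncl_coe (v : Place K F) {x : F} (hx : x ∈ v.toValuationSubring)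
    (r : chartRing K x) : ((chartIncl v hx r : v.toValuationSubring) : F) = (r : F) := rfl

/-- The valuation ring of a place is essentially of finite type over `K`. -/
theorem essFiniteType_place [IsAlgClosed K] [CharZero K] (hF : FA_RR_IsFF K F) (v : Place K F) :
    Algebra.EssFiniteType K v.toValuationSubring := by
  classical
  obtain ⟨x₀, hx₀, -⟩ := id hF
  obtain ⟨x, hx, hxv⟩ : ∃ y : F, Transcendental K y ∧ y ∈ v.toValuationSubring := by
    rcases v.toValuationSubring.mem_or_inv_mem x₀ with h | h
    · exact ⟨x₀, hx₀, h⟩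
    · exact ⟨x₀⁻¹, transcendental_inv hx₀, h⟩
  haveI := finiteDimensional_adjoin hF hx
  haveI := isDedekindDomain_chartRing hx
  haveI := isFractionRing_chartRing (K := K) x
  haveI := finiteType_chartRing hx
  obtain ⟨w, hw⟩ := exists_chartPlace_eq hx v hxv
  obtain ⟨s, hs⟩ := (Algebra.FiniteType.out : (⊤ : Subalgebra K (chartRing K x)).FG)
  rw [Algebra.essFiniteType_iff]
  refine ⟨s.image (chartIncl v hxv), ?_⟩
  have hadj : Algebra.adjoin K ((s.image (chartIncl v hxv) : Finset _) : Set v.toValuationSubring)
      = (chartIncl v hxv).range := by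
    rw [Finset.coe_image, ← AlgHom.map_adjoin, hs, Algebra.map_top]
  intro z
  -- `z = a / b` with `b ∉ w`
  have hz : (z : F) ∈ (w.valuation F).valuationSubring := by
    have : (z : F) ∈ (chartPlace hx w).toValuationSubring := by rw [hw]; exact z.2
    exact this
  rw [← HeightOneSpectrum.valuationSubringAtPrime_eq_valuationSubring] at hz
  have hz' : (z : F) ∈ (HeightOneSpectrum.valuationSubringAtPrime F w).toSubring := hz
  rw [HeightOneSpectrum.valuationSubringAtPrime_toSubring] at hz'
  obtain ⟨a, b, hb, hab⟩ := hz'
  have hbw : b ∉ w.asIdeal := hb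
  have hb0 : algebraMap (chartRing K x) F b ≠ 0 := by
    intro h
    have : b = 0 := (IsFractionRing.injective (chartRing K x) F) (by rw [h, map_zero])
    exact hbw (this ▸ w.asIdeal.zero_mem)
  -- `b` is a unit of `O_v`
  have hbval : w.valuation F (algebraMap (chartRing K x) F b) = 1 := by
    refine le_antisymm (w.valuation_le_one b) ?_
    by_contra hlt
    push Not at hlt
    exact hbw ((w.valuation_lt_one_iff_mem b).mp hlt)
  have hbinv : (algebraMap (chartRing K x) F b)⁻¹ ∈ v.toValuationSubring := by
    rw [← hw]
    show w.valuation F (algebraMap (chartRing K x) F b)⁻¹ ≤ 1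
    rw [map_inv₀, hbval, inv_one]
  refine ⟨chartIncl v hxv b, ?_, ?_, ?_⟩
  · rw [hadj]; exact ⟨b, rfl⟩
  · refine IsUnit.of_mul_eq_one (⟨_, hbinv⟩ : v.toValuationSubring) ?_
    apply Subtype.ext
    show (b : F) * (algebraMap (chartRing K x) F b)⁻¹ = 1
    exact mul_inv_cancel₀ hb0
  · rw [hadj]
    refine ⟨a, ?_⟩
    apply Subtype.ext
    show (a : F) = (z : F) * (b : F)
    rw [hab]
    show algebraMap (chartRing K x) F a =
      algebraMap (chartRing K x) F a * (algebraMap (chartRing K x) F b)⁻¹ *
        algebraMap (chartRing K x) F b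
    field_simp

/-- **Regularity**: for `u ∈ O_v` and a uniformizer `t`, `du ∈ O_v · dt` in `Ω[O_v⁄K]`. -/
theorem exists_smul_D_place [IsAlgClosed K] [CharZero K] (hF : FA_RR_IsFF K F) (v : Place K F)
    {t : v.toValuationSubring} (ht : Irreducible t) (u : v.toValuationSubring) :
    ∃ g : v.toValuationSubring,
      D K v.toValuationSubring u = g • D K v.toValuationSubring t := by
  haveI := essFiniteType_place hF v
  have hres := residue hF
  -- Nakayama
  set N : Submodule v.toValuationSubring Ω[v.toValuationSubring⁄K] :=
    Submodule.span _ {D K v.toValuationSubring t} with hN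
  have hfg : (⊤ : Submodule v.toValuationSubring Ω[v.toValuationSubring⁄K]).FG :=
    Module.finite_def.mp inferInstance
  have hjac : IsLocalRing.maximalIdeal v.toValuationSubring ≤ Ideal.jacobson ⊥ := by
    rw [IsLocalRing.jacobson_eq_maximalIdeal ⊥ bot_ne_top]
  have hle : (⊤ : Submodule v.toValuationSubring Ω[v.toValuationSubring⁄K]) ≤
      N ⊔ IsLocalRing.maximalIdeal v.toValuationSubring • ⊤ := by
    rw [← span_range_derivation K v.toValuationSubring, Submodule.span_le]
    rintro _ ⟨a, rfl⟩
    -- `a = c + t * a'`
    have ha : v.adicValuation (a : F) ≤ 1 := v.adicValuation_le_one_of_mem a.2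
    obtain ⟨c, hc⟩ := hres v a ha
    have h1 : (a : F) - algebraMap K F c = ((a - algebraMap K v.toValuationSubring c :
        v.toValuationSubring) : F) := rfl
    rw [h1, v.adicValuation_coe] at hc
    have h2 : a - algebraMap K v.toValuationSubring c ∈
        IsLocalRing.maximalIdeal v.toValuationSubring := by
      have := (v.heightOneSpectrum.intValuation_lt_one_iff_mem _).mp hc
      simpa using this
    rw [ht.maximalIdeal_eq, Ideal.mem_span_singleton] at h2
    obtain ⟨a', ha'⟩ := h2
    have h3 : a = algebraMap K v.toValuationSubring c + t * a' := by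
      rw [← ha']; ring
    have h4 : D K v.toValuationSubring a = t • D K v.toValuationSubring a'
        + a' • D K v.toValuationSubring t := by
      rw [h3, map_add, Derivation.map_algebraMap, zero_add, Derivation.leibniz]
    rw [SetLike.mem_coe, h4, add_comm]
    refine Submodule.add_mem_sup (Submodule.smul_mem _ _ (Submodule.subset_span rfl)) ?_
    refine Submodule.smul_mem_smul ?_ (Submodule.subset_span ⟨a', rfl⟩)
    rw [ht.maximalIdeal_eq]
    exact Ideal.mem_span_singleton_self t
  have htop : (⊤ : Submodule v.toValuationSubring Ω[v.toValuationSubring⁄K]) ≤ N :=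
    Submodule.le_of_le_smul_of_le_jacobson_bot hfg hjac hle
  have hu : D K v.toValuationSubring u ∈ N := htop Submodule.mem_top
  obtain ⟨g, hg⟩ := Submodule.mem_span_singleton.mp hu
  exact ⟨g, hg.symm⟩

/-- **Regularity in `Ω[F⁄K]`**: for `u ∈ O_v` and `t` with `ord t = 1`, `du = g • dt` with
`g ∈ O_v`. -/
theorem exists_mem_smul_D [IsAlgClosed K] [CharZero K] (hF : FA_RR_IsFF K F) (v : Place K F)
    {t : F} (ht : v.ord t = 1) {u : F} (hu : u ∈ v.toValuationSubring) :
    ∃ g : F, g ∈ v.toValuationSubring ∧ D K F u = g • D K F t := by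
  have htmem : t ∈ v.toValuationSubring := (mem_iff_ord v).mpr (Or.inr (by omega))
  -- `t` is irreducible in `O_v`
  have hirr : Irreducible (⟨t, htmem⟩ : v.toValuationSubring) := by
    obtain ⟨π, hπ⟩ := IsDiscreteValuationRing.exists_irreducible v.toValuationSubring
    have ht0 : t ≠ 0 := by
      rintro rfl
      simp at ht
    obtain ⟨w, hw⟩ := v.exists_unit_mul_zpow ht0 hπ
    rw [ht, zpow_one] at hw
    have : (⟨t, htmem⟩ : v.toValuationSubring) = (w : v.toValuationSubring) * π :=
      Subtype.ext hw
    rw [this]
    exact (irreducible_units_mul w).mpr hπ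
  obtain ⟨g, hg⟩ := exists_smul_D_place hF v hirr ⟨u, hu⟩
  refine ⟨g, g.2, ?_⟩
  have h := congrArg (KaehlerDifferential.map K K v.toValuationSubring F) hg
  rw [map_smul, map_D, map_D] at h
  exact h

end FA_RR

end
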