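import Mathlib
import Fermat.Agent.Lib.RR.Regular
import Fermat.Prelude.Def_AlgebraicCurve_CanonicalDivisor
import Fermat.Prelude.Def_AlgebraicCurve_IsCurveOver

/-!
# Orders of differentials (item 77 / S24 layer A4, part 3)

* `FA_RR.isCurveOver`, `FA_RR.dCoordGenerates`
* `FA_RR.ordDifferential_smul_D` : `ord_v (g • dt) = ord_v g` for every uniformizer `t`
* `FA_RR.ordDifferential_D` : `ord_v (dy) = ord_v y - 1` if `ord_v y ≠ 0` (characteristic zero)
-/

set_option autoImplicit false
set_option linter.style.haveILetI false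

noncomputable section

open AlgebraicCurve IsDedekindDomain IntermediateField WithZero KaehlerDifferential

namespace FA_RR

variable {K F : Type*} [Field K] [Field F] [Algebra K F]

theorem transcendental_of_ord_ne_zero [IsAlgClosed K] (v : Place K F) {t : F}
    (ht : v.ord t ≠ 0) : Transcendental K t := by
  intro halg
  obtain ⟨c, rfl⟩ := exists_const_of_isAlgebraic halg
  exact ht (ord_algebraMap v c)

/-- The prelude's `dCoord` is `dt` for a uniformizer `t`. -/
theorem dCoord_spec (v : Place K F) : ∃ t : F, v.ord t = 1 ∧ v.dCoord = D K F t := by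
  refine ⟨_, ?_, rfl⟩
  exact v.ord_coe_irreducible
    (IsDiscreteValuationRing.exists_irreducible v.toValuationSubring).choose_spec

theorem finite_residueField [IsAlgClosed K] [CharZero K] (hF : FA_RR_IsFF K F) (v : Place K F) :
    Module.Finite K v.ResidueField := by
  have h := deg_eq_one hF v
  have h' : Module.finrank K v.ResidueField = 1 := h
  exact Module.finite_of_finrank_pos (by omega)

theorem finrank_kaehler [IsAlgClosed K] [CharZero K] (hF : FA_RR_IsFF K F) :
    Module.finrank F Ω[F⁄K] = 1 := by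
  obtain ⟨x, hx, -⟩ := id hF
  refine finrank_eq_one (D K F x) (D_ne_zero' hF x hx) fun ω => ?_
  obtain ⟨f, hf⟩ := kaehler hF x hx ω
  exact ⟨f, hf.symm⟩

/-- A function field over an algebraically closed field of characteristic zero is a curve in
the sense of the prelude. -/
theorem isCurveOver [IsAlgClosed K] [CharZero K] (hF : FA_RR_IsFF K F) : IsCurveOver K F :=
  { toHasPrincipalDivisors := hasPrincipalDivisors hF
    finiteResidue := finite_residueField hF
    kaehler_free_rank_one := ⟨inferInstance, finrank_kaehler hF⟩ }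

theorem nontrivial_kaehler [IsAlgClosed K] [CharZero K] (hF : FA_RR_IsFF K F) :
    Nontrivial Ω[F⁄K] :=
  Module.nontrivial_of_finrank_eq_succ (n := 0) (finrank_kaehler hF)

theorem dCoordGenerates [IsAlgClosed K] [CharZero K] (hF : FA_RR_IsFF K F) (v : Place K F) :
    v.DCoordGenerates := by
  constructor
  obtain ⟨t, ht, hd⟩ := dCoord_spec v
  have htr : Transcendental K t := transcendental_of_ord_ne_zero v (by omega)
  rw [eq_top_iff]
  intro ω _
  obtain ⟨f, hf⟩ := kaehler hF t htr ω
  rw [hd, Submodule.mem_span_singleton]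
  exact ⟨f, hf.symm⟩

/-- Two uniformizers: `dt = g • dt'` with `g` a unit at `v`. -/
theorem exists_unit_smul_D [IsAlgClosed K] [CharZero K] (hF : FA_RR_IsFF K F) (v : Place K F)
    {t t' : F} (ht : v.ord t = 1) (ht' : v.ord t' = 1) :
    ∃ g : F, g ≠ 0 ∧ v.ord g = 0 ∧ D K F t = g • D K F t' := by
  have htm : t ∈ v.toValuationSubring := (mem_iff_ord v).mpr (Or.inr (by omega))
  have htm' : t' ∈ v.toValuationSubring := (mem_iff_ord v).mpr (Or.inr (by omega))
  obtain ⟨g, hg, hgD⟩ := exists_mem_smul_D hF v ht' htm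
  obtain ⟨g', hg', hgD'⟩ := exists_mem_smul_D hF v ht htm'
  have htr : Transcendental K t := transcendental_of_ord_ne_zero v (by omega)
  have hne : D K F t ≠ 0 := D_ne_zero' hF t htr
  have h1 : (g * g' - 1) • D K F t = 0 := by
    rw [sub_smul, mul_smul, ← hgD', ← hgD, one_smul, sub_self]
  have h2 : g * g' = 1 := by
    rcases smul_eq_zero.mp h1 with h | h
    · exact sub_eq_zero.mp h
    · exact absurd h hne
  have hg0 : g ≠ 0 := left_ne_zero_of_mul_eq_one h2
  have hg0' : g' ≠ 0 := right_ne_zero_of_mul_eq_one h2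
  refine ⟨g, hg0, ?_, hgD⟩
  have h3 : v.ord g + v.ord g' = 0 := by
    rw [← v.ord_mul hg0 hg0', h2, v.ord_one]
  have h4 : 0 ≤ v.ord g := by
    rcases (mem_iff_ord v).mp hg with h | h
    · exact absurd h hg0
    · exact h
  have h5 : 0 ≤ v.ord g' := by
    rcases (mem_iff_ord v).mp hg' with h | h
    · exact absurd h hg0'
    · exact h
  omega

/-- `ord_v (g • dt) = ord_v g` for every uniformizer `t`. -/
theorem ordDifferential_smul_D [IsAlgClosed K] [CharZero K] (hF : FA_RR_IsFF K F)
    (v : Place K F) {t : F} (ht : v.ord t = 1) (g : F) :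
    v.ordDifferential (g • D K F t) = v.ord g := by
  haveI := dCoordGenerates hF v
  haveI := nontrivial_kaehler hF
  obtain ⟨t', ht', hd⟩ := dCoord_spec v
  obtain ⟨h, hh0, hh, hD⟩ := exists_unit_smul_D hF v ht ht'
  have h1 : g • D K F t = (g * h) • v.dCoord := by
    rw [hd, hD, mul_smul]
  rw [Place.ordDifferential, v.differentialCoeff_unique h1]
  rcases eq_or_ne g 0 with rfl | hg
  · simp
  · rw [v.ord_mul hg hh0, hh, add_zero]

/-- In characteristic zero, `ord_v (dy) = ord_v y - 1` whenever `ord_v y ≠ 0`. -/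
theorem ordDifferential_D [IsAlgClosed K] [CharZero K] (hF : FA_RR_IsFF K F)
    (v : Place K F) {y : F} (hy : v.ord y ≠ 0) :
    v.ordDifferential (D K F y) = v.ord y - 1 := by
  obtain ⟨π, hπ⟩ := IsDiscreteValuationRing.exists_irreducible v.toValuationSubring
  have hπ1 : v.ord (π : F) = 1 := v.ord_coe_irreducible hπ
  have hπ0 : (π : F) ≠ 0 := by
    intro h; rw [h] at hπ1; simp at hπ1
  have hy0 : y ≠ 0 := by
    rintro rfl; simp at hy
  obtain ⟨u, hu⟩ := v.exists_unit_mul_zpow hy0 hπ
  set n := v.ord y with hn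
  set t : F := (π : F) with ht
  have hu1 : v.ord ((u : v.toValuationSubring) : F) = 0 := v.ord_coe_unit u
  have hu0 : ((u : v.toValuationSubring) : F) ≠ 0 := by
    intro h
    have := u.ne_zero
    exact this (Subtype.ext h)
  obtain ⟨g, hg, hgD⟩ := exists_mem_smul_D hF v hπ1 (u : v.toValuationSubring).2
  -- `dy = t^(n-1) (t g + n u) dt`
  have hD : D K F y = (t ^ (n - 1) * (t * g + (n : F) * (u : v.toValuationSubring))) •
      D K F t := by
    have hpow : t ^ n = t ^ (n - 1) * t := by
      rw [← zpow_add_one₀ hπ0, sub_add_cancel]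
    rw [hu, Derivation.leibniz, Derivation.leibniz_zpow, hgD, ← Int.cast_smul_eq_zsmul F n]
    simp only [smul_smul]
    rw [← add_smul]
    congr 1
    rw [hpow]
    ring
  rw [hD, ordDifferential_smul_D hF v hπ1]
  -- the unit
  have hnK : (n : K) ≠ 0 := Int.cast_ne_zero.mpr hy
  have hnF : (n : F) = algebraMap K F (n : K) := (map_intCast (algebraMap K F) n).symm
  have hn0 : (n : F) ≠ 0 := by
    rw [hnF]
    exact (map_ne_zero (algebraMap K F)).mpr hnK
  have hnord : v.ord ((n : F) * (u : v.toValuationSubring)) = 0 := by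
    rw [v.ord_mul hn0 hu0, hu1, add_zero, hnF, ord_algebraMap]
  have hsum : v.ord (t * g + (n : F) * (u : v.toValuationSubring)) = 0 := by
    rw [add_comm, ord_add_eq_of_lt v (mul_ne_zero hn0 hu0), hnord]
    rcases eq_or_ne g 0 with rfl | hg0
    · left; simp
    · right
      rw [hnord, v.ord_mul hπ0 hg0, hπ1]
      rcases (mem_iff_ord v).mp hg with h | h
      · exact absurd h hg0
      · omega
  have hsum0 : t * g + (n : F) * (u : v.toValuationSubring) ≠ 0 := by
    intro h
    have h3 : (n : F) * (u : v.toValuationSubring) = -(t * g) := by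
      rw [add_comm] at h
      exact eq_neg_of_add_eq_zero_left h
    rcases eq_or_ne g 0 with rfl | hg0
    · rw [mul_zero, neg_zero] at h3
      exact (mul_ne_zero hn0 hu0) h3
    · have h4 := congrArg v.ord h3
      rw [hnord, ord_neg, v.ord_mul hπ0 hg0, hπ1] at h4
      rcases (mem_iff_ord v).mp hg with h | h
      · exact absurd h hg0
      · omega
  rw [v.ord_mul (zpow_ne_zero _ hπ0) hsum0, hsum, add_zero, v.ord_zpow, hπ1, mul_one]

end FA_RR

end
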