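import Mathlib
import Fermat.Agent.Lib.RR.OrdDiff

/-!
# The degree of the canonical divisor via Riemann–Hurwitz counting (S24 layer A6, generic part)
-/

set_option autoImplicit false
set_option linter.style.haveILetI false

noncomputable section

open AlgebraicCurve IsDedekindDomain IntermediateField WithZero KaehlerDifferential

namespace FA_RR

variable {K F : Type*} [Field K] [Field F] [Algebra K F]

section ZeroDiv

variable [IsAlgClosed K] [CharZero K] (hF : FA_RR_IsFF K F)

/-- The divisor of zeros of a transcendental element. -/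
def zeroDiv {y : F} (hy : Transcendental K y) : Divisor K F :=
  (sumZeros hF y hy).choose

theorem zeroDiv_apply {y : F} (hy : Transcendental K y) (v : Place K F) :
    zeroDiv hF hy v = max (v.ord y) 0 :=
  (sumZeros hF y hy).choose_spec.1 v

theorem degree_zeroDiv {y : F} (hy : Transcendental K y) :
    Divisor.degree (zeroDiv hF hy) = (Module.finrank K⟮y⟯ F : ℤ) :=
  (sumZeros hF y hy).choose_spec.2

theorem mem_support_zeroDiv {y : F} (hy : Transcendental K y) (v : Place K F) :
    v ∈ (zeroDiv hF hy).support ↔ 0 < v.ord y := by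
  rw [Finsupp.mem_support_iff, zeroDiv_apply]
  constructor
  · intro h
    by_contra hn
    exact h (max_eq_right (not_lt.mp hn))
  · intro h
    rw [max_eq_left h.le]
    omega

theorem zeroDiv_nonneg {y : F} (hy : Transcendental K y) (v : Place K F) :
    0 ≤ zeroDiv hF hy v := by
  rw [zeroDiv_apply]; exact le_max_right _ _

theorem card_support_zeroDiv {y : F} (hy : Transcendental K y) :
    (zeroDiv hF hy).support.card = Nat.card {v : Place K F // 0 < v.ord y} := by
  have hset : {v : Place K F | 0 < v.ord y} = ↑(zeroDiv hF hy).support :=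
    Set.ext fun v => (mem_support_zeroDiv hF hy v).symm
  calc (zeroDiv hF hy).support.card
      = ((zeroDiv hF hy).support : Set (Place K F)).ncard := (Set.ncard_coe_finset _).symm
    _ = {v : Place K F | 0 < v.ord y}.ncard := by rw [hset]
    _ = Nat.card {v : Place K F // 0 < v.ord y} := (Nat.card_coe_set_eq _).symm

end ZeroDiv

section IndSupp

/-- The indicator divisor of the support of a divisor. -/
def indSupp (D : Divisor K F) : Divisor K F := ∑ v ∈ D.support, Finsupp.single v 1

theorem indSupp_apply (D : Divisor K F) (v : Place K F) :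
    indSupp D v = if D v = 0 then 0 else 1 := by
  classical
  rw [indSupp, Finsupp.finset_sum_apply]
  simp only [Finsupp.single_apply]
  rw [Finset.sum_ite_eq']
  by_cases h : D v = 0
  · rw [if_pos h, if_neg (by simpa using h)]
  · rw [if_neg h, if_pos (by simpa using h)]

theorem degree_indSupp [IsAlgClosed K] [CharZero K] (hF : FA_RR_IsFF K F) (D : Divisor K F) :
    Divisor.degree (indSupp D) = (D.support.card : ℤ) := by
  rw [indSupp, map_sum]
  simp only [Divisor.degree_single, deg_eq_one hF, Nat.cast_one, mul_one]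
  simp

end IndSupp

section Hurwitz

variable [IsAlgClosed K] [CharZero K] (hF : FA_RR_IsFF K F)

theorem ord_sub_const_of_pole (v : Place K F) {x : F} (hx : v.ord x < 0) (c : K) :
    v.ord (x - algebraMap K F c) = v.ord x := by
  have hx0 : x ≠ 0 := by rintro rfl; simp at hx
  rw [sub_eq_add_neg]
  refine ord_add_eq_of_lt v hx0 ?_
  rcases eq_or_ne c 0 with rfl | hc
  · left; simp
  · right
    rw [ord_neg, ord_algebraMap]
    exact hx

theorem ord_sub_const_eq_zero (v : Place K F) {x : F} {c₀ c : K} (hc : c ≠ c₀)
    (h : 0 < v.ord (x - algebraMap K F c₀)) : v.ord (x - algebraMap K F c) = 0 := by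
  have h1 : x - algebraMap K F c = algebraMap K F (c₀ - c) + (x - algebraMap K F c₀) := by
    rw [map_sub]; ring
  have hne : algebraMap K F (c₀ - c) ≠ 0 := by
    rw [Ne, map_eq_zero]
    exact sub_ne_zero.mpr (Ne.symm hc)
  rw [h1, ord_add_eq_of_lt v hne (Or.inr (by rw [ord_algebraMap]; exact h)), ord_algebraMap]

include hF

/-- the value of `x` at a place where `x` is regular -/
theorem exists_const_ord_pos (v : Place K F) {x : F} (hx : Transcendental K x)
    (h : 0 ≤ v.ord x) : ∃ c : K, 0 < v.ord (x - algebraMap K F c) := by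
  have hmem : v.adicValuation x ≤ 1 := v.adicValuation_le_one_iff.mpr (Or.inr h)
  obtain ⟨c, hc⟩ := residue hF v x hmem
  refine ⟨c, ?_⟩
  rcases (adicValuation_lt_one_iff v).mp hc with h0 | h0
  · exact absurd (h0 ▸ isAlgebraic_zero) (transcendental_sub_const hx c)
  · exact h0

omit [IsAlgClosed K] [CharZero K] hF in
theorem D_sub_const (x : F) (c : K) : D K F (x - algebraMap K F c) = D K F x := by
  rw [map_sub, Derivation.map_algebraMap, sub_zero]

/-- **Riemann–Hurwitz, divisor form**: the divisor of `dx`. -/
theorem divisor_D_eq {x : F} (hx : Transcendental K x) (B : Finset K)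
    (hB : ∀ c, c ∉ B → ∀ v : Place K F, v.ord (x - algebraMap K F c) ≤ 1)
    (W : Divisor K F) (hW : ∀ v, W v = v.ordDifferential (D K F x)) :
    W = ∑ c ∈ B, (zeroDiv hF (transcendental_sub_const hx c)
          - indSupp (zeroDiv hF (transcendental_sub_const hx c)))
        - (zeroDiv hF (transcendental_inv hx) + indSupp (zeroDiv hF (transcendental_inv hx))) := by
  classical
  ext v
  rw [hW, Finsupp.sub_apply, Finsupp.finset_sum_apply, Finsupp.add_apply]
  simp only [Finsupp.sub_apply, indSupp_apply, zeroDiv_apply]
  rcases lt_or_ge (v.ord x) 0 with hneg | hpos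
  · -- a pole
    have h1 : ∀ c ∈ B, (max (v.ord (x - algebraMap K F c)) 0
        - if max (v.ord (x - algebraMap K F c)) 0 = 0 then (0 : ℤ) else 1) = 0 := by
      intro c _
      rw [ord_sub_const_of_pole v hneg c, max_eq_right hneg.le, if_pos rfl, sub_zero]
    rw [Finset.sum_eq_zero h1, ordDifferential_D hF v (by omega), v.ord_inv,
      max_eq_left (by omega), if_neg (by omega)]
    ring
  · -- a regular point
    obtain ⟨c₀, hc₀⟩ := exists_const_ord_pos hF v hx hpos
    have h2 : v.ordDifferential (D K F x) = v.ord (x - algebraMap K F c₀) - 1 := by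
      rw [← D_sub_const x c₀, ordDifferential_D hF v (by omega)]
    have h3 : ∀ c ∈ B, c ≠ c₀ → (max (v.ord (x - algebraMap K F c)) 0
        - if max (v.ord (x - algebraMap K F c)) 0 = 0 then (0 : ℤ) else 1) = 0 := by
      intro c _ hc
      rw [ord_sub_const_eq_zero v hc hc₀, max_self, if_pos rfl, sub_zero]
    rw [v.ord_inv, max_eq_right (by omega), if_pos rfl, add_zero, sub_zero, h2]
    by_cases hcB : c₀ ∈ B
    · rw [Finset.sum_eq_single c₀ (fun c hc hne => h3 c hc hne) (fun h => absurd hcB h),
        max_eq_left hc₀.le, if_neg (by omega)]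
    · rw [Finset.sum_eq_zero (fun c hc => h3 c hc (fun h => hcB (h ▸ hc)))]
      have := hB c₀ hcB v
      omega

/-- **Riemann–Hurwitz, degree form**. -/
theorem degree_divisor_D {x : F} (hx : Transcendental K x) (B : Finset K)
    (hB : ∀ c, c ∉ B → ∀ v : Place K F, v.ord (x - algebraMap K F c) ≤ 1)
    (W : Divisor K F) (hW : ∀ v, W v = v.ordDifferential (D K F x)) :
    Divisor.degree W =
      ∑ c ∈ B, ((Module.finrank K⟮x⟯ F : ℤ)
          - (Nat.card {v : Place K F // 0 < v.ord (x - algebraMap K F c)} : ℤ))
        - ((Module.finrank K⟮x⟯ F : ℤ) + (Nat.card {v : Place K F // 0 < v.ord x⁻¹} : ℤ)) := by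
  rw [divisor_D_eq hF hx B hB W hW, map_sub, map_sum, map_add]
  simp only [map_sub, degree_zeroDiv, degree_indSupp hF, card_support_zeroDiv,
    finrank_adjoin_sub_const, finrank_adjoin_inv]

theorem differentialCoeff_ne_zero (v : Place K F) {ω : Ω[F⁄K]} (hω : ω ≠ 0) :
    v.differentialCoeff ω ≠ 0 := by
  haveI := dCoordGenerates hF v
  intro h
  apply hω
  rw [← v.differentialCoeff_smul_dCoord ω, h, zero_smul]

/-- the degree of a canonical divisor does not depend on the differential -/
theorem degree_canonicalDivisorOf [HasCanonicalDivisor (K := K) (F := F)]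
    {x : F} (hx : Transcendental K x) {ω : Ω[F⁄K]} (hω : ω ≠ 0) :
    Divisor.degree (canonicalDivisorOf hω) =
      Divisor.degree (canonicalDivisorOf (D_ne_zero' hF x hx)) := by
  haveI := hasPrincipalDivisors hF
  haveI := nontrivial_kaehler hF
  obtain ⟨f, hf⟩ := kaehler hF x hx ω
  have hf0 : f ≠ 0 := by
    rintro rfl
    rw [zero_smul] at hf
    exact hω hf
  obtain ⟨Df, hDf, hdeg⟩ := HasPrincipalDivisors.exists_divisor (K := K) f hf0
  have key : canonicalDivisorOf hω = Df + canonicalDivisorOf (D_ne_zero' hF x hx) := by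
    ext v
    haveI := dCoordGenerates hF v
    rw [Finsupp.add_apply, canonicalDivisorOf_apply, canonicalDivisorOf_apply, hDf]
    conv_lhs => rw [hf]
    exact v.ordDifferential_smul hf0 (differentialCoeff_ne_zero hF v (D_ne_zero' hF x hx))
  rw [key, map_add, hdeg, zero_add]

/-- unramified fibres: if the zero divisor of `y` has `[F : K(y)]` points, all zeros are
simple -/
theorem ord_le_one_of_card {y : F} (hy : Transcendental K y)
    (hcard : Nat.card {v : Place K F // 0 < v.ord y} = Module.finrank K⟮y⟯ F)
    (v : Place K F) : v.ord y ≤ 1 := by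
  classical
  by_contra hv
  push Not at hv
  have hdeg := degree_zeroDiv hF hy
  have hsupp := card_support_zeroDiv hF hy
  -- degree = sum over the support of the values
  have h1 : Divisor.degree (zeroDiv hF hy) =
      ∑ w ∈ (zeroDiv hF hy).support, zeroDiv hF hy w := by
    conv_lhs => rw [← Finsupp.sum_single (zeroDiv hF hy)]
    rw [Finsupp.sum, map_sum]
    simp only [Divisor.degree_single, deg_eq_one hF, Nat.cast_one, mul_one]
  have hvmem : v ∈ (zeroDiv hF hy).support := (mem_support_zeroDiv hF hy v).mpr (by omega)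
  have h2 : ∑ w ∈ (zeroDiv hF hy).support, (1 : ℤ) <
      ∑ w ∈ (zeroDiv hF hy).support, zeroDiv hF hy w := by
    apply Finset.sum_lt_sum
    · intro w hw
      have := (mem_support_zeroDiv hF hy w).mp hw
      rw [zeroDiv_apply, max_eq_left this.le]
      omega
    · refine ⟨v, hvmem, ?_⟩
      rw [zeroDiv_apply, max_eq_left (by omega)]
      omega
  rw [Finset.sum_const, ← h1, hdeg, hsupp, hcard] at h2
  simp at h2

end Hurwitz

end FA_RR

end
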