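import Mathlib
import Fermat.Agent.Lib.RR.Interface
import Fermat.Agent.Lib.RR.Principal

/-!
# Riemann–Roch WP-B, part 1: the spaces `L(D)`

`L(D) ≤ L(D + P)` with codimension `≤ 1`, `L(0) = K`, `L(D) = 0` for `deg D < 0`,
`L(D)` is finite-dimensional and `ℓ(D') ≤ ℓ(D) + deg D' - deg D` for `D ≤ D'`.
-/

set_option autoImplicit false
set_option linter.style.haveILetI false

noncomputable section

open AlgebraicCurve WithZero IntermediateField

namespace FA_RR.WPB

variable {K F : Type*} [Field K] [Field F] [Algebra K F]

/-- Discreteness of `ℤᵐ⁰`. -/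
theorem le_exp_of_lt_exp_succ {x : ℤᵐ⁰} {n : ℤ} (h : x < exp (n + 1)) : x ≤ exp n := by
  rcases eq_or_ne x 0 with rfl | hx
  · simp
  · obtain ⟨m, rfl⟩ : ∃ m : ℤ, x = exp m := ⟨log x, (exp_log hx).symm⟩
    rw [exp_lt_exp] at h
    rw [exp_le_exp]
    omega

theorem eq_exp_succ_of_not_le {x : ℤᵐ⁰} {n : ℤ} (h1 : ¬ x ≤ exp n) (h2 : x ≤ exp (n + 1)) :
    x = exp (n + 1) := by
  rcases eq_or_ne x 0 with rfl | hx
  · simp at h1
  · obtain ⟨m, rfl⟩ : ∃ m : ℤ, x = exp m := ⟨log x, (exp_log hx).symm⟩
    rw [exp_le_exp] at h1 h2
    congr 1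
    omega

theorem L_mono {D D' : Divisor K F} (h : D ≤ D') :
    riemannRochSpace D ≤ riemannRochSpace D' := fun _ hf v =>
  (hf v).trans (exp_le_exp.mpr (Finsupp.le_def.mp h v))

/-- The local step: if `v g = exp (n+1)` and `v f ≤ exp (n+1)` then `v (f - c g) ≤ exp n` for
some constant `c`. -/
theorem exists_const_sub (hres : FA_RR_Target_residue K F) (v : Place K F) {f g : F} {n : ℤ}
    (hg : v.adicValuation g = exp (n + 1)) (hf : v.adicValuation f ≤ exp (n + 1)) :
    ∃ c : K, v.adicValuation (f - c • g) ≤ exp n := by
  have hg0 : g ≠ 0 := by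
    rintro rfl
    simp at hg
  have h1 : v.adicValuation (f / g) ≤ 1 := by
    rw [map_div₀, hg]
    exact div_le_one_of_le₀ hf zero_le
  obtain ⟨c, hc⟩ := hres v (f / g) h1
  refine ⟨c, le_exp_of_lt_exp_succ ?_⟩
  have h2 : f - c • g = g * (f / g - algebraMap K F c) := by
    rw [Algebra.smul_def]
    field_simp
  rw [h2, map_mul, hg]
  calc exp (n + 1) * v.adicValuation (f / g - algebraMap K F c)
      < exp (n + 1) * 1 := by
        apply mul_lt_mul_of_pos_left hc
        exact zero_lt_iff.2 (by simp)
    _ = exp (n + 1) := mul_one _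

/-- Membership in `L(D)` for an element of `L(D + P)` is a condition at `P` only. -/
theorem mem_L_of_mem_L_add (D : Divisor K F) (P : Place K F) {f : F}
    (hf : f ∈ riemannRochSpace (D + Finsupp.single P 1))
    (hP : P.adicValuation f ≤ exp (D P)) : f ∈ riemannRochSpace D := by
  intro v
  by_cases hv : v = P
  · subst hv
    exact hP
  · have := hf v
    rwa [Finsupp.add_apply, Finsupp.single_eq_of_ne hv, add_zero] at this

theorem val_eq_of_mem_L_add_not_mem (D : Divisor K F) (P : Place K F) {g : F}
    (hg : g ∈ riemannRochSpace (D + Finsupp.single P 1)) (hg' : g ∉ riemannRochSpace D) :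
    P.adicValuation g = exp (D P + 1) := by
  apply eq_exp_succ_of_not_le
  · intro h
    exact hg' (mem_L_of_mem_L_add D P hg h)
  · have := hg P
    rwa [Finsupp.add_apply, Finsupp.single_eq_same] at this

/-- `L(D + P) / L(D)` has dimension at most one. -/
theorem L_step (hres : FA_RR_Target_residue K F) (D : Divisor K F) (P : Place K F) {f g : F}
    (hf : f ∈ riemannRochSpace (D + Finsupp.single P 1))
    (hg : g ∈ riemannRochSpace (D + Finsupp.single P 1)) (hg' : g ∉ riemannRochSpace D) :
    ∃ c : K, f - c • g ∈ riemannRochSpace D := by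
  have h1 := val_eq_of_mem_L_add_not_mem D P hg hg'
  have h2 : P.adicValuation f ≤ exp (D P + 1) := by
    have := hf P
    rwa [Finsupp.add_apply, Finsupp.single_eq_same] at this
  obtain ⟨c, hc⟩ := exists_const_sub hres P h1 h2
  exact ⟨c, mem_L_of_mem_L_add D P (Submodule.sub_mem _ hf (Submodule.smul_mem _ c hg)) hc⟩

section linalg

variable {E : Type*} [AddCommGroup E] [Module K E]

/-- If `W / V` has dimension at most one (in the sense below) and `V` is finite-dimensional,
so is `W`, and `dim W ≤ dim V + 1`. -/
theorem finite_of_step {V W : Submodule K E}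
    (h : ∀ g ∈ W, g ∉ V → ∀ f ∈ W, ∃ c : K, f - c • g ∈ V)
    [Module.Finite K V] :
    Module.Finite K W ∧ Module.finrank K W ≤ Module.finrank K V + 1 := by
  by_cases hWV : W ≤ V
  · haveI : Module.Finite K W := Submodule.finiteDimensional_of_le hWV
    exact ⟨inferInstance, (Submodule.finrank_mono hWV).trans (Nat.le_succ _)⟩
  · obtain ⟨g, hgW, hgV⟩ := SetLike.not_le_iff_exists.mp hWV
    have hle : W ≤ V ⊔ K ∙ g := by
      intro f hf
      obtain ⟨c, hc⟩ := h g hgW hgV f hf
      have : f = (f - c • g) + c • g := by abel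
      rw [this]
      exact Submodule.add_mem_sup hc (Submodule.smul_mem _ c (Submodule.mem_span_singleton_self g))
    haveI : Module.Finite K ↥(V ⊔ K ∙ g) := inferInstance
    haveI : Module.Finite K W := Submodule.finiteDimensional_of_le hle
    refine ⟨inferInstance, (Submodule.finrank_mono hle).trans ?_⟩
    refine (Submodule.finrank_add_le_finrank_add_finrank V (K ∙ g)).trans ?_
    have : Module.finrank K ↥(K ∙ g) ≤ 1 := by
      rcases eq_or_ne g 0 with rfl | hg0
      · exact absurd (Submodule.zero_mem V) hgV
      · rw [finrank_span_singleton hg0]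
    omega

end linalg

/-- Degree of an effective divisor is nonnegative. -/
theorem degree_nonneg {D : Divisor K F} (h : 0 ≤ D) : 0 ≤ Divisor.degree D := by
  have : Divisor.degree D = D.sum fun v n => n * (v.deg : ℤ) := by
    simp [Divisor.degree, Finsupp.liftAddHom_apply]
  rw [this]
  apply Finset.sum_nonneg
  intro v _
  exact mul_nonneg (Finsupp.le_def.mp h v) (Int.natCast_nonneg _)

theorem degree_mono {D D' : Divisor K F} (h : D ≤ D') :
    Divisor.degree D ≤ Divisor.degree D' := by
  have := degree_nonneg (sub_nonneg.mpr h)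
  rw [map_sub] at this
  omega

/-- Induction along `D ≤ D'`, adding one place at a time. -/
theorem divisor_induction {p : Divisor K F → Prop} (D : Divisor K F) (h0 : p D)
    (hstep : ∀ (D' : Divisor K F) (P : Place K F), D ≤ D' → p D' →
      p (D' + Finsupp.single P 1)) :
    ∀ D', D ≤ D' → p D' := by
  have key : ∀ E : Divisor K F, 0 ≤ E → p (D + E) := by
    intro E
    induction E using Finsupp.induction with
    | zero => intro _; simpa using h0
    | single_add a b f haf hb ih =>
      intro hE
      have hfa : f a = 0 := Finsupp.notMem_support_iff.mp haf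
      have hb0 : 0 ≤ b := by
        have := Finsupp.le_def.mp hE a
        simpa [hfa] using this
      have hf0 : 0 ≤ f := by
        rw [Finsupp.le_def]
        intro v
        by_cases hv : v = a
        · subst hv
          simp [hfa]
        · have := Finsupp.le_def.mp hE v
          simpa [Finsupp.single_eq_of_ne hv] using this
      have hpf := ih hf0
      have inner : ∀ k : ℕ, p (D + f + Finsupp.single a (k : ℤ)) := by
        intro k
        induction k with
        | zero => simpa using hpf
        | succ k ihk =>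
          have hle : D ≤ D + f + Finsupp.single a (k : ℤ) := by
            have h1 : (0 : Divisor K F) ≤ Finsupp.single a (k : ℤ) := by
              rw [Finsupp.le_def]
              intro v
              by_cases hv : v = a
              · subst hv
                simp
              · simp [Finsupp.single_eq_of_ne hv]
            calc D = D + 0 + 0 := by simp
              _ ≤ D + f + Finsupp.single a (k : ℤ) := by gcongr
          have := hstep _ a hle ihk
          rwa [add_assoc, ← Finsupp.single_add, ← Nat.cast_succ] at this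
      have := inner b.toNat
      rw [Int.toNat_of_nonneg hb0] at this
      rwa [add_comm (Finsupp.single a b) f, ← add_assoc]
  intro D' hDD'
  have := key (D' - D) (sub_nonneg.mpr hDD')
  rwa [add_sub_cancel] at this

variable [IsAlgClosed K] [CharZero K]

/-- `L(0) = K`. -/
theorem L_zero (hF : FA_RR_IsFF K F) {f : F} (hf : f ∈ riemannRochSpace (0 : Divisor K F)) :
    ∃ c : K, algebraMap K F c = f := by
  by_cases halg : IsAlgebraic K f
  · exact exists_const_of_isAlgebraic halg
  · exfalso
    have htr : Transcendental K f := halg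
    have htr' := transcendental_inv htr
    obtain ⟨Z, hZ, hdeg⟩ := sumZeros hF f⁻¹ htr'
    haveI := finiteDimensional_adjoin hF htr'
    have hpos : 0 < Module.finrank K⟮f⁻¹⟯ F := Module.finrank_pos
    have hZ0 : Z = 0 := by
      ext v
      rw [hZ v, Finsupp.zero_apply, v.ord_inv]
      have := (mem_riemannRochSpace_iff.mp hf) v
      rcases this with h | h
      · rw [h]
        simp
      · simp only [Finsupp.zero_apply, neg_zero] at h
        exact max_eq_right (by omega)
    rw [hZ0, map_zero] at hdeg
    omega

/-- `L(D) = 0` if `deg D < 0`. -/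
theorem L_eq_bot_of_degree_neg (hF : FA_RR_IsFF K F) {D : Divisor K F}
    (hD : Divisor.degree D < 0) : riemannRochSpace D = ⊥ := by
  rw [eq_bot_iff]
  intro f hf
  rw [Submodule.mem_bot]
  by_contra hf0
  haveI := hasPrincipalDivisors hF
  obtain ⟨E, hE, hdeg⟩ := HasPrincipalDivisors.exists_divisor (K := K) f hf0
  have h0 : 0 ≤ E + D := by
    rw [Finsupp.le_def]
    intro v
    rw [Finsupp.zero_apply, Finsupp.add_apply, hE v]
    rcases (mem_riemannRochSpace_iff.mp hf) v with h | h
    · exact absurd h hf0
    · omega
  have := degree_nonneg h0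
  rw [map_add, hdeg] at this
  omega

theorem degree_add_single (hF : FA_RR_IsFF K F) (D : Divisor K F) (P : Place K F) :
    Divisor.degree (D + Finsupp.single P 1) = Divisor.degree D + 1 := by
  rw [map_add, Divisor.degree_single, deg_eq_one hF P]
  simp

/-- One step: `L(D + P)` is finite-dimensional if `L(D)` is, and `ℓ(D + P) ≤ ℓ(D) + 1`. -/
theorem L_step_finite (hF : FA_RR_IsFF K F) (D : Divisor K F) (P : Place K F)
    [Module.Finite K (riemannRochSpace D)] :
    Module.Finite K (riemannRochSpace (D + Finsupp.single P 1)) ∧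
      Module.finrank K (riemannRochSpace (D + Finsupp.single P 1)) ≤
        Module.finrank K (riemannRochSpace D) + 1 :=
  finite_of_step fun _ hgW hgV _ hf => L_step (residue hF) D P hf hgW hgV

/-- `L(0)` is finite-dimensional of dimension `1`. -/
theorem L_zero_finite (hF : FA_RR_IsFF K F) :
    Module.Finite K (riemannRochSpace (0 : Divisor K F)) ∧
      Module.finrank K (riemannRochSpace (0 : Divisor K F)) = 1 := by
  have h1 : (1 : F) ∈ riemannRochSpace (0 : Divisor K F) := by
    intro v
    simp
  have hle : riemannRochSpace (0 : Divisor K F) ≤ K ∙ (1 : F) := by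
    intro f hf
    obtain ⟨c, rfl⟩ := L_zero hF hf
    rw [Submodule.mem_span_singleton]
    exact ⟨c, by rw [Algebra.smul_def, mul_one]⟩
  have hge : K ∙ (1 : F) ≤ riemannRochSpace (0 : Divisor K F) :=
    (Submodule.span_singleton_le_iff_mem _ _).mpr h1
  have heq := le_antisymm hle hge
  rw [heq]
  exact ⟨inferInstance, finrank_span_singleton one_ne_zero⟩

/-- For `D ≤ D'`: if `L(D)` is finite-dimensional then so is `L(D')`, and
`ℓ(D') ≤ ℓ(D) + deg D' - deg D`. -/
theorem L_finite_of_le (hF : FA_RR_IsFF K F) (D : Divisor K F)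
    (hD : Module.Finite K (riemannRochSpace D)) :
    ∀ D', D ≤ D' → Module.Finite K (riemannRochSpace D') ∧
      (Module.finrank K (riemannRochSpace D') : ℤ) ≤
        Module.finrank K (riemannRochSpace D) + Divisor.degree D' - Divisor.degree D := by
  refine divisor_induction (p := fun D' => Module.Finite K (riemannRochSpace D') ∧
      (Module.finrank K (riemannRochSpace D') : ℤ) ≤
        Module.finrank K (riemannRochSpace D) + Divisor.degree D' - Divisor.degree D) D ?_ ?_
  · exact ⟨hD, by simp⟩
  · rintro D' P _ ⟨hfin, hle⟩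
    haveI := hfin
    obtain ⟨h1, h2⟩ := L_step_finite hF D' P
    refine ⟨h1, ?_⟩
    rw [degree_add_single hF]
    have : (Module.finrank K (riemannRochSpace (D' + Finsupp.single P 1)) : ℤ) ≤
        Module.finrank K (riemannRochSpace D') + 1 := by exact_mod_cast h2
    omega

/-- **`L(D)` is finite-dimensional.** -/
theorem finiteL (hF : FA_RR_IsFF K F) : FA_RR_Target_finiteL K F := by
  intro D
  have h0 := (L_zero_finite hF).1
  have h1 := (L_finite_of_le hF 0 h0 (D ⊔ 0) le_sup_right).1
  haveI := h1
  exact Submodule.finiteDimensional_of_le (L_mono (le_sup_left : D ≤ D ⊔ 0))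

/-- `ℓ(D') ≤ ℓ(D) + deg D' - deg D` for `D ≤ D'`. -/
theorem finrank_L_le (hF : FA_RR_IsFF K F) {D D' : Divisor K F} (h : D ≤ D') :
    (Module.finrank K (riemannRochSpace D') : ℤ) ≤
      Module.finrank K (riemannRochSpace D) + Divisor.degree D' - Divisor.degree D :=
  (L_finite_of_le hF D (finiteL hF D) D' h).2

/-- `ℓ(D) ≤ ℓ(D')` for `D ≤ D'`. -/
theorem finrank_L_mono (hF : FA_RR_IsFF K F) {D D' : Divisor K F} (h : D ≤ D') :
    Module.finrank K (riemannRochSpace D) ≤ Module.finrank K (riemannRochSpace D') := by
  haveI := finiteL hF D'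
  exact Submodule.finrank_mono (L_mono h)

end FA_RR.WPB
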