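import Mathlib
import Fermat.Agent.Lib.RR.RiemannL

/-!
# Riemann–Roch WP-B, part 2: repartitions and `H¹`

For `D' = D + P`: either `ℓ(D') = ℓ(D) + 1` and `A(D') + F = A(D) + F`, or `ℓ(D') = ℓ(D)` and
`(A(D') + F) / (A(D) + F)` is one-dimensional. Hence `χ(D) = ℓ(D) - h¹(D)` satisfies
`χ(D + P) = χ(D) + 1`.
-/

set_option autoImplicit false
set_option linter.style.haveILetI false

noncomputable section

open AlgebraicCurve WithZero IntermediateField

namespace FA_RR.WPB

variable {K F : Type*} [Field K] [Field F] [Algebra K F]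

section linalg

variable {V : Type*} [AddCommGroup V] [Module K V]

/-- Quotients by `S` and by `S ⊔ span {e}`, `e ∉ S`. -/
theorem quot_step_succ {S S' : Submodule K V} {e : V} (he : e ∉ S) (hS' : S' = S ⊔ K ∙ e) :
    (Module.Finite K (V ⧸ S) ↔ Module.Finite K (V ⧸ S')) ∧
      (Module.Finite K (V ⧸ S) →
        Module.finrank K (V ⧸ S) = Module.finrank K (V ⧸ S') + 1) := by
  have hle : S ≤ S' := hS' ▸ le_sup_left
  set N : Submodule K (V ⧸ S) := Submodule.map S.mkQ S' with hN
  have hNe : N = K ∙ (S.mkQ e) := by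
    rw [hN, hS', Submodule.map_sup, Submodule.map_span, Set.image_singleton]
    have : Submodule.map S.mkQ S = ⊥ := by
      rw [eq_bot_iff]
      rintro _ ⟨x, hx, rfl⟩
      simp only [Submodule.mkQ_apply, Submodule.mem_bot, Submodule.Quotient.mk_eq_zero]
      exact hx
    rw [this, bot_sup_eq]
  have he0 : S.mkQ e ≠ 0 := by
    simpa [Submodule.Quotient.mk_eq_zero] using he
  have hNfin : Module.Finite K N := by
    rw [hNe]
    infer_instance
  have hNrank : Module.finrank K N = 1 := by
    rw [hNe]
    exact finrank_span_singleton he0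
  let φ := Submodule.quotientQuotientEquivQuotient S S' hle
  constructor
  · constructor
    · intro h
      haveI := h
      exact Module.Finite.equiv φ
    · intro h
      haveI := h
      haveI : Module.Finite K ((V ⧸ S) ⧸ N) := Module.Finite.equiv φ.symm
      exact Module.Finite.of_submodule_quotient N
  · intro h
    haveI := h
    have h1 := Submodule.finrank_quotient_add_finrank N
    rw [hNrank, LinearEquiv.finrank_eq φ] at h1
    exact h1.symm

end linalg

/-- `S(D) = A(D) + F`. -/
abbrev SD (D : Divisor K F) : Submodule K ↥(repartitions K F) :=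
  repartitionsOf D ⊔ principalRepartitions K F

theorem SD_mono {D D' : Divisor K F} (h : D ≤ D') : SD D ≤ SD D' :=
  sup_le_sup_right (repartitionsOf_mono h) _

/-- The diagonal embedding. -/
abbrev diag (f : F) : ↥(repartitions K F) := algebraMap F ↥(repartitions K F) f

theorem diag_apply (f : F) (v : Place K F) : ((diag (K := K) f : ↥(repartitions K F)) :
    Place K F → F) v = f := rfl

theorem diag_mem_principal (f : F) : diag (K := K) f ∈ principalRepartitions K F :=
  mem_principalRepartitions_iff.mpr ⟨f, rfl⟩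

theorem diag_mem_repartitionsOf_iff {D : Divisor K F} {f : F} :
    diag (K := K) f ∈ repartitionsOf D ↔ f ∈ riemannRochSpace D := Iff.rfl

theorem smul_apply' (c : K) (α : ↥(repartitions K F)) (v : Place K F) :
    ((c • α : ↥(repartitions K F)) : Place K F → F) v = c • (α : Place K F → F) v := rfl

theorem sub_apply' (α β : ↥(repartitions K F)) (v : Place K F) :
    ((α - β : ↥(repartitions K F)) : Place K F → F) v =
      (α : Place K F → F) v - (β : Place K F → F) v := rfl

/-- Membership in `A(D)` for an element of `A(D + P)` is a condition at `P` only. -/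
theorem mem_A_of_mem_A_add (D : Divisor K F) (P : Place K F) {α : ↥(repartitions K F)}
    (hα : α ∈ repartitionsOf (D + Finsupp.single P 1))
    (hP : P.adicValuation ((α : Place K F → F) P) ≤ exp (D P)) : α ∈ repartitionsOf D := by
  intro v
  by_cases hv : v = P
  · subst hv
    exact hP
  · have := hα v
    rwa [Finsupp.add_apply, Finsupp.single_eq_of_ne hv, add_zero] at this

/-- `A(D + P) / A(D)` has dimension at most one. -/
theorem A_step (hres : FA_RR_Target_residue K F) (D : Divisor K F) (P : Place K F)
    {α β : ↥(repartitions K F)}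
    (hα : α ∈ repartitionsOf (D + Finsupp.single P 1))
    (hβ : β ∈ repartitionsOf (D + Finsupp.single P 1)) (hβ' : β ∉ repartitionsOf D) :
    ∃ c : K, α - c • β ∈ repartitionsOf D := by
  have h1 : P.adicValuation ((β : Place K F → F) P) = exp (D P + 1) := by
    apply eq_exp_succ_of_not_le
    · intro h
      exact hβ' (mem_A_of_mem_A_add D P hβ h)
    · have := hβ P
      rwa [Finsupp.add_apply, Finsupp.single_eq_same] at this
  have h2 : P.adicValuation ((α : Place K F → F) P) ≤ exp (D P + 1) := by
    have := hα P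
    rwa [Finsupp.add_apply, Finsupp.single_eq_same] at this
  obtain ⟨c, hc⟩ := exists_const_sub hres P h1 h2
  exact ⟨c, mem_A_of_mem_A_add D P (Submodule.sub_mem _ hα (Submodule.smul_mem _ c hβ)) hc⟩

/-- Case (i): if `L(D) ≠ L(D + P)` then `A(D + P) + F = A(D) + F`. -/
theorem SD_eq_of_L_ne (hres : FA_RR_Target_residue K F) (D : Divisor K F) (P : Place K F)
    {g : F} (hg : g ∈ riemannRochSpace (D + Finsupp.single P 1))
    (hg' : g ∉ riemannRochSpace D) : SD (D + Finsupp.single P 1) = SD D := by
  apply le_antisymm _ (SD_mono (by simp))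
  refine sup_le ?_ le_sup_right
  intro α hα
  obtain ⟨c, hc⟩ := A_step hres D P hα (β := diag g) hg hg'
  have : α = (α - c • diag g) + c • diag g := by abel
  rw [this]
  exact Submodule.add_mem_sup hc (Submodule.smul_mem _ c (diag_mem_principal g))

/-- An element of `F` with prescribed valuation at `P`. -/
theorem exists_val_eq (P : Place K F) (n : ℤ) : ∃ f : F, P.adicValuation f = exp n := by
  obtain ⟨π, hπ⟩ := IsDiscreteValuationRing.exists_irreducible P.toValuationSubring
  refine ⟨(π : F) ^ (-n), ?_⟩
  have hπ0 : (π : F) ≠ 0 := by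
    simpa [ne_eq, ZeroMemClass.coe_eq_zero] using hπ.ne_zero
  rw [P.adicValuation_eq_exp_neg_ord (zpow_ne_zero _ hπ0), P.ord_zpow, P.ord_coe_irreducible hπ]
  simp

open Classical in
/-- A repartition in `A(D + P)` which is not in `A(D)`. -/
theorem exists_mem_A_add_not_mem (D : Divisor K F) (P : Place K F) :
    ∃ e : ↥(repartitions K F), e ∈ repartitionsOf (D + Finsupp.single P 1) ∧
      e ∉ repartitionsOf D := by
  obtain ⟨f, hf⟩ := exists_val_eq (K := K) P (D P + 1)
  have hmem : (Pi.single P f : Place K F → F) ∈ repartitions K F := by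
    apply mem_repartitions_of_finite
    apply Set.Finite.subset (Set.finite_singleton P)
    intro v hv
    by_contra hne
    apply hv
    rw [Set.mem_singleton_iff] at hne
    rw [Pi.single_eq_of_ne hne]
    simp
  refine ⟨⟨_, hmem⟩, ?_, ?_⟩
  · intro v
    show v.adicValuation ((Pi.single P f : Place K F → F) v) ≤ _
    by_cases hv : v = P
    · subst hv
      rw [Pi.single_eq_same, hf, Finsupp.add_apply, Finsupp.single_eq_same]
    · rw [Pi.single_eq_of_ne hv]
      simp
  · intro h
    have := h P
    change P.adicValuation ((Pi.single P f : Place K F → F) P) ≤ _ at this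
    rw [Pi.single_eq_same, hf, exp_le_exp] at this
    omega

/-- Case (ii): if `L(D + P) = L(D)` then `A(D + P) + F = (A(D) + F) ⊕ K e`. -/
theorem SD_eq_of_L_eq (hres : FA_RR_Target_residue K F) (D : Divisor K F) (P : Place K F)
    (hL : riemannRochSpace (D + Finsupp.single P 1) ≤ riemannRochSpace D) :
    ∃ e : ↥(repartitions K F), e ∉ SD D ∧ SD (D + Finsupp.single P 1) = SD D ⊔ K ∙ e := by
  obtain ⟨e, he, he'⟩ := exists_mem_A_add_not_mem D P
  refine ⟨e, ?_, ?_⟩
  · intro hmem
    obtain ⟨α, hα, φ, hφ, rfl⟩ := Submodule.mem_sup.mp hmem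
    obtain ⟨f, hf⟩ := mem_principalRepartitions_iff.mp hφ
    have hφ' : φ = diag f := Subtype.ext hf
    have h1 : φ ∈ repartitionsOf (D + Finsupp.single P 1) := by
      have : φ = (α + φ) - α := by abel
      rw [this]
      exact Submodule.sub_mem _ he (repartitionsOf_mono (by simp) hα)
    rw [hφ'] at h1
    have h2 : f ∈ riemannRochSpace D := hL (diag_mem_repartitionsOf_iff.mp h1)
    apply he'
    rw [hφ']
    exact Submodule.add_mem _ hα (diag_mem_repartitionsOf_iff.mpr h2)
  · apply le_antisymm
    · refine sup_le ?_ (le_sup_of_le_left le_sup_right)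
      intro α hα
      obtain ⟨c, hc⟩ := A_step hres D P hα he he'
      have : α = (α - c • e) + c • e := by abel
      rw [this]
      exact Submodule.add_mem_sup (Submodule.mem_sup_left hc)
        (Submodule.smul_mem _ c (Submodule.mem_span_singleton_self e))
    · refine sup_le (SD_mono (by simp)) ?_
      rw [Submodule.span_singleton_le_iff_mem]
      exact Submodule.mem_sup_left he

variable [IsAlgClosed K] [CharZero K]

/-- The Euler characteristic `χ(D) = ℓ(D) - h¹(D)`. -/
def chi (D : Divisor K F) : ℤ :=
  (Module.finrank K (riemannRochSpace D) : ℤ) - (Module.finrank K (H1 D) : ℤ)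

/-- One step for `H¹`. -/
theorem H1_step (hF : FA_RR_IsFF K F) (D : Divisor K F) (P : Place K F) :
    (Module.Finite K (H1 D) ↔ Module.Finite K (H1 (D + Finsupp.single P 1))) ∧
      (Module.Finite K (H1 D) → chi (D + Finsupp.single P 1) = chi D + 1) := by
  haveI := finiteL hF D
  haveI := finiteL hF (D + Finsupp.single P 1)
  have hmono : riemannRochSpace D ≤ riemannRochSpace (D + Finsupp.single P 1) :=
    L_mono (by simp)
  by_cases hL : riemannRochSpace (D + Finsupp.single P 1) ≤ riemannRochSpace D
  · -- case (ii)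
    have hLeq : riemannRochSpace (D + Finsupp.single P 1) = riemannRochSpace D :=
      le_antisymm hL hmono
    obtain ⟨e, he, hS⟩ := SD_eq_of_L_eq (residue hF) D P hL
    obtain ⟨h1, h2⟩ := quot_step_succ he hS
    refine ⟨h1, fun hfin => ?_⟩
    have := h2 hfin
    unfold chi
    rw [hLeq]
    have h3 : (Module.finrank K (H1 D) : ℤ) =
        Module.finrank K (H1 (D + Finsupp.single P 1)) + 1 := by exact_mod_cast this
    omega
  · -- case (i)
    obtain ⟨g, hg, hg'⟩ := SetLike.not_le_iff_exists.mp hL
    have hS := SD_eq_of_L_ne (residue hF) D P hg hg'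
    let φ : H1 (D + Finsupp.single P 1) ≃ₗ[K] H1 D := Submodule.quotEquivOfEq _ _ hS
    have hlt : riemannRochSpace D < riemannRochSpace (D + Finsupp.single P 1) :=
      lt_of_le_of_ne hmono (fun h => hL h.ge)
    have h1 := Submodule.finrank_lt_finrank_of_lt hlt
    have h2 := (L_step_finite hF D P).2
    refine ⟨⟨fun h => ?_, fun h => ?_⟩, fun _ => ?_⟩
    · haveI := h
      exact Module.Finite.equiv φ.symm
    · haveI := h
      exact Module.Finite.equiv φ
    · unfold chi
      rw [LinearEquiv.finrank_eq φ]
      omega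

/-- Along `D ≤ D'`: `H¹(D)` is finite-dimensional iff `H¹(D')` is, and
`χ(D') = χ(D) + deg D' - deg D`. -/
theorem H1_chain (hF : FA_RR_IsFF K F) (D : Divisor K F) :
    ∀ D', D ≤ D' → (Module.Finite K (H1 D) ↔ Module.Finite K (H1 D')) ∧
      (Module.Finite K (H1 D) → chi D' = chi D + Divisor.degree D' - Divisor.degree D) := by
  refine divisor_induction (p := fun D' => (Module.Finite K (H1 D) ↔ Module.Finite K (H1 D')) ∧
      (Module.Finite K (H1 D) → chi D' = chi D + Divisor.degree D' - Divisor.degree D)) D ?_ ?_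
  · exact ⟨Iff.rfl, fun _ => by simp⟩
  · rintro D' P _ ⟨h1, h2⟩
    obtain ⟨h3, h4⟩ := H1_step hF D' P
    refine ⟨h1.trans h3, fun hfin => ?_⟩
    rw [h4 (h1.mp hfin), h2 hfin, degree_add_single hF]
    ring

/-- If some `H¹(D₀)` is finite-dimensional then all are. -/
theorem finiteH1_of_exists (hF : FA_RR_IsFF K F) (D₀ : Divisor K F)
    (h₀ : Module.Finite K (H1 D₀)) : FA_RR_Target_finiteH1 K F := by
  intro D
  have h1 := (H1_chain hF (D ⊓ D₀) D₀ inf_le_right).1
  have h2 := (H1_chain hF (D ⊓ D₀) D inf_le_left).1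
  exact h2.mp (h1.mpr h₀)

/-- The Euler characteristic formula, given finiteness of `H¹`. -/
theorem euler_of_finiteH1 (hF : FA_RR_IsFF K F) (hfin : FA_RR_Target_finiteH1 K F) :
    FA_RR_Target_euler K F := by
  intro D
  have h1 := (H1_chain hF (D ⊓ 0) D inf_le_left).2 (hfin _)
  have h2 := (H1_chain hF (D ⊓ 0) 0 inf_le_right).2 (hfin _)
  have h3 : chi (0 : Divisor K F) = 1 - (genusFF K F : ℤ) := by
    unfold chi genusFF
    rw [(L_zero_finite hF).2]
    simp
  have h4 : chi D = (Module.finrank K (riemannRochSpace D) : ℤ) -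
      (Module.finrank K (H1 D) : ℤ) := rfl
  rw [← h4, h1]
  rw [h3, map_zero] at h2
  omega

end FA_RR.WPB
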