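import Mathlib
import Fermat.Agent.Lib.RR.RiemannA

/-!
# Riemann–Roch WP-B, part 3: Riemann's inequality

`deg D - ℓ(D)` is bounded above; hence `A = A(D₀) + F` for some `D₀`, `H¹(D)` is
finite-dimensional for every `D`, and `ℓ(D) - h¹(D) = deg D + 1 - g`.
-/

set_option autoImplicit false
set_option linter.style.haveILetI false

noncomputable section

open AlgebraicCurve WithZero IntermediateField Polynomial

namespace FA_RR.WPB

variable {K F : Type*} [Field K] [Field F] [Algebra K F]

theorem linearIndependent_pow_of_transcendental {x : F} (hx : Transcendental K x) :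
    LinearIndependent K (fun i : ℕ => x ^ i) := by
  have h1 : LinearIndependent K (fun i : ℕ => (Polynomial.monomial i (1 : K))) := by
    have := (Polynomial.basisMonomials K).linearIndependent
    convert this using 2
    simp
  have h2 := h1.map' (Polynomial.aeval x : K[X] →ₐ[K] F).toLinearMap
    (LinearMap.ker_eq_bot.mpr (transcendental_iff_injective.mp hx))
  have h3 : (⇑(aeval x : K[X] →ₐ[K] F).toLinearMap ∘ fun i => (monomial i) (1 : K)) =
      fun i : ℕ => x ^ i := by
    funext i
    simp [Function.comp]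
  rwa [h3] at h2

variable [IsAlgClosed K] [CharZero K]

/-- Every function lies in `L(E)` for some effective divisor `E`. -/
theorem exists_effective_mem_L (hF : FA_RR_IsFF K F) (f : F) :
    ∃ E : Divisor K F, 0 ≤ E ∧ f ∈ riemannRochSpace E := by
  rcases eq_or_ne f 0 with rfl | hf
  · exact ⟨0, le_refl _, Submodule.zero_mem _⟩
  haveI := hasPrincipalDivisors hF
  obtain ⟨E, hE, -⟩ := HasPrincipalDivisors.exists_divisor (K := K) f hf
  refine ⟨(-E) ⊔ 0, le_sup_right, ?_⟩
  rw [mem_riemannRochSpace_iff]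
  intro v
  right
  have h1 : ((-E) ⊔ 0 : Divisor K F) v = max (-(E v)) 0 := by
    rw [Finsupp.sup_apply]
    simp
  rw [h1, hE v]
  omega

omit [IsAlgClosed K] [CharZero K] in
/-- Multiplication by `z` identifies `L(D + div z)` with `L(D)`. -/
theorem finrank_L_add_div (D E : Divisor K F) {z : F} (hz : z ≠ 0)
    (hE : ∀ v : Place K F, E v = v.ord z) :
    Module.finrank K (riemannRochSpace (D + E)) = Module.finrank K (riemannRochSpace D) := by
  have hinj : Function.Injective (LinearMap.mulLeft K z) := fun a b h =>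
    mul_left_cancel₀ hz h
  have hmap : (riemannRochSpace (D + E)).map (LinearMap.mulLeft K z) = riemannRochSpace D := by
    ext f
    have hval : ∀ (v : Place K F) (g : F),
        v.adicValuation (z * g) ≤ exp (D v) ↔ v.adicValuation g ≤ exp (D v + E v) := by
      intro v g
      rw [map_mul, v.adicValuation_eq_exp_neg_ord hz, ← hE v, mul_comm,
        ← le_div_iff₀ (zero_lt_iff.2 (by simp)), ← exp_sub]
      simp
    constructor
    · rintro ⟨g, hg, rfl⟩
      intro v
      exact (hval v g).mpr (by simpa using hg v)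
    · intro hf
      refine ⟨z⁻¹ * f, ?_, ?_⟩
      · intro v
        have := (hval v (z⁻¹ * f)).mp (by
          rw [← mul_assoc, mul_inv_cancel₀ hz, one_mul]
          exact hf v)
        simpa using this
      · simp [LinearMap.mulLeft_apply, ← mul_assoc, mul_inv_cancel₀ hz]
  rw [← hmap]
  exact (LinearEquiv.finrank_eq (Submodule.equivMapOfInjective _ hinj _))

/-- The key construction: `x` transcendental, `B = (x)_∞`, `n = [F : K(x)] = deg B`, and an
effective divisor `C` with `n (l + 1) ≤ ℓ(l B + C)` for all `l`. -/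
theorem exists_bound_data (hF : FA_RR_IsFF K F) :
    ∃ (B C : Divisor K F) (n : ℕ), 0 < n ∧ 0 ≤ B ∧ 0 ≤ C ∧ Divisor.degree B = n ∧
      ∀ l : ℕ, n * (l + 1) ≤ Module.finrank K (riemannRochSpace (l • B + C)) := by
  obtain ⟨x, hx, hfin⟩ := id hF
  haveI := hfin
  have hx0 : x ≠ 0 := fun h => hx (h ▸ isAlgebraic_zero)
  obtain ⟨B, hB, hBdeg⟩ := sumZeros hF x⁻¹ (transcendental_inv hx)
  rw [finrank_adjoin_inv] at hBdeg
  set n := Module.finrank K⟮x⟯ F with hn
  have hnpos : 0 < n := Module.finrank_pos
  have hB0 : 0 ≤ B := by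
    rw [Finsupp.le_def]
    intro v
    rw [hB v]
    exact le_max_right _ _
  -- valuation of `x` is bounded by `exp (B v)`
  have hxB : ∀ v : Place K F, v.adicValuation x ≤ exp (B v) := by
    intro v
    rw [v.adicValuation_eq_exp_neg_ord hx0, exp_le_exp, hB v, v.ord_inv]
    exact le_max_left _ _
  -- a basis of `F` over `K(x)`
  let u : Module.Basis (Fin n) K⟮x⟯ F := Module.finBasis K⟮x⟯ F
  -- the divisor `C`
  choose Cj hCj0 hCj using fun j : Fin n => exists_effective_mem_L hF (u j)
  set C : Divisor K F := ∑ j, Cj j with hC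
  have hC0 : 0 ≤ C := Finset.sum_nonneg fun j _ => hCj0 j
  have hCle : ∀ j, Cj j ≤ C := fun j =>
    Finset.single_le_sum (f := Cj) (fun i _ => hCj0 i) (Finset.mem_univ j)
  refine ⟨B, C, n, hnpos, hB0, hC0, hBdeg, fun l => ?_⟩
  -- the linearly independent family `x ^ i * u j`
  let g : K⟮x⟯ := IntermediateField.AdjoinSimple.gen K x
  have hg : (g : F) = x := IntermediateField.AdjoinSimple.coe_gen K x
  have hb : LinearIndependent K (fun i : Fin (l + 1) => g ^ (i : ℕ)) := by
    have h1 : LinearIndependent K (fun i : ℕ => x ^ i) :=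
      linearIndependent_pow_of_transcendental hx
    have h2 : LinearIndependent K (fun i : Fin (l + 1) => x ^ (i : ℕ)) :=
      h1.comp _ Fin.val_injective
    apply LinearIndependent.of_comp (K⟮x⟯.val.toLinearMap)
    have h3 : (⇑(K⟮x⟯.val.toLinearMap) ∘ fun i : Fin (l + 1) => g ^ (i : ℕ)) =
        fun i : Fin (l + 1) => x ^ (i : ℕ) := by
      funext i
      simp [hg]
    rw [h3]
    exact h2
  have hli : LinearIndependent K (fun p : Fin (l + 1) × Fin n => g ^ (p.1 : ℕ) • u p.2) :=
    linearIndependent_smul hb u.linearIndependent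
  have hmem : ∀ p : Fin (l + 1) × Fin n,
      g ^ (p.1 : ℕ) • u p.2 ∈ riemannRochSpace (l • B + C) := by
    rintro ⟨i, j⟩ v
    have h1 : g ^ (i : ℕ) • u j = x ^ (i : ℕ) * u j := by
      rw [IntermediateField.smul_def, smul_eq_mul]
      simp [hg]
    rw [h1, map_mul, map_pow, Finsupp.add_apply, exp_add]
    apply mul_le_mul'
    · have h2 : (1 : ℤᵐ⁰) ≤ exp (B v) := by
        rw [← exp_zero, exp_le_exp]
        exact Finsupp.le_def.mp hB0 v
      calc v.adicValuation x ^ (i : ℕ) ≤ exp (B v) ^ (i : ℕ) :=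
            pow_le_pow_left₀ zero_le (hxB v) _
        _ ≤ exp (B v) ^ l := pow_le_pow_right₀ h2 (Nat.lt_succ_iff.mp i.2)
        _ = exp ((l • B) v) := by
            rw [Finsupp.smul_apply, ← exp_nsmul]
    · exact (hCj j v).trans (exp_le_exp.mpr (Finsupp.le_def.mp (hCle j) v))
  haveI := finiteL hF (l • B + C)
  have hli' : LinearIndependent K (fun p : Fin (l + 1) × Fin n =>
      (⟨g ^ (p.1 : ℕ) • u p.2, hmem p⟩ : riemannRochSpace (l • B + C))) := by
    apply LinearIndependent.of_comp (riemannRochSpace (l • B + C)).subtype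
    exact hli
  have := hli'.fintype_card_le_finrank
  simp only [Fintype.card_prod, Fintype.card_fin] at this
  calc n * (l + 1) = (l + 1) * n := mul_comm _ _
    _ ≤ _ := this

/-- `r(D) = deg D - ℓ(D)`. -/
def rD (D : Divisor K F) : ℤ :=
  Divisor.degree D - (Module.finrank K (riemannRochSpace D) : ℤ)

theorem rD_mono (hF : FA_RR_IsFF K F) {D D' : Divisor K F} (h : D ≤ D') : rD D ≤ rD D' := by
  have := finrank_L_le hF h
  unfold rD
  omega

/-- **Riemann's inequality**: `deg D - ℓ(D)` is bounded above. -/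
theorem riemann_bound (hF : FA_RR_IsFF K F) : ∃ γ : ℤ, ∀ D : Divisor K F, rD D ≤ γ := by
  obtain ⟨B, C, n, hn, hB0, hC0, hBdeg, hl⟩ := exists_bound_data hF
  refine ⟨Divisor.degree C - n, fun D => ?_⟩
  haveI := hasPrincipalDivisors hF
  -- bound for `l B`
  have hlB : ∀ l : ℕ, (n : ℤ) * (l + 1) - Divisor.degree C ≤
      Module.finrank K (riemannRochSpace (l • B)) := by
    intro l
    have h1 := finrank_L_le hF (D := l • B) (D' := l • B + C) (by simpa using hC0)
    have h2 : ((n * (l + 1) : ℕ) : ℤ) ≤ Module.finrank K (riemannRochSpace (l • B + C)) := by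
      exact_mod_cast hl l
    rw [map_add] at h1
    push_cast at h2
    omega
  have hdeglB : ∀ l : ℕ, Divisor.degree (l • B) = l * n := by
    intro l
    rw [map_nsmul, hBdeg]
    simp
  -- reduce to an effective divisor
  set D₁ := D ⊔ 0 with hD₁
  have hD₁0 : 0 ≤ D₁ := le_sup_right
  refine (rD_mono hF (le_sup_left : D ≤ D₁)).trans ?_
  set l : ℕ := (Divisor.degree C + Divisor.degree D₁).toNat with hldef
  have hlbig : Divisor.degree C + Divisor.degree D₁ < (n : ℤ) * (l + 1) := by
    have h1 : Divisor.degree C + Divisor.degree D₁ ≤ l := Int.self_le_toNat _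
    have h2 : (1 : ℤ) ≤ n := by exact_mod_cast hn
    nlinarith
  -- a nonzero `z ∈ L(l B - D₁)`
  have h3 := finrank_L_le hF (D := l • B - D₁) (D' := l • B) (by simpa using hD₁0)
  rw [map_sub] at h3
  have h4 := hlB l
  have hpos : 0 < Module.finrank K (riemannRochSpace (l • B - D₁)) := by
    have : (0 : ℤ) < Module.finrank K (riemannRochSpace (l • B - D₁)) := by omega
    exact_mod_cast this
  haveI := finiteL hF (l • B - D₁)
  obtain ⟨⟨z, hz⟩, hz0⟩ := Module.finrank_pos_iff_exists_ne_zero.mp hpos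
  have hz0' : z ≠ 0 := fun h => hz0 (Subtype.ext h)
  obtain ⟨E, hE, hEdeg⟩ := HasPrincipalDivisors.exists_divisor (K := K) z hz0'
  -- `D₁ ≤ l B + div z`
  have hle : D₁ ≤ l • B + E := by
    rw [Finsupp.le_def]
    intro v
    rcases (mem_riemannRochSpace_iff.mp hz) v with h | h
    · exact absurd h hz0'
    · rw [Finsupp.add_apply, hE v]
      rw [Finsupp.sub_apply] at h
      omega
  refine (rD_mono hF hle).trans ?_
  unfold rD
  rw [finrank_L_add_div (l • B) E hz0' hE, map_add, hEdeg, hdeglB l]
  have := hlB l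
  nlinarith

/-- There is a divisor `D₀` with `A = A(D₀) + F`. -/
theorem exists_SD_eq_top (hF : FA_RR_IsFF K F) : ∃ D₀ : Divisor K F, SD D₀ = ⊤ := by
  obtain ⟨γ, hγ⟩ := riemann_bound hF
  -- a divisor maximising `r`
  obtain ⟨m, ⟨D₀, hD₀⟩, hmax⟩ := Int.exists_greatest_of_bdd (P := fun z => ∃ D : Divisor K F,
    rD D = z) ⟨γ, fun z ⟨D, hD⟩ => hD ▸ hγ D⟩ ⟨rD 0, 0, rfl⟩
  refine ⟨D₀, ?_⟩
  -- `S(D') = S(D₀)` for all `D' ≥ D₀`
  have hconst : ∀ D', D₀ ≤ D' → SD D' = SD D₀ := by
    refine divisor_induction (p := fun D' => SD D' = SD D₀) D₀ rfl ?_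
    intro D' P hle hD'
    have h1 : rD D' = m := by
      apply le_antisymm (hmax _ ⟨D', rfl⟩)
      rw [← hD₀]
      exact rD_mono hF hle
    have h2 : rD (D' + Finsupp.single P 1) = m := by
      apply le_antisymm (hmax _ ⟨_, rfl⟩)
      rw [← h1]
      exact rD_mono hF (by simp)
    have h3 : ¬ riemannRochSpace (D' + Finsupp.single P 1) ≤ riemannRochSpace D' := by
      intro hcon
      haveI := finiteL hF D'
      have h4 := Submodule.finrank_mono hcon
      unfold rD at h1 h2
      rw [degree_add_single hF] at h2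
      omega
    obtain ⟨g, hg, hg'⟩ := SetLike.not_le_iff_exists.mp h3
    rw [SD_eq_of_L_ne (residue hF) D' P hg hg', hD']
  rw [eq_top_iff]
  rintro α -
  -- `α ∈ A(E)` for some `E`
  have hfin := (repartitions_iff hF (α : Place K F → F)).mp α.2
  classical
  let E : Divisor K F := Finsupp.onFinset hfin.toFinset
    (fun v => max (-(v.ord ((α : Place K F → F) v))) 0) (by
      intro v hv
      rw [Set.Finite.mem_toFinset]
      show v.ord _ < 0
      by_contra hcon
      apply hv
      exact max_eq_right (by omega))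
  have hαE : α ∈ repartitionsOf E := by
    rw [mem_repartitionsOf_iff]
    intro v
    right
    show -(max (-(v.ord ((α : Place K F → F) v))) 0) ≤ _
    omega
  have h5 : α ∈ SD (E ⊔ D₀) :=
    Submodule.mem_sup_left (repartitionsOf_mono le_sup_left hαE)
  rw [hconst _ le_sup_right] at h5
  exact h5

/-- **`H¹(D)` is finite-dimensional.** -/
theorem finiteH1 (hF : FA_RR_IsFF K F) : FA_RR_Target_finiteH1 K F := by
  obtain ⟨D₀, hD₀⟩ := exists_SD_eq_top hF
  apply finiteH1_of_exists hF D₀
  have : Subsingleton (H1 D₀) := by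
    show Subsingleton (↥(repartitions K F) ⧸ SD D₀)
    rw [hD₀]
    infer_instance
  infer_instance

/-- **Euler characteristic**: `ℓ(D) - h¹(D) = deg D + 1 - g`. -/
theorem euler (hF : FA_RR_IsFF K F) : FA_RR_Target_euler K F :=
  euler_of_finiteH1 hF (finiteH1 hF)

end FA_RR.WPB
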