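import Mathlib
import Fermat.Agent.Lib.RR.RiemannBound

/-!
# Riemann–Roch WP-C, part 1: Weil differentials

* `h¹(D) = 0` for `deg D` large (`exists_degree_SD_eq_top`);
* the `F`-action `(f • λ)(α) = λ(f α)` on linear forms on the repartitions (`fsmul`);
* the divisor of a nonzero Weil differential (`exists_divisor_of_weil`).
-/

set_option autoImplicit false
set_option linter.style.haveILetI false

noncomputable section

open AlgebraicCurve WithZero IntermediateField

namespace FA_RR.WPC

open FA_RR.WPB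

variable {K F : Type*} [Field K] [Field F] [Algebra K F]

theorem mul_apply' (α β : ↥(repartitions K F)) (v : Place K F) :
    ((α * β : ↥(repartitions K F)) : Place K F → F) v =
      (α : Place K F → F) v * (β : Place K F → F) v := rfl

theorem add_apply' (α β : ↥(repartitions K F)) (v : Place K F) :
    ((α + β : ↥(repartitions K F)) : Place K F → F) v =
      (α : Place K F → F) v + (β : Place K F → F) v := rfl

theorem diag_one : diag (K := K) (1 : F) = 1 := map_one _

theorem diag_zero : diag (K := K) (0 : F) = 0 := map_zero _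

theorem diag_mul (f g : F) : diag (K := K) (f * g) = diag f * diag g := map_mul _ _ _

theorem diag_add (f g : F) : diag (K := K) (f + g) = diag f + diag g := map_add _ _ _

theorem diag_inv_mul_cancel {f : F} (hf : f ≠ 0) (α : ↥(repartitions K F)) :
    diag f * (diag f⁻¹ * α) = α := by
  rw [← mul_assoc, ← diag_mul, mul_inv_cancel₀ hf, diag_one, one_mul]

/-- Multiplication by `z` maps `A(D + div z)` onto `A(D)`. -/
theorem diag_mul_mem_iff (D E : Divisor K F) {z : F} (hz : z ≠ 0)
    (hE : ∀ v : Place K F, E v = v.ord z) (α : ↥(repartitions K F)) :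
    diag z * α ∈ repartitionsOf D ↔ α ∈ repartitionsOf (D + E) := by
  have hval : ∀ (v : Place K F) (g : F),
      v.adicValuation (z * g) ≤ exp (D v) ↔ v.adicValuation g ≤ exp (D v + E v) := by
    intro v g
    rw [map_mul, v.adicValuation_eq_exp_neg_ord hz, ← hE v, mul_comm,
      ← le_div_iff₀ (zero_lt_iff.2 (by simp)), ← exp_sub]
    simp
  constructor
  · intro h v
    have := (hval v ((α : Place K F → F) v)).mp (h v)
    simpa using this
  · intro h v
    exact (hval v ((α : Place K F → F) v)).mpr (by simpa using h v)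

/-- The `F`-action on linear forms on the repartitions: `(f • λ)(α) = λ(f α)`. -/
def fsmul (f : F) (lam : ↥(repartitions K F) →ₗ[K] K) : ↥(repartitions K F) →ₗ[K] K :=
  lam ∘ₗ LinearMap.mulLeft K (diag f)

theorem fsmul_apply (f : F) (lam : ↥(repartitions K F) →ₗ[K] K) (α : ↥(repartitions K F)) :
    fsmul f lam α = lam (diag f * α) := rfl

theorem fsmul_one (lam : ↥(repartitions K F) →ₗ[K] K) : fsmul 1 lam = lam := by
  ext α
  rw [fsmul_apply, diag_one, one_mul]

theorem fsmul_zero (lam : ↥(repartitions K F) →ₗ[K] K) : fsmul 0 lam = 0 := by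
  ext α
  rw [fsmul_apply, diag_zero, zero_mul, map_zero, LinearMap.zero_apply]

theorem fsmul_fsmul (f g : F) (lam : ↥(repartitions K F) →ₗ[K] K) :
    fsmul f (fsmul g lam) = fsmul (g * f) lam := by
  ext α
  rw [fsmul_apply, fsmul_apply, fsmul_apply, diag_mul, mul_assoc]

theorem fsmul_add (f g : F) (lam : ↥(repartitions K F) →ₗ[K] K) :
    fsmul (f + g) lam = fsmul f lam + fsmul g lam := by
  ext α
  rw [LinearMap.add_apply, fsmul_apply, fsmul_apply, fsmul_apply, diag_add, add_mul, map_add]

theorem fsmul_sub (f : F) (lam lam' : ↥(repartitions K F) →ₗ[K] K) :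
    fsmul f (lam - lam') = fsmul f lam - fsmul f lam' := rfl

theorem fsmul_smul (c : K) (f : F) (lam : ↥(repartitions K F) →ₗ[K] K) :
    fsmul (c • f) lam = c • fsmul f lam := by
  ext α
  rw [LinearMap.smul_apply, fsmul_apply, fsmul_apply]
  have : diag (K := K) (c • f) * α = c • (diag f * α) := by
    apply Subtype.ext
    funext v
    show (c • f) * _ = c • (f * _)
    rw [smul_mul_assoc]
  rw [this, map_smul]

/-- `f ↦ f • λ` as a `K`-linear map. -/
def fsmulHom (lam : ↥(repartitions K F) →ₗ[K] K) : F →ₗ[K] Module.Dual K ↥(repartitions K F) where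
  toFun f := fsmul f lam
  map_add' f g := fsmul_add f g lam
  map_smul' c f := fsmul_smul c f lam

theorem fsmulHom_apply (lam : ↥(repartitions K F) →ₗ[K] K) (f : F) :
    fsmulHom lam f = fsmul f lam := rfl

theorem fsmul_ne_zero {f : F} (hf : f ≠ 0) {lam : ↥(repartitions K F) →ₗ[K] K}
    (hlam : lam ≠ 0) : fsmul f lam ≠ 0 := by
  intro h
  apply hlam
  have := congrArg (fsmul f⁻¹) h
  rw [fsmul_fsmul, mul_inv_cancel₀ hf, fsmul_one] at this
  rw [this]
  rfl

/-- `λ` vanishes on the principal repartitions. -/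
def VanishesOnF (lam : ↥(repartitions K F) →ₗ[K] K) : Prop :=
  ∀ α ∈ principalRepartitions K F, lam α = 0

/-- `λ` vanishes on `A(D)`. -/
def VanishesOn (lam : ↥(repartitions K F) →ₗ[K] K) (D : Divisor K F) : Prop :=
  ∀ α ∈ repartitionsOf D, lam α = 0

theorem VanishesOn.mono {lam : ↥(repartitions K F) →ₗ[K] K} {D D' : Divisor K F}
    (h : VanishesOn lam D') (hle : D ≤ D') : VanishesOn lam D :=
  fun α hα => h α (repartitionsOf_mono hle hα)

theorem vanishesOnF_fsmul (f : F) {lam : ↥(repartitions K F) →ₗ[K] K}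
    (h : VanishesOnF lam) : VanishesOnF (fsmul f lam) := by
  intro α hα
  obtain ⟨g, hg⟩ := mem_principalRepartitions_iff.mp hα
  rw [fsmul_apply]
  apply h
  rw [mem_principalRepartitions_iff]
  refine ⟨f * g, ?_⟩
  funext v
  rw [mul_apply', hg]
  rfl

theorem vanishesOn_SD {lam : ↥(repartitions K F) →ₗ[K] K} {D : Divisor K F}
    (hF : VanishesOnF lam) (hD : VanishesOn lam D) : ∀ α ∈ SD D, lam α = 0 := by
  intro α hα
  obtain ⟨β, hβ, γ, hγ, rfl⟩ := Submodule.mem_sup.mp hα
  rw [map_add, hD β hβ, hF γ hγ, add_zero]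

/-- `f • λ` vanishes on `A(D)` iff `λ` vanishes on `A(D - div f)`. -/
theorem vanishesOn_fsmul_iff (D E : Divisor K F) {f : F} (hf : f ≠ 0)
    (hE : ∀ v : Place K F, E v = v.ord f) (lam : ↥(repartitions K F) →ₗ[K] K) :
    VanishesOn (fsmul f lam) D ↔ VanishesOn lam (D - E) := by
  constructor
  · intro h β hβ
    have h1 : β = diag f * (diag f⁻¹ * β) := (diag_inv_mul_cancel hf β).symm
    have h2 : diag f⁻¹ * β ∈ repartitionsOf D := by
      have := (diag_mul_mem_iff (D - E) E hf hE (diag f⁻¹ * β)).mp (by rwa [← h1])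
      rwa [sub_add_cancel] at this
    rw [h1, ← fsmul_apply]
    exact h _ h2
  · intro h α hα
    rw [fsmul_apply]
    apply h
    rw [diag_mul_mem_iff (D - E) E hf hE, sub_add_cancel]
    exact hα

theorem isWeil_iff (lam : ↥(repartitions K F) →ₗ[K] K) :
    FA_RR_IsWeil K F lam ↔ VanishesOnF lam ∧ ∃ D, VanishesOn lam D := Iff.rfl

variable [IsAlgClosed K] [CharZero K]

omit [IsAlgClosed K] [CharZero K] in
/-- If `A = A(D + div z) + F` then `A = A(D) + F`. -/
theorem SD_eq_top_of_add_div (D E : Divisor K F) {z : F} (hz : z ≠ 0)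
    (hE : ∀ v : Place K F, E v = v.ord z) (h : SD (D + E) = ⊤) : SD D = ⊤ := by
  rw [eq_top_iff]
  rintro α -
  have h1 : diag z⁻¹ * α ∈ SD (D + E) := by
    rw [h]
    trivial
  obtain ⟨β, hβ, γ, hγ, hsum⟩ := Submodule.mem_sup.mp h1
  obtain ⟨g, hg⟩ := mem_principalRepartitions_iff.mp hγ
  have h2 : α = diag z * β + diag z * γ := by
    rw [← mul_add, hsum, diag_inv_mul_cancel hz]
  rw [h2]
  apply Submodule.add_mem_sup
  · exact (diag_mul_mem_iff D E hz hE β).mpr hβ
  · rw [mem_principalRepartitions_iff]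
    refine ⟨z * g, ?_⟩
    funext v
    rw [mul_apply', hg]
    rfl

/-- `ℓ(D) ≥ deg D + 1 - g`. -/
theorem riemann_ineq (hF : FA_RR_IsFF K F) (D : Divisor K F) :
    Divisor.degree D + 1 - (genusFF K F : ℤ) ≤ Module.finrank K (riemannRochSpace D) := by
  have := euler hF D
  omega

/-- `h¹(D) = 0` as soon as `deg D` is large. -/
theorem exists_degree_SD_eq_top (hF : FA_RR_IsFF K F) :
    ∃ c : ℤ, ∀ D : Divisor K F, c ≤ Divisor.degree D → SD D = ⊤ := by
  obtain ⟨D₀, hD₀⟩ := exists_SD_eq_top hF
  refine ⟨Divisor.degree D₀ + genusFF K F, fun D hD => ?_⟩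
  haveI := hasPrincipalDivisors hF
  have h1 := riemann_ineq hF (D - D₀)
  rw [map_sub] at h1
  have hpos : 0 < Module.finrank K (riemannRochSpace (D - D₀)) := by
    have : (0 : ℤ) < Module.finrank K (riemannRochSpace (D - D₀)) := by omega
    exact_mod_cast this
  haveI := finiteL hF (D - D₀)
  obtain ⟨⟨z, hz⟩, hz0⟩ := Module.finrank_pos_iff_exists_ne_zero.mp hpos
  have hz0' : z ≠ 0 := fun h => hz0 (Subtype.ext h)
  obtain ⟨E, hE, -⟩ := HasPrincipalDivisors.exists_divisor (K := K) z hz0'
  have hle : D₀ ≤ D + E := by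
    rw [Finsupp.le_def]
    intro v
    rcases (mem_riemannRochSpace_iff.mp hz) v with h | h
    · exact absurd h hz0'
    · rw [Finsupp.add_apply, hE v]
      rw [Finsupp.sub_apply] at h
      omega
  apply SD_eq_top_of_add_div D E hz0' hE
  rw [eq_top_iff, ← hD₀]
  exact SD_mono hle

open Classical in
/-- The part of a repartition at the place `Q`. -/
def single (Q : Place K F) (f : F) : ↥(repartitions K F) :=
  ⟨Pi.single Q f, by
    apply mem_repartitions_of_finite
    apply Set.Finite.subset (Set.finite_singleton Q)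
    intro v hv
    by_contra hne
    apply hv
    rw [Set.mem_singleton_iff] at hne
    rw [Pi.single_eq_of_ne hne]
    simp⟩

omit [IsAlgClosed K] [CharZero K] in
theorem single_apply_same (Q : Place K F) (f : F) :
    ((single Q f : ↥(repartitions K F)) : Place K F → F) Q = f := by
  classical
  show (Pi.single Q f : Place K F → F) Q = f
  rw [Pi.single_eq_same]

omit [IsAlgClosed K] [CharZero K] in
theorem single_apply_of_ne (Q : Place K F) (f : F) {v : Place K F} (hv : v ≠ Q) :
    ((single Q f : ↥(repartitions K F)) : Place K F → F) v = 0 := by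
  classical
  show (Pi.single Q f : Place K F → F) v = 0
  rw [Pi.single_eq_of_ne hv]

/-- **The divisor of a nonzero Weil differential.** -/
theorem exists_divisor_of_weil (hF : FA_RR_IsFF K F) (lam : ↥(repartitions K F) →ₗ[K] K)
    (hlam : lam ≠ 0) (hW : FA_RR_IsWeil K F lam) :
    ∃ W : Divisor K F, ∀ D : Divisor K F, VanishesOn lam D ↔ D ≤ W := by
  obtain ⟨hlF, D₁, hD₁⟩ := hW
  obtain ⟨c, hc⟩ := exists_degree_SD_eq_top hF
  -- degrees of the divisors in `M(λ)` are bounded
  have hbdd : ∀ D : Divisor K F, VanishesOn lam D → Divisor.degree D < c := by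
    intro D hD
    by_contra hcon
    rw [not_lt] at hcon
    apply hlam
    ext α
    have : α ∈ SD D := by
      rw [hc D hcon]
      trivial
    rw [vanishesOn_SD hlF hD α this]
    rfl
  obtain ⟨m, ⟨W, hWv, hWm⟩, hmax⟩ := Int.exists_greatest_of_bdd
    (P := fun z => ∃ D : Divisor K F, VanishesOn lam D ∧ Divisor.degree D = z)
    ⟨c, fun z ⟨D, hD, hz⟩ => hz ▸ (hbdd D hD).le⟩ ⟨_, D₁, hD₁, rfl⟩
  refine ⟨W, fun D => ⟨fun hD => ?_, fun hle => hWv.mono hle⟩⟩
  rw [Finsupp.le_def]
  intro Q
  by_contra hQ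
  rw [not_le] at hQ
  -- `W + Q ∈ M(λ)`
  have hWQ : VanishesOn lam (W + Finsupp.single Q 1) := by
    intro α hα
    set α₂ := single Q ((α : Place K F → F) Q) with hα₂
    have h2 : α₂ ∈ repartitionsOf D := by
      intro v
      by_cases hv : v = Q
      · subst hv
        rw [hα₂, single_apply_same]
        refine (hα v).trans ?_
        rw [exp_le_exp, Finsupp.add_apply, Finsupp.single_eq_same]
        omega
      · rw [hα₂, single_apply_of_ne Q _ hv]
        simp
    have h1 : α - α₂ ∈ repartitionsOf W := by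
      intro v
      by_cases hv : v = Q
      · subst hv
        rw [sub_apply', hα₂, single_apply_same, sub_self]
        simp
      · rw [sub_apply', hα₂, single_apply_of_ne Q _ hv, sub_zero]
        have := hα v
        rwa [Finsupp.add_apply, Finsupp.single_eq_of_ne hv, add_zero] at this
    have : α = (α - α₂) + α₂ := by abel
    rw [this, map_add, hWv _ h1, hD _ h2, add_zero]
  have := hmax _ ⟨_, hWQ, rfl⟩
  rw [degree_add_single hF, hWm] at this
  omega

end FA_RR.WPC
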