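import Mathlib
import Fermat.Agent.Lib.RR.WeilA

/-!
# Riemann–Roch WP-C, part 2: duality

* the Weil differentials form a one-dimensional `F`-vector space (`exists_fsmul_eq`);
* `ℓ(W - D) = h¹(D)` for the divisor `W` of a nonzero Weil differential, and `deg W = 2g - 2`;
* `weil : FA_RR_Target_weil K F`.
-/

set_option autoImplicit false
set_option linter.style.haveILetI false

noncomputable section

open AlgebraicCurve WithZero IntermediateField

namespace FA_RR.WPC

open FA_RR.WPB

variable {K F : Type*} [Field K] [Field F] [Algebra K F]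

/-- Two linear maps from a space of large dimension have a common value. -/
theorem exists_eq_of_finrank_lt {V W : Type*} [AddCommGroup V] [Module K V] [AddCommGroup W]
    [Module K W] [FiniteDimensional K V] [FiniteDimensional K W] (φ₁ φ₂ : V →ₗ[K] W)
    (h : Module.finrank K W < Module.finrank K V + Module.finrank K V) :
    ∃ f₁ f₂ : V, (f₁ ≠ 0 ∨ f₂ ≠ 0) ∧ φ₁ f₁ = φ₂ f₂ := by
  have hker : LinearMap.ker (φ₁.coprod (-φ₂)) ≠ ⊥ := by
    apply LinearMap.ker_ne_bot_of_finrank_lt
    rwa [Module.finrank_prod]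
  obtain ⟨⟨f₁, f₂⟩, hmem, hne⟩ := Submodule.exists_mem_ne_zero_of_ne_bot hker
  refine ⟨f₁, f₂, ?_, ?_⟩
  · by_contra hcon
    rw [not_or, not_not, not_not] at hcon
    apply hne
    rw [hcon.1, hcon.2]
    rfl
  · have := LinearMap.mem_ker.mp hmem
    rw [LinearMap.coprod_apply, LinearMap.neg_apply, ← sub_eq_add_neg] at this
    exact sub_eq_zero.mp this

/-- `Ω(D)`: the linear forms on the repartitions vanishing on `A(D) + F`. -/
abbrev Om (D : Divisor K F) : Submodule K (Module.Dual K ↥(repartitions K F)) :=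
  (SD D).dualAnnihilator

theorem mem_Om_iff {D : Divisor K F} {lam : ↥(repartitions K F) →ₗ[K] K} :
    lam ∈ Om D ↔ VanishesOnF lam ∧ VanishesOn lam D := by
  rw [Submodule.mem_dualAnnihilator]
  constructor
  · intro h
    exact ⟨fun α hα => h α (Submodule.mem_sup_right hα),
      fun α hα => h α (Submodule.mem_sup_left hα)⟩
  · rintro ⟨h1, h2⟩
    exact vanishesOn_SD h1 h2

variable [IsAlgClosed K] [CharZero K]

theorem finite_Om (hF : FA_RR_IsFF K F) (D : Divisor K F) : Module.Finite K (Om D) := by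
  haveI := finiteH1 hF D
  exact Module.Finite.equiv (Submodule.dualQuotEquivDualAnnihilator (SD D))

omit [IsAlgClosed K] [CharZero K] in
theorem finrank_Om (D : Divisor K F) :
    Module.finrank K (Om D) = Module.finrank K (H1 D) := by
  rw [← LinearEquiv.finrank_eq (Submodule.dualQuotEquivDualAnnihilator (SD D))]
  exact Subspace.dual_finrank_eq

/-- `f • λ ∈ Ω(D - div f)` … in the form needed: for `f ∈ L(D' + B)` and `λ` vanishing on
`A(D')`, the form `f • λ` vanishes on `A(-B)`. -/
theorem vanishesOn_fsmul_of_mem_L (hF : FA_RR_IsFF K F) {D' B : Divisor K F} {f : F}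
    (hf : f ∈ riemannRochSpace (D' + B)) {lam : ↥(repartitions K F) →ₗ[K] K}
    (hlam : VanishesOn lam D') : VanishesOn (fsmul f lam) (-B) := by
  rcases eq_or_ne f 0 with rfl | hf0
  · intro α _
    rw [fsmul_zero]
    rfl
  haveI := hasPrincipalDivisors hF
  obtain ⟨E, hE, -⟩ := HasPrincipalDivisors.exists_divisor (K := K) f hf0
  rw [vanishesOn_fsmul_iff (-B) E hf0 hE]
  apply hlam.mono
  rw [Finsupp.le_def]
  intro v
  rcases (mem_riemannRochSpace_iff.mp hf) v with h | h
  · exact absurd h hf0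
  · rw [Finsupp.sub_apply, Finsupp.neg_apply, hE v]
    rw [Finsupp.add_apply] at h
    omega

/-- **The Weil differentials form a one-dimensional `F`-vector space.** -/
theorem exists_fsmul_eq (hF : FA_RR_IsFF K F) {lam lam' : ↥(repartitions K F) →ₗ[K] K}
    (hlam : lam ≠ 0) (hW : FA_RR_IsWeil K F lam) (hW' : FA_RR_IsWeil K F lam') :
    ∃ f : F, lam' = fsmul f lam := by
  obtain ⟨hlF, D₁, hD₁⟩ := hW
  obtain ⟨hlF', D₂, hD₂⟩ := hW'
  -- a common divisor `D'`
  set D' := D₁ ⊓ D₂ with hD'
  have h1 : VanishesOn lam D' := VanishesOn.mono hD₁ inf_le_left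
  have h2 : VanishesOn lam' D' := VanishesOn.mono hD₂ inf_le_right
  -- a divisor `B` of large degree
  obtain ⟨B₀, -, n, hn, hB₀, -, hB₀deg, -⟩ := exists_bound_data hF
  set g : ℤ := (genusFF K F : ℤ) with hg
  set l : ℕ := (3 * g + 2 * |Divisor.degree D'| + 1).toNat with hl
  set B : Divisor K F := l • B₀ with hB
  have hBdeg : Divisor.degree B = l * n := by
    rw [hB, map_nsmul, hB₀deg]
    simp
  have hlbig : 3 * g + 2 * |Divisor.degree D'| + 1 ≤ Divisor.degree B := by
    have h3 : 3 * g + 2 * |Divisor.degree D'| + 1 ≤ l := Int.self_le_toNat _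
    have h4 : (1 : ℤ) ≤ n := by exact_mod_cast hn
    have h5 : (0 : ℤ) ≤ l := Int.natCast_nonneg _
    rw [hBdeg]
    nlinarith
  have habs := neg_abs_le (Divisor.degree D')
  have habs0 := abs_nonneg (Divisor.degree D')
  have hg0 : (0 : ℤ) ≤ g := Int.natCast_nonneg _
  -- dimensions
  haveI := finiteL hF (D' + B)
  haveI := finite_Om hF (-B)
  have hdimL := riemann_ineq hF (D' + B)
  rw [map_add] at hdimL
  have hdimOm : (Module.finrank K (Om (-B)) : ℤ) = Divisor.degree B - 1 + g := by
    rw [finrank_Om]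
    have h3 := euler hF (-B)
    have h4 : riemannRochSpace (-B) = ⊥ := by
      apply L_eq_bot_of_degree_neg hF
      rw [map_neg]
      omega
    rw [h4, finrank_bot, map_neg] at h3
    push_cast at h3
    omega
  -- the maps `f ↦ f • λ`, `f ↦ f • λ'`
  have hlt : Module.finrank K (Om (-B)) < Module.finrank K (riemannRochSpace (D' + B)) +
      Module.finrank K (riemannRochSpace (D' + B)) := by
    have : (Module.finrank K (Om (-B)) : ℤ) < (Module.finrank K (riemannRochSpace (D' + B)) +
        Module.finrank K (riemannRochSpace (D' + B)) : ℕ) := by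
      push_cast
      omega
    exact_mod_cast this
  obtain ⟨⟨f₁, hf₁⟩, ⟨f₂, hf₂⟩, hne, heq'⟩ := exists_eq_of_finrank_lt
    (V := ↥(riemannRochSpace (D' + B))) (W := ↥(Om (-B)))
    (LinearMap.codRestrict (Om (-B)) ((fsmulHom lam).comp (riemannRochSpace (D' + B)).subtype)
      (fun f => mem_Om_iff.mpr ⟨vanishesOnF_fsmul f.1 hlF,
        vanishesOn_fsmul_of_mem_L hF f.2 h1⟩))
    (LinearMap.codRestrict (Om (-B)) ((fsmulHom lam').comp (riemannRochSpace (D' + B)).subtype)
      (fun f => mem_Om_iff.mpr ⟨vanishesOnF_fsmul f.1 hlF',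
        vanishesOn_fsmul_of_mem_L hF f.2 h2⟩)) hlt
  have heq : fsmul f₁ lam = fsmul f₂ lam' := congrArg Subtype.val heq'
  have hf₂0 : f₂ ≠ 0 := by
    rintro rfl
    rw [fsmul_zero] at heq
    by_cases hf₁0 : f₁ = 0
    · subst hf₁0
      rcases hne with h | h
      · exact h rfl
      · exact h rfl
    · exact fsmul_ne_zero hf₁0 hlam heq
  refine ⟨f₁ * f₂⁻¹, ?_⟩
  rw [← fsmul_fsmul, heq, fsmul_fsmul, mul_inv_cancel₀ hf₂0, fsmul_one]

/-- **Duality**: `ℓ(W - D) = h¹(D)`. -/
theorem finrank_L_sub_eq (hF : FA_RR_IsFF K F) {lam : ↥(repartitions K F) →ₗ[K] K}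
    (hlam : lam ≠ 0) (hW : FA_RR_IsWeil K F lam) {W : Divisor K F}
    (hWdiv : ∀ D : Divisor K F, VanishesOn lam D ↔ D ≤ W) (D : Divisor K F) :
    Module.finrank K (riemannRochSpace (W - D)) = Module.finrank K (H1 D) := by
  haveI := hasPrincipalDivisors hF
  rw [← finrank_Om D]
  have hmem : ∀ f : F, f ∈ riemannRochSpace (W - D) ↔ fsmul f lam ∈ Om D := by
    intro f
    rcases eq_or_ne f 0 with rfl | hf0
    · simp only [Submodule.zero_mem, fsmul_zero]
    obtain ⟨E, hE, -⟩ := HasPrincipalDivisors.exists_divisor (K := K) f hf0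
    rw [mem_Om_iff, vanishesOn_fsmul_iff D E hf0 hE, hWdiv, mem_riemannRochSpace_iff]
    constructor
    · intro h
      refine ⟨vanishesOnF_fsmul f hW.1, ?_⟩
      rw [Finsupp.le_def]
      intro v
      rcases h v with h | h
      · exact absurd h hf0
      · rw [Finsupp.sub_apply, hE v]
        rw [Finsupp.sub_apply] at h
        omega
    · rintro ⟨-, h⟩ v
      right
      have := Finsupp.le_def.mp h v
      rw [Finsupp.sub_apply, hE v] at this
      rw [Finsupp.sub_apply]
      omega
  have hinj : Function.Injective (fsmulHom lam) := by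
    rw [← LinearMap.ker_eq_bot, eq_bot_iff]
    intro f hf
    rw [LinearMap.mem_ker, fsmulHom_apply] at hf
    by_contra hf0
    exact fsmul_ne_zero hf0 hlam hf
  have hmap : (riemannRochSpace (W - D)).map (fsmulHom lam) = Om D := by
    ext lam'
    constructor
    · rintro ⟨f, hf, rfl⟩
      exact (hmem f).mp hf
    · intro h
      obtain ⟨h1, h2⟩ := mem_Om_iff.mp h
      obtain ⟨f, rfl⟩ := exists_fsmul_eq hF hlam hW (lam' := lam') ⟨h1, D, h2⟩
      exact ⟨f, (hmem f).mpr h, rfl⟩
  rw [← hmap]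
  exact LinearEquiv.finrank_eq (Submodule.equivMapOfInjective _ hinj _)

/-- **WP-C**: every nonzero Weil differential has a divisor `W`, `deg W = 2g - 2` and
`ℓ(W - D) = h¹(D)`. -/
theorem weil (hF : FA_RR_IsFF K F) : FA_RR_Target_weil K F := by
  intro lam hlam hW
  obtain ⟨W, hWdiv⟩ := exists_divisor_of_weil hF lam hlam hW
  have hdual := finrank_L_sub_eq hF hlam hW hWdiv
  refine ⟨W, hWdiv, ?_, hdual⟩
  have h1 := hdual 0
  have h2 := hdual W
  rw [sub_zero] at h1
  rw [sub_self, (L_zero_finite hF).2] at h2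
  have h3 := euler hF W
  rw [h1, ← h2] at h3
  have h4 : Module.finrank K (H1 (0 : Divisor K F)) = genusFF K F := rfl
  rw [h4] at h3
  push_cast at h3
  omega

end FA_RR.WPC
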