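import Mathlib
import Fermat.Agent.Lib.RR.WeilB
import Fermat.Agent.Lib.RR.Hurwitz

/-!
# Riemann–Roch WP-E, part 1: the Weil differential of a Kähler differential

Input: local residues `res` with the three properties of `FA_RR_Target_residues`.
Output: for `ω ≠ 0` the linear form `λ_ω(α) = ∑_v res_v(α_v ω)` is a nonzero Weil differential
whose divisor is `v ↦ ord_v ω`.
-/

set_option autoImplicit false
set_option linter.style.haveILetI false

noncomputable section

open AlgebraicCurve WithZero IntermediateField KaehlerDifferential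

namespace FA_RR.WPE

open FA_RR.WPB FA_RR.WPC

variable {K F : Type*} [Field K] [Field F] [Algebra K F] [IsAlgClosed K] [CharZero K]

/-- local form of a differential at a place -/
theorem exists_local (hF : FA_RR_IsFF K F) (v : Place K F) (ω : Ω[F⁄K]) :
    ∃ t h : F, v.ord t = 1 ∧ ω = h • D K F t ∧
      (ω ≠ 0 → h ≠ 0 ∧ v.ordDifferential ω = v.ord h) := by
  obtain ⟨t, ht, -⟩ := dCoord_spec v
  have htr : Transcendental K t := transcendental_of_ord_ne_zero v (by omega)
  obtain ⟨h, hh⟩ := kaehler hF t htr ω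
  refine ⟨t, h, ht, hh, fun hω => ⟨?_, ?_⟩⟩
  · rintro rfl
    exact hω (by rw [hh, zero_smul])
  · rw [hh, ordDifferential_smul_D hF v ht]

theorem ordDifferential_zero (hF : FA_RR_IsFF K F) (v : Place K F) :
    v.ordDifferential (0 : Ω[F⁄K]) = 0 := by
  haveI := dCoordGenerates hF v
  haveI := nontrivial_kaehler hF
  rw [Place.ordDifferential, v.differentialCoeff_zero, v.ord_zero]

/-- a differential has finitely many poles -/
theorem finite_ordDifferential_neg (hF : FA_RR_IsFF K F) (ω : Ω[F⁄K]) :
    {v : Place K F | v.ordDifferential ω < 0}.Finite := by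
  obtain ⟨x, hx, -⟩ := id hF
  obtain ⟨g, hg⟩ := kaehler hF x hx ω
  refine ((finite_poles hF x).union (finite_poles hF g)).subset ?_
  intro v hv
  by_contra hnot
  rw [Set.mem_union, not_or] at hnot
  obtain ⟨h1, h2⟩ := hnot
  simp only [Set.mem_ofPred_eq, not_lt] at h1 h2 hv
  obtain ⟨t, ht, -⟩ := dCoord_spec v
  have hxm : x ∈ v.toValuationSubring := (mem_iff_ord v).mpr (Or.inr h1)
  obtain ⟨g', hg', hD⟩ := exists_mem_smul_D hF v ht hxm
  have hω : ω = (g * g') • D K F t := by rw [hg, hD, mul_smul]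
  rw [hω, ordDifferential_smul_D hF v ht] at hv
  by_cases h0 : g = 0
  · rw [h0, zero_mul, v.ord_zero] at hv
    exact lt_irrefl _ hv
  by_cases h0' : g' = 0
  · rw [h0', mul_zero, v.ord_zero] at hv
    exact lt_irrefl _ hv
  rw [v.ord_mul h0 h0'] at hv
  rcases (mem_iff_ord v).mp hg' with h | h
  · exact h0' h
  · omega

section Res

variable (res : Place K F → (Ω[F⁄K] →ₗ[K] K))

/-- `res_v (a ω) = 0` if `a ω` is regular at `v` -/
theorem res_eq_zero (hF : FA_RR_IsFF K F)
    (hR1 : ∀ (v : Place K F) (f g : F), v.adicValuation f ≤ 1 → v.adicValuation g ≤ 1 →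
      res v (f • D K F g) = 0)
    (v : Place K F) {ω : Ω[F⁄K]} (hω : ω ≠ 0) {a : F}
    (ha : a = 0 ∨ 0 ≤ v.ord a + v.ordDifferential ω) : res v (a • ω) = 0 := by
  obtain ⟨t, h, ht, hh, hspec⟩ := exists_local hF v ω
  obtain ⟨hh0, hord⟩ := hspec hω
  have h1 : a • ω = (a * h) • D K F t := by rw [hh, mul_smul]
  rw [h1]
  refine hR1 v (a * h) t ?_ ?_
  · rw [v.adicValuation_le_one_iff]
    rcases ha with ha | ha
    · left; rw [ha, zero_mul]
    · by_cases ha0 : a = 0
      · left; rw [ha0, zero_mul]
      · right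
        rw [v.ord_mul ha0 hh0, ← hord]
        exact ha
  · rw [v.adicValuation_le_one_iff]
    right; omega

/-- there is `a` with `ord_v a = - ord_v ω - 1` and `res_v (a ω) = 1` -/
theorem exists_res_eq_one (hF : FA_RR_IsFF K F)
    (hR2 : ∀ (v : Place K F) (t h : F) (c : K), v.ord t = 1 →
      v.adicValuation (h - algebraMap K F c) < 1 → res v ((h * t⁻¹) • D K F t) = c)
    (v : Place K F) {ω : Ω[F⁄K]} (hω : ω ≠ 0) :
    ∃ a : F, a ≠ 0 ∧ v.ord a = -(v.ordDifferential ω) - 1 ∧ res v (a • ω) = 1 := by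
  obtain ⟨t, h, ht, hh, hspec⟩ := exists_local hF v ω
  obtain ⟨hh0, hord⟩ := hspec hω
  have ht0 : t ≠ 0 := by
    rintro rfl
    rw [v.ord_zero] at ht
    exact zero_ne_one ht
  refine ⟨h⁻¹ * t⁻¹, mul_ne_zero (inv_ne_zero hh0) (inv_ne_zero ht0), ?_, ?_⟩
  · rw [v.ord_mul (inv_ne_zero hh0) (inv_ne_zero ht0), v.ord_inv, v.ord_inv, hord, ht]
    ring
  · have h1 : (h⁻¹ * t⁻¹) • ω = ((1 : F) * t⁻¹) • D K F t := by
      rw [hh, ← mul_smul, one_mul]
      congr 1
      field_simp
    rw [h1]
    have := hR2 v t 1 1 ht (by rw [map_one, sub_self, map_zero]; exact zero_lt_one)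
    exact this

/-- the family `v ↦ res_v (α_v ω)` has finite support -/
theorem finite_support_res (hF : FA_RR_IsFF K F)
    (hR1 : ∀ (v : Place K F) (f g : F), v.adicValuation f ≤ 1 → v.adicValuation g ≤ 1 →
      res v (f • D K F g) = 0)
    (ω : Ω[F⁄K]) (α : ↥(repartitions K F)) :
    (Function.support fun v : Place K F => res v ((α : Place K F → F) v • ω)).Finite := by
  by_cases hω : ω = 0
  · subst hω
    simp
  have hα : {v : Place K F | v.ord ((α : Place K F → F) v) < 0}.Finite :=
    (repartitions_iff hF _).mp α.2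
  refine (hα.union (finite_ordDifferential_neg hF ω)).subset ?_
  intro v hv
  by_contra hnot
  rw [Set.mem_union, not_or] at hnot
  obtain ⟨h1, h2⟩ := hnot
  simp only [Set.mem_ofPred_eq, not_lt] at h1 h2
  exact hv (res_eq_zero res hF hR1 v hω (Or.inr (by omega)))

/-- The Weil differential attached to `ω`. -/
def lam (hF : FA_RR_IsFF K F)
    (hR1 : ∀ (v : Place K F) (f g : F), v.adicValuation f ≤ 1 → v.adicValuation g ≤ 1 →
      res v (f • D K F g) = 0)
    (ω : Ω[F⁄K]) : ↥(repartitions K F) →ₗ[K] K where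
  toFun α := ∑ᶠ v : Place K F, res v ((α : Place K F → F) v • ω)
  map_add' α β := by
    rw [← finsum_add_distrib (finite_support_res res hF hR1 ω α)
      (finite_support_res res hF hR1 ω β)]
    refine finsum_congr fun v => ?_
    rw [add_apply', add_smul, map_add]
  map_smul' c α := by
    rw [RingHom.id_apply, smul_eq_mul, mul_finsum]
    refine finsum_congr fun v => ?_
    rw [smul_apply', smul_assoc, map_smul, smul_eq_mul]

theorem lam_apply (hF : FA_RR_IsFF K F)
    (hR1 : ∀ (v : Place K F) (f g : F), v.adicValuation f ≤ 1 → v.adicValuation g ≤ 1 →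
      res v (f • D K F g) = 0)
    (ω : Ω[F⁄K]) (α : ↥(repartitions K F)) :
    lam res hF hR1 ω α = ∑ᶠ v : Place K F, res v ((α : Place K F → F) v • ω) := rfl

/-- `λ_ω` vanishes on `A(D)` iff `D ≤ div ω`. -/
theorem lam_vanishes_iff (hF : FA_RR_IsFF K F)
    (hR1 : ∀ (v : Place K F) (f g : F), v.adicValuation f ≤ 1 → v.adicValuation g ≤ 1 →
      res v (f • D K F g) = 0)
    (hR2 : ∀ (v : Place K F) (t h : F) (c : K), v.ord t = 1 →
      v.adicValuation (h - algebraMap K F c) < 1 → res v ((h * t⁻¹) • D K F t) = c)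
    {ω : Ω[F⁄K]} (hω : ω ≠ 0) (E : Divisor K F) :
    (∀ α ∈ repartitionsOf E, lam res hF hR1 ω α = 0) ↔
      ∀ v : Place K F, E v ≤ v.ordDifferential ω := by
  constructor
  · intro h v
    by_contra hlt
    push Not at hlt
    obtain ⟨a, ha0, hord, hres1⟩ := exists_res_eq_one res hF hR2 v hω
    have hmem : single v a ∈ repartitionsOf E := by
      rw [mem_repartitionsOf_iff]
      intro u
      by_cases hu : u = v
      · subst hu
        right
        rw [single_apply_same, hord]
        omega
      · left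
        exact single_apply_of_ne v a hu
    have h0 := h _ hmem
    rw [lam_apply, finsum_eq_single _ v, single_apply_same, hres1] at h0
    · exact one_ne_zero h0
    · intro u hu
      rw [single_apply_of_ne v a hu, zero_smul, map_zero]
  · intro h α hα
    rw [mem_repartitionsOf_iff] at hα
    rw [lam_apply]
    refine finsum_eq_zero_of_forall_eq_zero fun v => ?_
    refine res_eq_zero res hF hR1 v hω ?_
    rcases hα v with h0 | h0
    · exact Or.inl h0
    · right
      have := h v
      omega

end Res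

/-- a function field has a place -/
theorem exists_place (hF : FA_RR_IsFF K F) : Nonempty (Place K F) := by
  obtain ⟨x, hx, hfin⟩ := id hF
  have hdeg := degree_zeroDiv hF hx
  have hpos : 0 < Module.finrank K⟮x⟯ F := Module.finrank_pos
  by_contra hemp
  rw [not_nonempty_iff] at hemp
  have : zeroDiv hF hx = 0 := by
    ext v
    exact (hemp.false v).elim
  rw [this, map_zero] at hdeg
  omega

section Weil

variable (res : Place K F → (Ω[F⁄K] →ₗ[K] K))

theorem lam_isWeil (hF : FA_RR_IsFF K F)
    (hR1 : ∀ (v : Place K F) (f g : F), v.adicValuation f ≤ 1 → v.adicValuation g ≤ 1 →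
      res v (f • D K F g) = 0)
    (hR2 : ∀ (v : Place K F) (t h : F) (c : K), v.ord t = 1 →
      v.adicValuation (h - algebraMap K F c) < 1 → res v ((h * t⁻¹) • D K F t) = c)
    (hR3 : ∀ ω : Ω[F⁄K], (Function.support fun v => res v ω).Finite ∧ ∑ᶠ v, res v ω = 0)
    {ω : Ω[F⁄K]} (hω : ω ≠ 0) : FA_RR_IsWeil K F (lam res hF hR1 ω) := by
  classical
  refine ⟨?_, ?_⟩
  · intro α hα
    obtain ⟨f, hf⟩ := mem_principalRepartitions_iff.mp hα
    rw [lam_apply]
    have : (fun v : Place K F => res v ((α : Place K F → F) v • ω)) =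
        fun v => res v (f • ω) := by
      funext v
      rw [hf]
    rw [this]
    exact (hR3 (f • ω)).2
  · have hfin := finite_ordDifferential_neg hF ω
    refine ⟨Finsupp.onFinset hfin.toFinset (fun v => min (v.ordDifferential ω) 0) ?_, ?_⟩
    · intro v hv
      rw [Set.Finite.mem_toFinset, Set.mem_ofPred_eq]
      by_contra hnot
      push Not at hnot
      exact hv (min_eq_right hnot)
    · rw [lam_vanishes_iff res hF hR1 hR2 hω]
      intro v
      rw [Finsupp.onFinset_apply]
      exact min_le_left _ _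

theorem lam_ne_zero (hF : FA_RR_IsFF K F)
    (hR1 : ∀ (v : Place K F) (f g : F), v.adicValuation f ≤ 1 → v.adicValuation g ≤ 1 →
      res v (f • D K F g) = 0)
    (hR2 : ∀ (v : Place K F) (t h : F) (c : K), v.ord t = 1 →
      v.adicValuation (h - algebraMap K F c) < 1 → res v ((h * t⁻¹) • D K F t) = c)
    {ω : Ω[F⁄K]} (hω : ω ≠ 0) : lam res hF hR1 ω ≠ 0 := by
  classical
  intro h0
  obtain ⟨v⟩ := exists_place hF
  have := (lam_vanishes_iff res hF hR1 hR2 hω
    (Finsupp.single v (v.ordDifferential ω + 1))).mp (fun α _ => by rw [h0]; rfl) v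
  rw [Finsupp.single_eq_same] at this
  omega

end Weil

/-- **Canonical divisors**: every nonzero differential has a divisor `W`, of degree `2g - 2`,
and `ℓ(W - D) = h¹(D)`. -/
theorem exists_canonical (hF : FA_RR_IsFF K F) (hres : FA_RR_Target_residues K F)
    {ω : Ω[F⁄K]} (hω : ω ≠ 0) :
    ∃ W : Divisor K F, (∀ v : Place K F, W v = v.ordDifferential ω) ∧
      Divisor.degree W = 2 * (genusFF K F : ℤ) - 2 ∧
      ∀ E : Divisor K F,
        Module.finrank K (riemannRochSpace (W - E)) = Module.finrank K (H1 E) := by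
  classical
  obtain ⟨res, hR1, hR2, hR3⟩ := hres
  obtain ⟨W, hW, hdeg, hdual⟩ := weil hF (lam res hF hR1 ω) (lam_ne_zero res hF hR1 hR2 hω)
    (lam_isWeil res hF hR1 hR2 hR3 hω)
  have h1 : ∀ E : Divisor K F, E ≤ W ↔ ∀ v : Place K F, E v ≤ v.ordDifferential ω :=
    fun E => (hW E).symm.trans (lam_vanishes_iff res hF hR1 hR2 hω E)
  refine ⟨W, fun v => le_antisymm ((h1 W).mp le_rfl v) ?_, hdeg, hdual⟩
  have h2 : W + Finsupp.single v (v.ordDifferential ω - W v) ≤ W := by
    rw [h1]
    intro u
    rw [Finsupp.add_apply]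
    by_cases hu : u = v
    · subst hu
      rw [Finsupp.single_eq_same]
      omega
    · rw [Finsupp.single_eq_of_ne hu, add_zero]
      exact (h1 W).mp le_rfl u
  have h3 := Finsupp.le_def.mp h2 v
  rw [Finsupp.add_apply, Finsupp.single_eq_same] at h3
  omega

/-- `HasCanonicalDivisor` for a function field. -/
theorem hasCanonicalDivisor (hF : FA_RR_IsFF K F) (hres : FA_RR_Target_residues K F) :
    HasCanonicalDivisor (K := K) (F := F) :=
  ⟨fun _ hω => (exists_canonical hF hres hω).imp fun _ h => h.1⟩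

/-- the degree of a canonical divisor is `2g - 2` -/
theorem degree_canonicalDivisorOf' (hF : FA_RR_IsFF K F) (hres : FA_RR_Target_residues K F)
    [HasCanonicalDivisor (K := K) (F := F)] {ω : Ω[F⁄K]} (hω : ω ≠ 0) :
    Divisor.degree (canonicalDivisorOf hω) = 2 * (genusFF K F : ℤ) - 2 := by
  obtain ⟨W, hW, hdeg, -⟩ := exists_canonical hF hres hω
  have : canonicalDivisorOf hω = W := by
    ext v
    rw [canonicalDivisorOf_apply, hW]
  rw [this, hdeg]

/-- **genus = genusFF** -/
theorem genus_eq_genusFF (hF : FA_RR_IsFF K F) (hres : FA_RR_Target_residues K F)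
    [HasCanonicalDivisor (K := K) (F := F)] : genus K F = genusFF K F := by
  obtain ⟨x, hx, -⟩ := id hF
  have h : ∃ ω : Ω[F⁄K], ω ≠ 0 := ⟨_, D_ne_zero' hF x hx⟩
  unfold genus
  rw [dif_pos h, degree_canonicalDivisorOf' hF hres h.choose_spec]
  omega

/-- **Riemann–Roch.** -/
theorem riemann_roch (hF : FA_RR_IsFF K F) (hres : FA_RR_Target_residues K F)
    [HasCanonicalDivisor (K := K) (F := F)] {ω : Ω[F⁄K]} (hω : ω ≠ 0) (E : Divisor K F) :
    (Module.finrank K (riemannRochSpace E) : ℤ) -
        (Module.finrank K (riemannRochSpace (canonicalDivisorOf hω - E)) : ℤ)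
      = Divisor.degree E + 1 - (genusFF K F : ℤ) := by
  obtain ⟨W, hW, -, hdual⟩ := exists_canonical hF hres hω
  have : canonicalDivisorOf hω = W := by
    ext v
    rw [canonicalDivisorOf_apply, hW]
  rw [this, hdual E]
  exact euler hF E

theorem ordDifferential_smul' (hF : FA_RR_IsFF K F) (v : Place K F) {f : F} (hf : f ≠ 0)
    {ω : Ω[F⁄K]} (hω : ω ≠ 0) :
    v.ordDifferential (f • ω) = v.ord f + v.ordDifferential ω := by
  obtain ⟨t, h, ht, hh, hspec⟩ := exists_local hF v ω
  obtain ⟨hh0, hord⟩ := hspec hω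
  rw [hord]
  conv_lhs => rw [hh, ← mul_smul]
  rw [ordDifferential_smul_D hF v ht, v.ord_mul hf hh0]

/-- **The regular differentials form a `K`-subspace of dimension `genusFF`.** -/
theorem exists_regular_submodule (hF : FA_RR_IsFF K F) (hres : FA_RR_Target_residues K F) :
    ∃ R : Submodule K Ω[F⁄K], (R : Set Ω[F⁄K]) = FA_RR_regularDifferentials K F ∧
      Module.finrank K R = genusFF K F := by
  obtain ⟨x, hx, -⟩ := id hF
  have hω₀ : D K F x ≠ 0 := D_ne_zero' hF x hx
  obtain ⟨W, hW, -, hdual⟩ := exists_canonical hF hres hω₀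
  let φ : F →ₗ[K] Ω[F⁄K] := (LinearMap.toSpanSingleton F Ω[F⁄K] (D K F x)).restrictScalars K
  have hφ : ∀ f : F, φ f = f • D K F x := fun f => rfl
  have hinj : Function.Injective φ := by
    intro f g hfg
    rw [hφ, hφ] at hfg
    by_contra hne
    have h0 : (f - g) • D K F x = 0 := by rw [sub_smul, hfg, sub_self]
    rcases smul_eq_zero.mp h0 with h | h
    · exact hne (sub_eq_zero.mp h)
    · exact hω₀ h
  refine ⟨(riemannRochSpace W).map φ, ?_, ?_⟩
  · ext ω
    simp only [Submodule.map_coe, Set.mem_image, SetLike.mem_coe, FA_RR_regularDifferentials,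
      Set.mem_ofPred_eq]
    constructor
    · rintro ⟨f, hf, rfl⟩
      rw [hφ]
      by_cases hf0 : f = 0
      · left; rw [hf0, zero_smul]
      · right
        intro v
        rw [ordDifferential_smul' hF v hf0 hω₀, ← hW]
        rcases mem_riemannRochSpace_iff.mp hf v with h | h
        · exact absurd h hf0
        · omega
    · intro hω
      obtain ⟨f, hf⟩ := kaehler hF x hx ω
      refine ⟨f, ?_, by rw [hφ, hf]⟩
      rw [mem_riemannRochSpace_iff]
      intro v
      by_cases hf0 : f = 0
      · exact Or.inl hf0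
      · right
        rcases hω with h | h
        · exfalso
          rw [hf] at h
          rcases smul_eq_zero.mp h with h' | h'
          · exact hf0 h'
          · exact hω₀ h'
        · have := h v
          rw [hf, ordDifferential_smul' hF v hf0 hω₀, ← hW] at this
          omega
  · rw [(Submodule.equivMapOfInjective φ hinj (riemannRochSpace W)).symm.finrank_eq]
    have := hdual 0
    rw [sub_zero] at this
    rw [this]
    rfl

end FA_RR.WPE

end
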