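import Mathlib

/-!
# Tate's trace for finite-potent endomorphisms (item 77, WP-T, part 2)

`tr θ` is the trace of `θ` on any finite-dimensional `θ`-stable subspace containing the range of
some power of `θ`.
-/

set_option autoImplicit false
set_option linter.style.haveILetI false

noncomputable section

namespace FA_RR.Tate

open Module

variable {K : Type*} [Field K] {V : Type*} [AddCommGroup V] [Module K V]

/-- The trace of `θ` on a stable subspace `W`. -/
def trOn (θ : End K V) (W : Submodule K V) (h : ∀ x ∈ W, θ x ∈ W) : K :=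
  LinearMap.trace K W (θ.restrict h)

theorem trOn_congr (θ : End K V) {W W' : Submodule K V} (hWW' : W = W')
    (h : ∀ x ∈ W, θ x ∈ W) (h' : ∀ x ∈ W', θ x ∈ W') : trOn θ W h = trOn θ W' h' := by
  subst hWW'
  rfl

/-- Lemma A: if `θ W ≤ W' ≤ W` then the traces on `W'` and `W` agree. -/
theorem trOn_eq_of_map_le (θ : End K V) {W' W : Submodule K V} [Module.Finite K W]
    (hle : W' ≤ W) (h : ∀ x ∈ W, θ x ∈ W') (h1 : ∀ x ∈ W', θ x ∈ W') (h2 : ∀ x ∈ W, θ x ∈ W) :
    trOn θ W' h1 = trOn θ W h2 := by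
  set g : ↥W →ₗ[K] ↥W := θ.restrict h2 with hg
  set p : Submodule K ↥W := W'.comap W.subtype with hp
  have hgp : ∀ x : ↥W, g x ∈ p := fun x => h x x.2
  have e1 := LinearMap.trace_restrict_eq_of_forall_mem p g hgp
  let e : ↥p ≃ₗ[K] ↥W' := Submodule.comapSubtypeEquivOfLe hle
  have e2 := LinearMap.trace_conj' (g.restrict (fun x _ => hgp x)) e
  unfold trOn
  rw [← e1, ← e2]
  congr 1

/-- Lemma B: if `θ^k W ≤ W' ≤ W`, both stable, then the traces on `W'` and `W` agree. -/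
theorem trOn_eq_of_pow_map_le (θ : End K V) (k : ℕ) :
    ∀ {W' W : Submodule K V} [Module.Finite K W] (_ : W' ≤ W)
      (_ : ∀ x ∈ W, (θ ^ k) x ∈ W') (h1 : ∀ x ∈ W', θ x ∈ W') (h2 : ∀ x ∈ W, θ x ∈ W),
      trOn θ W' h1 = trOn θ W h2 := by
  induction k with
  | zero =>
    intro W' W _ hle h h1 h2
    have : W' = W := le_antisymm hle (fun x hx => by simpa using h x hx)
    exact trOn_congr θ this h1 h2
  | succ k ih =>
    intro W' W _ hle h h1 h2
    -- the intermediate subspace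
    set W'' : Submodule K V := W' ⊔ W.map (θ ^ k) with hW''
    have hstabk : ∀ (j : ℕ) (x : V), x ∈ W → (θ ^ j) x ∈ W := by
      intro j
      induction j with
      | zero => intro x hx; simpa using hx
      | succ j ihj =>
        intro x hx
        rw [pow_succ', Module.End.mul_apply]
        exact h2 _ (ihj x hx)
    have hW''le : W'' ≤ W := by
      refine sup_le hle ?_
      rintro _ ⟨x, hx, rfl⟩
      exact hstabk k x hx
    have hmap : ∀ x ∈ W'', θ x ∈ W' := by
      intro x hx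
      obtain ⟨a, ha, b, hb, rfl⟩ := Submodule.mem_sup.mp hx
      obtain ⟨c, hc, rfl⟩ := hb
      rw [map_add]
      refine Submodule.add_mem _ (h1 a ha) ?_
      have := h c hc
      rwa [pow_succ', Module.End.mul_apply] at this
    have hW''stab : ∀ x ∈ W'', θ x ∈ W'' := fun x hx =>
      (le_sup_left : W' ≤ W'') (hmap x hx)
    haveI : Module.Finite K W'' := Submodule.finiteDimensional_of_le hW''le
    have e1 := trOn_eq_of_map_le θ (le_sup_left : W' ≤ W'') hmap h1 hW''stab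
    have e2 := ih (W' := W'') (W := W) hW''le
      (fun x hx => (le_sup_right : W.map (θ ^ k) ≤ W'') ⟨x, hx, rfl⟩) hW''stab h2
    rw [e1, e2]

/-- `W` computes the trace of `θ`. -/
structure IsTrSpace (θ : End K V) (W : Submodule K V) : Prop where
  finite : Module.Finite K W
  stable : ∀ x ∈ W, θ x ∈ W
  range : ∃ n : ℕ, LinearMap.range (θ ^ n) ≤ W

theorem range_pow_le_of_le (θ : End K V) {m n : ℕ} (h : m ≤ n) :
    LinearMap.range (θ ^ n) ≤ LinearMap.range (θ ^ m) := by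
  obtain ⟨k, rfl⟩ := Nat.exists_eq_add_of_le h
  rw [pow_add]
  rintro _ ⟨x, rfl⟩
  exact ⟨(θ ^ k) x, rfl⟩

theorem IsTrSpace.inf {θ : End K V} {W₁ W₂ : Submodule K V} (h₁ : IsTrSpace θ W₁)
    (h₂ : IsTrSpace θ W₂) : IsTrSpace θ (W₁ ⊓ W₂) := by
  obtain ⟨n₁, hn₁⟩ := h₁.range
  obtain ⟨n₂, hn₂⟩ := h₂.range
  haveI := h₁.finite
  refine ⟨Submodule.finiteDimensional_of_le inf_le_left,
    fun x hx => ⟨h₁.stable x hx.1, h₂.stable x hx.2⟩, ⟨max n₁ n₂, le_inf ?_ ?_⟩⟩
  · exact (range_pow_le_of_le θ (le_max_left _ _)).trans hn₁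
  · exact (range_pow_le_of_le θ (le_max_right _ _)).trans hn₂

theorem IsTrSpace.trOn_eq_of_le {θ : End K V} {W' W : Submodule K V} (h' : IsTrSpace θ W')
    (h : IsTrSpace θ W) (hle : W' ≤ W) : trOn θ W' h'.stable = trOn θ W h.stable := by
  obtain ⟨n, hn⟩ := h'.range
  haveI := h.finite
  exact trOn_eq_of_pow_map_le θ n hle (fun x _ => hn ⟨x, rfl⟩) h'.stable h.stable

/-- **Key lemma**: the trace does not depend on the subspace. -/
theorem IsTrSpace.trOn_eq {θ : End K V} {W₁ W₂ : Submodule K V} (h₁ : IsTrSpace θ W₁)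
    (h₂ : IsTrSpace θ W₂) : trOn θ W₁ h₁.stable = trOn θ W₂ h₂.stable := by
  rw [← (h₁.inf h₂).trOn_eq_of_le h₁ inf_le_left, ← (h₁.inf h₂).trOn_eq_of_le h₂ inf_le_right]

/-- `θ` is finite-potent. -/
def FinPot (θ : End K V) : Prop := ∃ W : Submodule K V, IsTrSpace θ W

theorem finPot_iff (θ : End K V) :
    FinPot θ ↔ ∃ n : ℕ, Module.Finite K (LinearMap.range (θ ^ n)) := by
  constructor
  · rintro ⟨W, hW⟩
    obtain ⟨n, hn⟩ := hW.range
    haveI := hW.finite
    exact ⟨n, Submodule.finiteDimensional_of_le hn⟩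
  · rintro ⟨n, hn⟩
    refine ⟨LinearMap.range (θ ^ n), hn, ?_, n, le_rfl⟩
    rintro _ ⟨x, rfl⟩
    refine ⟨θ x, ?_⟩
    rw [← Module.End.mul_apply, ← Module.End.mul_apply, ← pow_succ, ← pow_succ']

open Classical in
/-- **Tate's trace** of a finite-potent endomorphism (zero otherwise). -/
def tr (θ : End K V) : K :=
  if h : FinPot θ then trOn θ h.choose h.choose_spec.stable else 0

theorem IsTrSpace.tr_eq {θ : End K V} {W : Submodule K V} (h : IsTrSpace θ W) :
    tr θ = trOn θ W h.stable := by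
  have hfp : FinPot θ := ⟨W, h⟩
  unfold tr
  rw [dif_pos hfp]
  exact hfp.choose_spec.trOn_eq h

/-- (T3) nilpotent endomorphisms have trace zero. -/
theorem tr_eq_zero_of_pow_eq_zero {θ : End K V} {n : ℕ} (h : θ ^ n = 0) : tr θ = 0 := by
  have hW : IsTrSpace θ (⊥ : Submodule K V) := by
    refine ⟨inferInstance, fun x hx => ?_, n, ?_⟩
    · rw [Submodule.mem_bot] at hx ⊢
      rw [hx, map_zero]
    · rw [h]
      rintro _ ⟨x, rfl⟩
      simp
  rw [hW.tr_eq]
  unfold trOn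
  have : (θ.restrict hW.stable) = 0 := Subsingleton.elim _ _
  rw [this, map_zero]

theorem tr_zero : tr (0 : End K V) = 0 :=
  tr_eq_zero_of_pow_eq_zero (n := 1) (by simp)

/-- Additivity of the trace for endomorphisms with a common trace space. -/
theorem tr_add_of_isTrSpace {θ θ' : End K V} {W : Submodule K V} (h : IsTrSpace θ W)
    (h' : IsTrSpace θ' W) (h'' : IsTrSpace (θ + θ') W) : tr (θ + θ') = tr θ + tr θ' := by
  rw [h.tr_eq, h'.tr_eq, h''.tr_eq]
  unfold trOn
  rw [← map_add]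
  congr 1

theorem tr_sub_of_isTrSpace {θ θ' : End K V} {W : Submodule K V} (h : IsTrSpace θ W)
    (h' : IsTrSpace θ' W) (h'' : IsTrSpace (θ - θ') W) : tr (θ - θ') = tr θ - tr θ' := by
  rw [h.tr_eq, h'.tr_eq, h''.tr_eq]
  unfold trOn
  rw [← map_sub]
  congr 1

theorem IsTrSpace.smul {θ : End K V} {W : Submodule K V} (h : IsTrSpace θ W) (c : K) :
    IsTrSpace (c • θ) W := by
  refine ⟨h.finite, fun x hx => W.smul_mem c (h.stable x hx), ?_⟩
  obtain ⟨n, hn⟩ := h.range
  refine ⟨n, ?_⟩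
  rw [smul_pow]
  rintro _ ⟨x, rfl⟩
  rw [LinearMap.smul_apply]
  exact W.smul_mem _ (hn ⟨x, rfl⟩)

theorem FinPot.smul {θ : End K V} (h : FinPot θ) (c : K) : FinPot (c • θ) := by
  obtain ⟨W, hW⟩ := h
  exact ⟨W, hW.smul c⟩

theorem tr_smul (c : K) (θ : End K V) : tr (c • θ) = c * tr θ := by
  by_cases h : FinPot θ
  · obtain ⟨W, hW⟩ := h
    rw [hW.tr_eq, (hW.smul c).tr_eq]
    unfold trOn
    rw [← smul_eq_mul, ← map_smul]
    congr 1
  · rcases eq_or_ne c 0 with rfl | hc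
    · rw [zero_smul, tr_zero, zero_mul]
    · have h' : ¬ FinPot (c • θ) := by
        intro hcon
        apply h
        have := hcon.smul c⁻¹
        rwa [smul_smul, inv_mul_cancel₀ hc, one_smul] at this
      unfold tr
      rw [dif_neg h, dif_neg h', mul_zero]

theorem tr_neg (θ : End K V) : tr (-θ) = -tr θ := by
  have := tr_smul (-1 : K) θ
  rwa [neg_one_smul, neg_one_mul] at this

/-- (T5) `tr (φ ψ) = tr (ψ φ)`. -/
theorem tr_mul_comm {φ ψ : End K V} (h : FinPot (φ * ψ)) :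
    FinPot (ψ * φ) ∧ tr (φ * ψ) = tr (ψ * φ) := by
  obtain ⟨W, hW⟩ := h
  haveI := hW.finite
  obtain ⟨n, hn⟩ := hW.range
  have hφW : ∀ y ∈ W.map ψ, φ y ∈ W := by
    rintro _ ⟨x, hx, rfl⟩
    exact hW.stable x hx
  have hψW : ∀ x ∈ W, ψ x ∈ W.map ψ := fun x hx => ⟨x, hx, rfl⟩
  have hpow : ∀ k : ℕ, (ψ * φ) ^ (k + 1) = ψ * (φ * ψ) ^ k * φ := by
    intro k
    induction k with
    | zero => simp
    | succ k ih =>
      rw [pow_succ, ih, pow_succ]
      simp only [mul_assoc]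
  have hW' : IsTrSpace (ψ * φ) (W.map ψ) := by
    refine ⟨inferInstance, ?_, n + 1, ?_⟩
    · intro y hy
      exact hψW _ (hφW y hy)
    · rw [hpow n]
      rintro _ ⟨x, rfl⟩
      exact ⟨((φ * ψ) ^ n) (φ x), hn ⟨φ x, rfl⟩, rfl⟩
  refine ⟨⟨_, hW'⟩, ?_⟩
  rw [hW.tr_eq, hW'.tr_eq]
  unfold trOn
  have := LinearMap.trace_comp_comm' (ψ.restrict hψW) (φ.restrict hφW)
  convert this using 2 <;> rfl

end FA_RR.Tate
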