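import Mathlib

/-!
# Tate's trace for finite-potent endomorphisms (item 77, WP-T, part 1)

Pure linear algebra over a field `K`.
-/

set_option autoImplicit false

noncomputable section

open Module

variable {K : Type*} [Field K] {V : Type*} [AddCommGroup V] [Module K V]

/-! ## `A ≺ B` -/

/-- `A ≺ B`: `A` is contained in `B` up to a finite-dimensional subspace. -/
def FA_RR_NearLE (A B : Submodule K V) : Prop :=
  ∃ F : Submodule K V, Module.Finite K F ∧ A ≤ B ⊔ F

theorem FA_RR_NearLE.of_le {A B : Submodule K V} (h : A ≤ B) : FA_RR_NearLE A B :=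
  ⟨⊥, inferInstance, by simpa using h⟩

theorem FA_RR_NearLE.refl (A : Submodule K V) : FA_RR_NearLE A A :=
  FA_RR_NearLE.of_le le_rfl

theorem FA_RR_NearLE.of_finite {A : Submodule K V} (B : Submodule K V) (h : Module.Finite K A) :
    FA_RR_NearLE A B :=
  ⟨A, h, le_sup_right⟩

theorem FA_RR_NearLE.trans {A B C : Submodule K V} (h₁ : FA_RR_NearLE A B)
    (h₂ : FA_RR_NearLE B C) : FA_RR_NearLE A C := by
  obtain ⟨F, hF, hA⟩ := h₁
  obtain ⟨G, hG, hB⟩ := h₂
  refine ⟨G ⊔ F, inferInstance, hA.trans ?_⟩
  rw [← sup_assoc]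
  exact sup_le_sup_right hB F

theorem FA_RR_NearLE.mono_left {A A' B : Submodule K V} (h : A' ≤ A) (h₁ : FA_RR_NearLE A B) :
    FA_RR_NearLE A' B :=
  (FA_RR_NearLE.of_le h).trans h₁

theorem FA_RR_NearLE.mono_right {A B B' : Submodule K V} (h : B ≤ B') (h₁ : FA_RR_NearLE A B) :
    FA_RR_NearLE A B' :=
  h₁.trans (FA_RR_NearLE.of_le h)

theorem FA_RR_NearLE.sup {A B C : Submodule K V} (h₁ : FA_RR_NearLE A C)
    (h₂ : FA_RR_NearLE B C) : FA_RR_NearLE (A ⊔ B) C := by
  obtain ⟨F, hF, hA⟩ := h₁
  obtain ⟨G, hG, hB⟩ := h₂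
  refine ⟨F ⊔ G, inferInstance, sup_le (hA.trans ?_) (hB.trans ?_)⟩
  · exact sup_le_sup_left le_sup_left C
  · exact sup_le_sup_left le_sup_right C

theorem FA_RR_NearLE.sup_sup {A B C D : Submodule K V} (h₁ : FA_RR_NearLE A C)
    (h₂ : FA_RR_NearLE B D) : FA_RR_NearLE (A ⊔ B) (C ⊔ D) :=
  (h₁.mono_right le_sup_left).sup (h₂.mono_right le_sup_right)

theorem FA_RR_NearLE.map {A B : Submodule K V} (θ : V →ₗ[K] V) (h : FA_RR_NearLE A B) :
    FA_RR_NearLE (A.map θ) (B.map θ) := by
  obtain ⟨F, hF, hA⟩ := h
  refine ⟨F.map θ, inferInstance, ?_⟩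
  rw [← Submodule.map_sup]
  exact Submodule.map_mono hA

theorem FA_RR_nearLE_bot_iff {A : Submodule K V} :
    FA_RR_NearLE A ⊥ ↔ Module.Finite K A := by
  constructor
  · rintro ⟨F, hF, hA⟩
    rw [bot_sup_eq] at hA
    exact Submodule.finiteDimensional_of_le hA
  · intro h
    exact FA_RR_NearLE.of_finite ⊥ h

/-- `A ≺ B` iff `A / (A ∩ B)` is finite-dimensional. -/
theorem FA_RR_nearLE_iff_quotient {A B : Submodule K V} :
    FA_RR_NearLE A B ↔ Module.Finite K (↥A ⧸ (B.comap A.subtype)) := by
  constructor
  · rintro ⟨F, hF, hA⟩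
    -- the composite `A → V → V ⧸ B` has image inside the image of `F`
    let q : V →ₗ[K] V ⧸ B := B.mkQ
    let f : ↥A →ₗ[K] V ⧸ B := q ∘ₗ A.subtype
    have hker : LinearMap.ker f = B.comap A.subtype := by
      ext x
      simp [f, q]
    have hrange : LinearMap.range f ≤ F.map q := by
      rintro _ ⟨x, rfl⟩
      have hx : (x : V) ∈ B ⊔ F := hA x.2
      obtain ⟨b, hb, c, hc, hbc⟩ := Submodule.mem_sup.mp hx
      refine ⟨c, hc, ?_⟩
      show q c = q (x : V)
      rw [← hbc, map_add]
      have : q b = 0 := by simpa [q] using hb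
      rw [this, zero_add]
    have hfin : Module.Finite K (LinearMap.range f) :=
      Submodule.finiteDimensional_of_le hrange
    rw [← hker]
    exact Module.Finite.equiv (f.quotKerEquivRange).symm
  · intro h
    -- lift a finite spanning set of the quotient
    obtain ⟨s, hs⟩ := (Module.finite_def.mp h)
    choose g hg using fun y : ↥A ⧸ (B.comap A.subtype) =>
      Submodule.Quotient.mk_surjective (B.comap A.subtype) y
    let F : Submodule K V := Submodule.span K ((fun y => ((g y : ↥A) : V)) '' (s : Set _))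
    refine ⟨F, ?_, ?_⟩
    · exact Module.Finite.span_of_finite K ((Finset.finite_toSet s).image _)
    · intro a ha
      have hmem : Submodule.Quotient.mk (p := B.comap A.subtype) (⟨a, ha⟩ : ↥A) ∈
          Submodule.span K (s : Set (↥A ⧸ (B.comap A.subtype))) := by
        rw [hs]; trivial
      -- induction on the span
      have key : ∀ y ∈ Submodule.span K (s : Set (↥A ⧸ (B.comap A.subtype))),
          ∀ x : ↥A, Submodule.Quotient.mk (p := B.comap A.subtype) x = y → (x : V) ∈ B ⊔ F := by
        intro y hy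
        induction hy using Submodule.span_induction with
        | mem y hy =>
          intro x hx
          have h1 : Submodule.Quotient.mk (p := B.comap A.subtype) (x - g y) = 0 := by
            rw [Submodule.Quotient.mk_sub, hx, hg y, sub_self]
          rw [Submodule.Quotient.mk_eq_zero] at h1
          have h2 : ((x : V) - (g y : V)) ∈ B := by simpa using h1
          have h3 : ((g y : ↥A) : V) ∈ F := Submodule.subset_span ⟨y, hy, rfl⟩
          have : (x : V) = ((x : V) - (g y : V)) + (g y : V) := by abel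
          rw [this]
          exact Submodule.add_mem_sup h2 h3
        | zero =>
          intro x hx
          rw [Submodule.Quotient.mk_eq_zero] at hx
          have : (x : V) ∈ B := by simpa using hx
          exact Submodule.mem_sup_left this
        | add y z _ _ ihy ihz =>
          intro x hx
          obtain ⟨y', rfl⟩ := Submodule.Quotient.mk_surjective _ y
          obtain ⟨z', rfl⟩ := Submodule.Quotient.mk_surjective _ z
          have h1 := ihy y' rfl
          have h2 := ihz z' rfl
          have h3 : Submodule.Quotient.mk (p := B.comap A.subtype) (x - (y' + z')) = 0 := by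
            rw [Submodule.Quotient.mk_sub, hx, Submodule.Quotient.mk_add, sub_self]
          rw [Submodule.Quotient.mk_eq_zero] at h3
          have h4 : ((x : V) - ((y' : V) + (z' : V))) ∈ B := by simpa using h3
          have : (x : V) = ((x : V) - ((y' : V) + (z' : V))) + ((y' : V) + (z' : V)) := by abel
          rw [this]
          exact Submodule.add_mem _ (Submodule.mem_sup_left h4) (Submodule.add_mem _ h1 h2)
        | smul c y _ ihy =>
          intro x hx
          obtain ⟨y', rfl⟩ := Submodule.Quotient.mk_surjective _ y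
          have h1 := ihy y' rfl
          have h3 : Submodule.Quotient.mk (p := B.comap A.subtype) (x - c • y') = 0 := by
            rw [Submodule.Quotient.mk_sub, hx, Submodule.Quotient.mk_smul, sub_self]
          rw [Submodule.Quotient.mk_eq_zero] at h3
          have h4 : ((x : V) - c • (y' : V)) ∈ B := by simpa using h3
          have : (x : V) = ((x : V) - c • (y' : V)) + c • (y' : V) := by abel
          rw [this]
          exact Submodule.add_mem _ (Submodule.mem_sup_left h4) (Submodule.smul_mem _ c h1)
      exact key _ hmem ⟨a, ha⟩ rfl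

/-- If `X ≺ W` and `X ≺ W'` then `X ≺ W ⊓ W'`. -/
theorem FA_RR_NearLE.inf {X W W' : Submodule K V} (h₁ : FA_RR_NearLE X W)
    (h₂ : FA_RR_NearLE X W') : FA_RR_NearLE X (W ⊓ W') := by
  rw [FA_RR_nearLE_iff_quotient] at h₁ h₂ ⊢
  -- `X / (X ∩ W ∩ W')` embeds into `X/(X ∩ W) × X/(X ∩ W')`
  let f : ↥X →ₗ[K] (↥X ⧸ (W.comap X.subtype)) × (↥X ⧸ (W'.comap X.subtype)) :=
    LinearMap.prod (W.comap X.subtype).mkQ (W'.comap X.subtype).mkQ
  have hker : LinearMap.ker f = (W ⊓ W').comap X.subtype := by
    ext x
    simp [f, LinearMap.prod_apply, Prod.ext_iff]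
  have hfin : Module.Finite K (LinearMap.range f) := inferInstance
  rw [← hker]
  exact Module.Finite.equiv (f.quotKerEquivRange).symm

end
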