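import Mathlib
import Fermat.Agent.Lib.RR.TateTrace
import Fermat.Agent.Lib.RR.TateTr

/-!
# Tate's residue, part 1: the algebras `E`, `E₁`, `E₂` (item 77, WP-T, part 3)

For a subspace `A` of `V`: `E = {θ | θ A ≺ A}`, `E₁ = {θ | θ V ≺ A}`, `E₂ = {θ | θ A ≺ 0}`,
`E₀ = E₁ ∩ E₂`. The trace is additive on `E₀`, and `tr [a, b] = 0` for `a ∈ E₁`, `b ∈ E₂`.
-/

set_option autoImplicit false
set_option linter.style.haveILetI false

noncomputable section

namespace FA_RR.Tate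

open Module

variable {K : Type*} [Field K] {V : Type*} [AddCommGroup V] [Module K V]

theorem map_mul_eq (A : Submodule K V) (θ φ : End K V) :
    A.map (θ * φ) = (A.map φ).map θ :=
  Submodule.map_comp φ θ A

theorem map_add_le (A : Submodule K V) (θ φ : End K V) :
    A.map (θ + φ) ≤ A.map θ ⊔ A.map φ := by
  rintro _ ⟨x, hx, rfl⟩
  rw [LinearMap.add_apply]
  exact Submodule.add_mem_sup ⟨x, hx, rfl⟩ ⟨x, hx, rfl⟩

theorem map_smul_le (A : Submodule K V) (c : K) (θ : End K V) :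
    A.map (c • θ) ≤ A.map θ := by
  rintro _ ⟨x, hx, rfl⟩
  rw [LinearMap.smul_apply]
  exact Submodule.smul_mem _ c ⟨x, hx, rfl⟩

theorem range_eq_map_top (θ : End K V) : LinearMap.range θ = (⊤ : Submodule K V).map θ :=
  (Submodule.map_top θ).symm

/-- `θ ∈ E(A)`. -/
def InE (A : Submodule K V) (θ : End K V) : Prop := FA_RR_NearLE (A.map θ) A

/-- `θ ∈ E₁(A)`. -/
def InE1 (A : Submodule K V) (θ : End K V) : Prop := FA_RR_NearLE ((⊤ : Submodule K V).map θ) A

/-- `θ ∈ E₂(A)`. -/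
def InE2 (A : Submodule K V) (θ : End K V) : Prop := FA_RR_NearLE (A.map θ) ⊥

/-- `θ ∈ E₀(A)`. -/
def InE0 (A : Submodule K V) (θ : End K V) : Prop := InE1 A θ ∧ InE2 A θ

variable {A : Submodule K V} {θ φ : End K V}

theorem InE1.inE (h : InE1 A θ) : InE A θ :=
  FA_RR_NearLE.mono_left (Submodule.map_mono le_top) h

theorem InE2.inE (h : InE2 A θ) : InE A θ :=
  FA_RR_NearLE.mono_right bot_le h

theorem InE0.inE (h : InE0 A θ) : InE A θ := h.1.inE

theorem inE_of_map_le (h : A.map θ ≤ A) : InE A θ := FA_RR_NearLE.of_le h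

theorem inE1_of_forall_mem (h : ∀ x, θ x ∈ A) : InE1 A θ :=
  FA_RR_NearLE.of_le (by rintro _ ⟨x, -, rfl⟩; exact h x)

theorem inE2_of_forall_eq_zero (h : ∀ x ∈ A, θ x = 0) : InE2 A θ :=
  FA_RR_NearLE.of_le (by
    rintro _ ⟨x, hx, rfl⟩
    rw [h x hx]
    exact Submodule.zero_mem _)

theorem InE2.finite (h : InE2 A θ) : Module.Finite K (A.map θ) :=
  FA_RR_nearLE_bot_iff.mp h

/-! ### `E` -/

theorem inE_zero : InE A (0 : End K V) := inE_of_map_le (by simp)

theorem inE_one : InE A (1 : End K V) := inE_of_map_le (by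
  rintro _ ⟨x, hx, rfl⟩
  exact hx)

theorem InE.add (h : InE A θ) (h' : InE A φ) : InE A (θ + φ) :=
  FA_RR_NearLE.mono_left (map_add_le A θ φ) (h.sup h')

theorem InE.smul (h : InE A θ) (c : K) : InE A (c • θ) :=
  FA_RR_NearLE.mono_left (map_smul_le A c θ) h

theorem InE.neg (h : InE A θ) : InE A (-θ) := by
  have := h.smul (-1)
  rwa [neg_one_smul] at this

theorem InE.sub (h : InE A θ) (h' : InE A φ) : InE A (θ - φ) := by
  rw [sub_eq_add_neg]
  exact h.add h'.neg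

theorem InE.mul (h : InE A θ) (h' : InE A φ) : InE A (θ * φ) := by
  unfold InE
  rw [map_mul_eq]
  exact (FA_RR_NearLE.map θ h').trans h

/-! ### `E₁` -/

theorem inE1_zero : InE1 A (0 : End K V) := inE1_of_forall_mem (fun _ => Submodule.zero_mem _)

theorem InE1.add (h : InE1 A θ) (h' : InE1 A φ) : InE1 A (θ + φ) :=
  FA_RR_NearLE.mono_left (map_add_le ⊤ θ φ) (h.sup h')

theorem InE1.smul (h : InE1 A θ) (c : K) : InE1 A (c • θ) :=
  FA_RR_NearLE.mono_left (map_smul_le ⊤ c θ) h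

theorem InE1.neg (h : InE1 A θ) : InE1 A (-θ) := by
  have := h.smul (-1)
  rwa [neg_one_smul] at this

theorem InE1.sub (h : InE1 A θ) (h' : InE1 A φ) : InE1 A (θ - φ) := by
  rw [sub_eq_add_neg]
  exact h.add h'.neg

theorem InE1.mul_right (h : InE1 A θ) (φ : End K V) : InE1 A (θ * φ) := by
  unfold InE1
  rw [map_mul_eq]
  exact FA_RR_NearLE.mono_left (Submodule.map_mono le_top) h

theorem InE1.mul_left (h : InE1 A θ) (h' : InE A φ) : InE1 A (φ * θ) := by
  unfold InE1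
  rw [map_mul_eq]
  exact (FA_RR_NearLE.map φ h).trans h'

/-! ### `E₂` -/

theorem inE2_zero : InE2 A (0 : End K V) := inE2_of_forall_eq_zero (fun _ _ => rfl)

theorem InE2.add (h : InE2 A θ) (h' : InE2 A φ) : InE2 A (θ + φ) :=
  FA_RR_NearLE.mono_left (map_add_le A θ φ) (h.sup h')

theorem InE2.smul (h : InE2 A θ) (c : K) : InE2 A (c • θ) :=
  FA_RR_NearLE.mono_left (map_smul_le A c θ) h

theorem InE2.neg (h : InE2 A θ) : InE2 A (-θ) := by
  have := h.smul (-1)
  rwa [neg_one_smul] at this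

theorem InE2.sub (h : InE2 A θ) (h' : InE2 A φ) : InE2 A (θ - φ) := by
  rw [sub_eq_add_neg]
  exact h.add h'.neg

theorem InE2.mul_left (h : InE2 A θ) (φ : End K V) : InE2 A (φ * θ) := by
  unfold InE2
  rw [map_mul_eq]
  have := FA_RR_NearLE.map φ h
  rwa [Submodule.map_bot] at this

theorem InE2.mul_right (h : InE2 A θ) (h' : InE A φ) : InE2 A (θ * φ) := by
  unfold InE2
  rw [map_mul_eq]
  exact (FA_RR_NearLE.map θ h').trans h

/-! ### `E₀` -/

theorem inE0_zero : InE0 A (0 : End K V) := ⟨inE1_zero, inE2_zero⟩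

theorem InE0.add (h : InE0 A θ) (h' : InE0 A φ) : InE0 A (θ + φ) :=
  ⟨h.1.add h'.1, h.2.add h'.2⟩

theorem InE0.sub (h : InE0 A θ) (h' : InE0 A φ) : InE0 A (θ - φ) :=
  ⟨h.1.sub h'.1, h.2.sub h'.2⟩

theorem InE0.neg (h : InE0 A θ) : InE0 A (-θ) := ⟨h.1.neg, h.2.neg⟩

theorem InE0.smul (h : InE0 A θ) (c : K) : InE0 A (c • θ) := ⟨h.1.smul c, h.2.smul c⟩

theorem InE0.mul_left (h : InE0 A θ) (h' : InE A φ) : InE0 A (φ * θ) :=
  ⟨h.1.mul_left h', h.2.mul_left φ⟩

theorem InE0.mul_right (h : InE0 A θ) (h' : InE A φ) : InE0 A (θ * φ) :=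
  ⟨h.1.mul_right φ, h.2.mul_right h'⟩

/-- `E₂ · E₁` consists of operators of finite rank. -/
theorem finite_map_of_E2_of_nearLE (h : InE2 A θ) {R : Submodule K V} (hR : FA_RR_NearLE R A) :
    Module.Finite K (R.map θ) :=
  FA_RR_nearLE_bot_iff.mp ((FA_RR_NearLE.map θ hR).trans h)

theorem finite_range_mul (h : InE2 A θ) (h' : InE1 A φ) :
    Module.Finite K (LinearMap.range (θ * φ)) := by
  rw [range_eq_map_top, map_mul_eq]
  exact finite_map_of_E2_of_nearLE h h'

/-- The common trace space of two elements of `E₀`. -/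
def commonSpace (θ φ : End K V) : Submodule K V :=
  (LinearMap.range θ ⊔ LinearMap.range φ).map θ ⊔ (LinearMap.range θ ⊔ LinearMap.range φ).map φ

theorem isTrSpace_common (h : InE0 A θ) (h' : InE0 A φ) (a b : K) :
    IsTrSpace (a • θ + b • φ) (commonSpace θ φ) := by
  set R := LinearMap.range θ ⊔ LinearMap.range φ with hR
  have hRA : FA_RR_NearLE R A := by
    rw [hR, range_eq_map_top, range_eq_map_top]
    exact h.1.sup h'.1
  have hWR : commonSpace θ φ ≤ R := by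
    refine sup_le ?_ ?_
    · rintro _ ⟨x, -, rfl⟩
      exact Submodule.mem_sup_left ⟨x, rfl⟩
    · rintro _ ⟨x, -, rfl⟩
      exact Submodule.mem_sup_right ⟨x, rfl⟩
  have hkey : ∀ x ∈ R, (a • θ + b • φ) x ∈ commonSpace θ φ := by
    intro x hx
    rw [LinearMap.add_apply, LinearMap.smul_apply, LinearMap.smul_apply]
    exact Submodule.add_mem _
      (Submodule.smul_mem _ a (Submodule.mem_sup_left ⟨x, hx, rfl⟩))
      (Submodule.smul_mem _ b (Submodule.mem_sup_right ⟨x, hx, rfl⟩))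
  have hR' : ∀ x, (a • θ + b • φ) x ∈ R := by
    intro x
    rw [LinearMap.add_apply, LinearMap.smul_apply, LinearMap.smul_apply]
    exact Submodule.add_mem _
      (Submodule.smul_mem _ a (Submodule.mem_sup_left ⟨x, rfl⟩))
      (Submodule.smul_mem _ b (Submodule.mem_sup_right ⟨x, rfl⟩))
  refine ⟨?_, fun x hx => hkey x (hWR hx), 2, ?_⟩
  · haveI := finite_map_of_E2_of_nearLE h.2 hRA
    haveI := finite_map_of_E2_of_nearLE h'.2 hRA
    unfold commonSpace
    infer_instance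
  · rintro _ ⟨x, rfl⟩
    rw [pow_two, Module.End.mul_apply]
    exact hkey _ (hR' x)

theorem InE0.finPot (h : InE0 A θ) : FinPot θ := by
  have := isTrSpace_common h h 1 0
  rw [one_smul, zero_smul, add_zero] at this
  exact ⟨_, this⟩

/-- (T4) the trace is additive on `E₀`. -/
theorem tr_add (h : InE0 A θ) (h' : InE0 A φ) : tr (θ + φ) = tr θ + tr φ := by
  have h1 := isTrSpace_common h h' 1 0
  have h2 := isTrSpace_common h h' 0 1
  have h3 := isTrSpace_common h h' 1 1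
  rw [one_smul, zero_smul, add_zero] at h1
  rw [one_smul, zero_smul, zero_add] at h2
  rw [one_smul, one_smul] at h3
  exact tr_add_of_isTrSpace h1 h2 h3

theorem tr_sub (h : InE0 A θ) (h' : InE0 A φ) : tr (θ - φ) = tr θ - tr φ := by
  rw [sub_eq_add_neg, tr_add h h'.neg, tr_neg, sub_eq_add_neg]

/-- The commutator. -/
def cm (a b : End K V) : End K V := a * b - b * a

theorem cm_def (a b : End K V) : cm a b = a * b - b * a := rfl

theorem cm_swap (a b : End K V) : cm a b = -cm b a := by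
  unfold cm
  abel

/-- Lemma Z: `tr [d, h] = 0` for `d ∈ E₂`, `h ∈ E`, one of them in `E₁`. -/
theorem inE0_cm_of_E2 {d h : End K V} (hd : InE2 A d) (hh : InE A h)
    (h1 : InE1 A h ∨ InE1 A d) : InE0 A (d * h) ∧ InE0 A (h * d) := by
  rcases h1 with h1 | h1
  · exact ⟨⟨h1.mul_left hd.inE, hd.mul_right hh⟩, ⟨h1.mul_right d, hd.mul_left h⟩⟩
  · exact ⟨⟨h1.mul_right h, hd.mul_right hh⟩, ⟨h1.mul_left hh, hd.mul_left h⟩⟩

theorem tr_cm_of_E2 {d h : End K V} (hd : InE2 A d) (hh : InE A h)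
    (h1 : InE1 A h ∨ InE1 A d) : tr (cm d h) = 0 := by
  obtain ⟨h2, h3⟩ := inE0_cm_of_E2 hd hh h1
  rw [cm_def, tr_sub h2 h3, (tr_mul_comm h2.finPot).2, sub_self]

theorem tr_cm_of_E2' {d h : End K V} (hd : InE2 A d) (hh : InE A h)
    (h1 : InE1 A h ∨ InE1 A d) : tr (cm h d) = 0 := by
  rw [cm_swap, tr_neg, tr_cm_of_E2 hd hh h1, neg_zero]

theorem inE0_cm_of_E2_left {d h : End K V} (hd : InE2 A d) (hh : InE A h)
    (h1 : InE1 A h ∨ InE1 A d) : InE0 A (cm d h) :=
  (inE0_cm_of_E2 hd hh h1).1.sub (inE0_cm_of_E2 hd hh h1).2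

theorem inE0_cm_of_E2_right {d h : End K V} (hd : InE2 A d) (hh : InE A h)
    (h1 : InE1 A h ∨ InE1 A d) : InE0 A (cm h d) :=
  (inE0_cm_of_E2 hd hh h1).2.sub (inE0_cm_of_E2 hd hh h1).1

end FA_RR.Tate
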