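import Mathlib
import Fermat.Agent.Lib.RR.TateE

/-!
# Tate's residue, part 2: the abstract residue (item 77, WP-T, part 4)

For commuting `f, g ∈ E(A)`: `res A f g = tr [f₁, g₁]` for any `f₁ ≡ f`, `g₁ ≡ g` mod `E₂`
with `f₁ ∈ E₁` or `g₁ ∈ E₁`.
-/

set_option autoImplicit false
set_option linter.style.haveILetI false

noncomputable section

namespace FA_RR.Tate

open Module

variable {K : Type*} [Field K] {V : Type*} [AddCommGroup V] [Module K V]

/-- `(f₁, g₁)` is a valid pair of representatives of `(f, g)`. -/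
structure Valid (A : Submodule K V) (f g f₁ g₁ : End K V) : Prop where
  inE_left : InE A f₁
  inE_right : InE A g₁
  left : InE2 A (f₁ - f)
  right : InE2 A (g₁ - g)
  inE1 : InE1 A f₁ ∨ InE1 A g₁

variable {A : Submodule K V} {f g h f₁ g₁ f₁' g₁' : End K V}

theorem Valid.inE0 (hv : Valid A f g f₁ g₁) (hfg : Commute f g) :
    InE0 A (cm f₁ g₁) := by
  constructor
  · rcases hv.inE1 with h1 | h1
    · exact (h1.mul_right g₁).sub (h1.mul_left hv.inE_right)
    · exact (h1.mul_left hv.inE_left).sub (h1.mul_right f₁)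
  · have hcm : cm f₁ g₁ = (f₁ - f) * g₁ + f * (g₁ - g) - (g₁ - g) * f₁ - g * (f₁ - f) := by
      unfold cm
      have := hfg.eq
      simp only [sub_mul, mul_sub]
      rw [this]
      abel
    rw [hcm]
    exact (((hv.left.mul_right hv.inE_right).add (hv.right.mul_left f)).sub
      (hv.right.mul_right hv.inE_left)).sub (hv.left.mul_left g)

/-- Changing the left representative. -/
theorem Valid.tr_eq_left (hv : Valid A f g f₁ g₁) (hv' : Valid A f g f₁' g₁)
    (hfg : Commute f g) (hd : InE1 A g₁ ∨ InE1 A (f₁' - f₁)) :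
    tr (cm f₁ g₁) = tr (cm f₁' g₁) := by
  have hd2 : InE2 A (f₁' - f₁) := by
    have := hv'.left.sub hv.left
    rwa [sub_sub_sub_cancel_right] at this
  have hsplit : cm f₁' g₁ = cm f₁ g₁ + cm (f₁' - f₁) g₁ := by
    unfold cm
    simp only [sub_mul, mul_sub]
    abel
  rw [hsplit, tr_add (hv.inE0 hfg) (inE0_cm_of_E2_left hd2 hv.inE_right hd),
    tr_cm_of_E2 hd2 hv.inE_right hd, add_zero]

/-- Changing the right representative. -/
theorem Valid.tr_eq_right (hv : Valid A f g f₁ g₁) (hv' : Valid A f g f₁ g₁')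
    (hfg : Commute f g) (hd : InE1 A f₁ ∨ InE1 A (g₁' - g₁)) :
    tr (cm f₁ g₁) = tr (cm f₁ g₁') := by
  have hd2 : InE2 A (g₁' - g₁) := by
    have := hv'.right.sub hv.right
    rwa [sub_sub_sub_cancel_right] at this
  have hsplit : cm f₁ g₁' = cm f₁ g₁ + cm f₁ (g₁' - g₁) := by
    unfold cm
    simp only [sub_mul, mul_sub]
    abel
  rw [hsplit, tr_add (hv.inE0 hfg) (inE0_cm_of_E2_right hd2 hv.inE_left hd),
    tr_cm_of_E2' hd2 hv.inE_left hd, add_zero]

/-- **Independence of the representatives.** -/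
theorem Valid.tr_eq (hv : Valid A f g f₁ g₁) (hv' : Valid A f g f₁' g₁')
    (hfg : Commute f g) : tr (cm f₁ g₁) = tr (cm f₁' g₁') := by
  rcases hv.inE1 with h1 | h1
  · -- `f₁ ∈ E₁`: `(f₁, g₁) → (f₁, g₁') → (f₁', g₁')`
    have hmid : Valid A f g f₁ g₁' :=
      ⟨hv.inE_left, hv'.inE_right, hv.left, hv'.right, Or.inl h1⟩
    rw [hv.tr_eq_right hmid hfg (Or.inl h1)]
    rcases hv'.inE1 with h2 | h2
    · exact hmid.tr_eq_left hv' hfg (Or.inr (h2.sub h1))
    · exact hmid.tr_eq_left hv' hfg (Or.inl h2)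
  · -- `g₁ ∈ E₁`: `(f₁, g₁) → (f₁', g₁) → (f₁', g₁')`
    have hmid : Valid A f g f₁' g₁ :=
      ⟨hv'.inE_left, hv.inE_right, hv'.left, hv.right, Or.inr h1⟩
    rw [hv.tr_eq_left hmid hfg (Or.inl h1)]
    rcases hv'.inE1 with h2 | h2
    · exact hmid.tr_eq_right hv' hfg (Or.inl h2)
    · exact hmid.tr_eq_right hv' hfg (Or.inr (h2.sub h1))

/-! ### Projections -/

theorem exists_isProj (A : Submodule K V) : ∃ p : End K V, LinearMap.IsProj A p := by
  obtain ⟨C, hC⟩ := Submodule.exists_isCompl A
  exact ⟨A.projection C hC, ⟨fun x => Submodule.projection_apply_mem hC x,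
    fun x hx => Submodule.projection_apply_of_mem_left hC hx⟩⟩

/-- A chosen projection onto `A`. -/
def proj (A : Submodule K V) : End K V := (exists_isProj A).choose

theorem isProj_proj (A : Submodule K V) : LinearMap.IsProj A (proj A) :=
  (exists_isProj A).choose_spec

theorem inE1_proj_mul {p : End K V} (hp : LinearMap.IsProj A p) (θ : End K V) :
    InE1 A (p * θ) :=
  inE1_of_forall_mem (fun x => hp.map_mem _)

theorem inE2_proj_mul_sub {p : End K V} (hp : LinearMap.IsProj A p) {θ : End K V}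
    (hθ : InE A θ) : InE2 A (p * θ - θ) := by
  have h1 : InE2 A (p - 1) := inE2_of_forall_eq_zero (fun x hx => by
    rw [LinearMap.sub_apply, hp.map_id x hx]
    simp)
  have := h1.mul_right hθ
  rwa [sub_mul, one_mul] at this

theorem valid_proj {p : End K V} (hp : LinearMap.IsProj A p) (hf : InE A f) (hg : InE A g) :
    Valid A f g (p * f) g :=
  ⟨(inE1_proj_mul hp f).inE, hg, inE2_proj_mul_sub hp hf, by rw [sub_self]; exact inE2_zero,
    Or.inl (inE1_proj_mul hp f)⟩

/-- **Tate's abstract residue** of the pair `(f, g)` with respect to `A`. -/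
def res (A : Submodule K V) (f g : End K V) : K := tr (cm (proj A * f) g)

/-- The residue is computed by any valid pair. -/
theorem Valid.res_eq (hv : Valid A f g f₁ g₁) (hfg : Commute f g) (hf : InE A f)
    (hg : InE A g) : res A f g = tr (cm f₁ g₁) :=
  (valid_proj (isProj_proj A) hf hg).tr_eq hv hfg

theorem res_eq_of_isProj {p : End K V} (hp : LinearMap.IsProj A p) (hfg : Commute f g)
    (hf : InE A f) (hg : InE A g) : res A f g = tr (cm (p * f) g) :=
  (valid_proj hp hf hg).res_eq hfg hf hg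

/-! ### Bilinearity -/

theorem res_add_left (hf : InE A f) (hh : InE A h) (hg : InE A g) (hfg : Commute f g)
    (hhg : Commute h g) : res A (f + h) g = res A f g + res A h g := by
  have hp := isProj_proj A
  unfold res
  have : cm (proj A * (f + h)) g = cm (proj A * f) g + cm (proj A * h) g := by
    unfold cm
    simp only [mul_add, add_mul]
    abel
  rw [this, tr_add ((valid_proj hp hf hg).inE0 hfg) ((valid_proj hp hh hg).inE0 hhg)]

theorem res_add_right (hf : InE A f) (hg : InE A g) (hh : InE A h) (hfg : Commute f g)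
    (hfh : Commute f h) : res A f (g + h) = res A f g + res A f h := by
  have hp := isProj_proj A
  unfold res
  have : cm (proj A * f) (g + h) = cm (proj A * f) g + cm (proj A * f) h := by
    unfold cm
    simp only [mul_add, add_mul]
    abel
  rw [this, tr_add ((valid_proj hp hf hg).inE0 hfg) ((valid_proj hp hf hh).inE0 hfh)]

theorem res_smul_left (c : K) (f g : End K V) : res A (c • f) g = c * res A f g := by
  unfold res
  have : cm (proj A * (c • f)) g = c • cm (proj A * f) g := by
    unfold cm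
    simp only [mul_smul_comm, smul_mul_assoc, smul_sub]
  rw [this, tr_smul]

theorem res_smul_right (c : K) (f g : End K V) : res A f (c • g) = c * res A f g := by
  unfold res
  have : cm (proj A * f) (c • g) = c • cm (proj A * f) g := by
    unfold cm
    simp only [mul_smul_comm, smul_mul_assoc, smul_sub]
  rw [this, tr_smul]

theorem res_zero_left (g : End K V) : res A 0 g = 0 := by
  have := res_smul_left (A := A) 0 0 g
  rwa [zero_smul, zero_mul] at this

theorem res_zero_right (f : End K V) : res A f 0 = 0 := by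
  have := res_smul_right (A := A) 0 f 0
  rwa [zero_smul, zero_mul] at this

/-! ### Leibniz rule -/

/-- `res (f, g h) = res (f g, h) + res (f h, g)`. -/
theorem res_mul_right (hf : InE A f) (hg : InE A g) (hh : InE A h) (hfg : Commute f g)
    (hfh : Commute f h) (hgh : Commute g h) :
    res A f (g * h) = res A (f * g) h + res A (f * h) g := by
  have hp := isProj_proj A
  set p := proj A with hpdef
  have h1 : Valid A (f * g) h (p * f * g) h := by
    refine ⟨((inE1_proj_mul hp f).mul_right g).inE, hh, ?_, by rw [sub_self]; exact inE2_zero,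
      Or.inl ((inE1_proj_mul hp f).mul_right g)⟩
    have := (inE2_proj_mul_sub hp hf).mul_right hg
    rwa [sub_mul] at this
  have h2 : Valid A (f * h) g (h * (p * f)) g := by
    refine ⟨((inE1_proj_mul hp f).mul_left hh).inE, hg, ?_, by rw [sub_self]; exact inE2_zero,
      Or.inl ((inE1_proj_mul hp f).mul_left hh)⟩
    have := (inE2_proj_mul_sub hp hf).mul_left h
    rwa [mul_sub, ← hfh.eq] at this
  have c1 : Commute (f * g) h := (hfh.mul_left hgh)
  have c2 : Commute (f * h) g := (hfg.mul_left hgh.symm)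
  rw [h1.res_eq c1 (hf.mul hg) hh, h2.res_eq c2 (hf.mul hh) hg]
  unfold res
  have : cm (p * f) (g * h) = cm (p * f * g) h + cm (h * (p * f)) g := by
    unfold cm
    simp only [mul_assoc]
    abel
  rw [this, tr_add (h1.inE0 c1) (h2.inE0 c2)]

/-! ### Vanishing -/

/-- (R2) if `f A ≤ A` and `g A ≤ A` then `res (f, g) = 0`. -/
theorem res_eq_zero_of_map_le (hf : A.map f ≤ A) (hg : A.map g ≤ A) (hfg : Commute f g) :
    res A f g = 0 := by
  have hp := isProj_proj A
  set p := proj A with hpdef
  have hfA : ∀ x ∈ A, f x ∈ A := fun x hx => hf ⟨x, hx, rfl⟩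
  have hgA : ∀ x ∈ A, g x ∈ A := fun x hx => hg ⟨x, hx, rfl⟩
  have h1 : ∀ θ : End K V, (∀ x ∈ A, θ x ∈ A) → InE1 A (θ * p) ∧ InE2 A (θ * p - θ) := by
    intro θ hθ
    refine ⟨inE1_of_forall_mem (fun x => hθ _ (hp.map_mem x)),
      inE2_of_forall_eq_zero (fun x hx => ?_)⟩
    rw [LinearMap.sub_apply, Module.End.mul_apply, hp.map_id x hx, sub_self]
  have hv : Valid A f g (f * p) (g * p) :=
    ⟨(h1 f hfA).1.inE, (h1 g hgA).1.inE, (h1 f hfA).2, (h1 g hgA).2, Or.inl (h1 f hfA).1⟩
  rw [hv.res_eq hfg (inE_of_map_le hf) (inE_of_map_le hg)]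
  apply tr_eq_zero_of_pow_eq_zero (n := 2)
  have hmem : ∀ x, cm (f * p) (g * p) x ∈ A := by
    intro x
    simp only [cm, LinearMap.sub_apply, Module.End.mul_apply]
    exact Submodule.sub_mem _ (hfA _ (hp.map_mem _)) (hgA _ (hp.map_mem _))
  have hkill : ∀ x ∈ A, cm (f * p) (g * p) x = 0 := by
    intro x hx
    simp only [cm, LinearMap.sub_apply, Module.End.mul_apply]
    rw [hp.map_id x hx, hp.map_id _ (hgA x hx), hp.map_id _ (hfA x hx)]
    have := congrArg (fun θ : End K V => θ x) hfg.eq
    simp only [Module.End.mul_apply] at this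
    rw [this, sub_self]
  ext x
  rw [pow_two, Module.End.mul_apply, hkill _ (hmem x)]
  rfl

/-- The classes `E`, `E₁`, `E₂` only depend on `A` up to finite-dimensional subspaces. -/
theorem inE_congr {A' : Submodule K V} (h1 : FA_RR_NearLE A A') (h2 : FA_RR_NearLE A' A)
    {θ : End K V} (hθ : InE A θ) : InE A' θ :=
  ((FA_RR_NearLE.map θ h2).trans hθ).trans h1

theorem inE1_congr {A' : Submodule K V} (h1 : FA_RR_NearLE A A')
    {θ : End K V} (hθ : InE1 A θ) : InE1 A' θ :=
  FA_RR_NearLE.trans hθ h1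

theorem inE2_congr {A' : Submodule K V} (h2 : FA_RR_NearLE A' A)
    {θ : End K V} (hθ : InE2 A θ) : InE2 A' θ :=
  (FA_RR_NearLE.map θ h2).trans hθ

theorem Valid.congr {A' : Submodule K V} (h1 : FA_RR_NearLE A A') (h2 : FA_RR_NearLE A' A)
    (hv : Valid A f g f₁ g₁) : Valid A' f g f₁ g₁ :=
  ⟨inE_congr h1 h2 hv.inE_left, inE_congr h1 h2 hv.inE_right, inE2_congr h2 hv.left,
    inE2_congr h2 hv.right, hv.inE1.imp (inE1_congr h1) (inE1_congr h1)⟩

/-- The residue only depends on `A` up to finite-dimensional subspaces. -/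
theorem res_congr {A' : Submodule K V} (h1 : FA_RR_NearLE A A') (h2 : FA_RR_NearLE A' A)
    (hfg : Commute f g) (hf : InE A f) (hg : InE A g) : res A f g = res A' f g := by
  have hv := (valid_proj (isProj_proj A) hf hg).congr h1 h2
  exact (hv.res_eq hfg (inE_congr h1 h2 hf) (inE_congr h1 h2 hg)).symm

/-- The residue vanishes if `V / A` is finite-dimensional. -/
theorem res_eq_zero_of_top_nearLE (hA : FA_RR_NearLE ⊤ A) (hfg : Commute f g) :
    res A f g = 0 := by
  have h1 : ∀ θ : End K V, InE1 A θ := fun θ =>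
    FA_RR_NearLE.mono_left le_top hA
  have hv : Valid A f g f g :=
    ⟨(h1 f).inE, (h1 g).inE, by rw [sub_self]; exact inE2_zero,
      by rw [sub_self]; exact inE2_zero, Or.inl (h1 f)⟩
  rw [hv.res_eq hfg (h1 f).inE (h1 g).inE]
  have : cm f g = 0 := by
    unfold cm
    rw [hfg.eq, sub_self]
  rw [this, tr_zero]

/-- The residue vanishes if `A` is finite-dimensional. -/
theorem res_eq_zero_of_nearLE_bot (hA : FA_RR_NearLE A ⊥) (hfg : Commute f g) :
    res A f g = 0 := by
  have h2 : ∀ θ : End K V, InE2 A θ := fun θ => by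
    have := FA_RR_NearLE.map θ hA
    rwa [Submodule.map_bot] at this
  have hv : Valid A f g 0 g :=
    ⟨inE_zero, (h2 g).inE, h2 _, by rw [sub_self]; exact inE2_zero, Or.inl inE1_zero⟩
  rw [hv.res_eq hfg (h2 f).inE (h2 g).inE]
  have : cm 0 g = 0 := by
    unfold cm
    simp
  rw [this, tr_zero]

end FA_RR.Tate
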