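import Mathlib
import Fermat.Agent.Lib.RR.TateRes

/-!
# Tate's residue, part 3: additivity and the local computation (item 77, WP-T, part 5)

* `res_sup` : `res (A ⊔ B) = res A + res B` if `A ⊓ B` is finite-dimensional;
* `res_unit` : `res (h g⁻¹, g) = c` if `g A ≤ A`, `A = g A ⊕ K e` and `h e ≡ c e` mod `g A`.
-/

set_option autoImplicit false
set_option linter.style.haveILetI false

noncomputable section

namespace FA_RR.Tate

open Module

variable {K : Type*} [Field K] {V : Type*} [AddCommGroup V] [Module K V]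

variable {A B : Submodule K V} {f g h : End K V}

theorem inE2_sup {θ : End K V} (hA : InE2 A θ) (hB : InE2 B θ) : InE2 (A ⊔ B) θ := by
  unfold InE2
  rw [Submodule.map_sup]
  exact hA.sup hB

theorem inE_sup {θ : End K V} (hA : InE A θ) (hB : InE B θ) : InE (A ⊔ B) θ := by
  unfold InE
  rw [Submodule.map_sup]
  exact hA.sup_sup hB

theorem inE_inf {θ : End K V} (hA : InE A θ) (hB : InE B θ) : InE (A ⊓ B) θ := by
  unfold InE
  exact FA_RR_NearLE.inf (FA_RR_NearLE.mono_left (Submodule.map_mono inf_le_left) hA)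
    (FA_RR_NearLE.mono_left (Submodule.map_mono inf_le_right) hB)

/-- A projection killing `B` composed with an element of `E(B)` lies in `E₂(B)`. -/
theorem inE2_of_kill {p θ : End K V} (hp : ∀ b ∈ B, p b = 0) (hθ : InE B θ) :
    InE2 B (p * θ) := by
  unfold InE2
  rw [map_mul_eq]
  have h1 : B.map p = ⊥ := by
    rw [eq_bot_iff]
    rintro _ ⟨b, hb, rfl⟩
    rw [hp b hb]
    exact Submodule.zero_mem _
  have := FA_RR_NearLE.map p hθ
  rwa [h1] at this

/-- Additivity of the residue for a pair of compatible projections. -/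
theorem res_sup_of_isProj {pA pB : End K V} (hpA : LinearMap.IsProj A pA)
    (hpB : LinearMap.IsProj B pB) (hAB : ∀ b ∈ B, pA b = 0) (hBA : ∀ a ∈ A, pB a = 0)
    (hfA : InE A f) (hgA : InE A g) (hfB : InE B f) (hgB : InE B g) (hfg : Commute f g) :
    res (A ⊔ B) f g = res A f g + res B f g := by
  have hp : LinearMap.IsProj (A ⊔ B) (pA + pB) := by
    refine ⟨fun x => ?_, fun x hx => ?_⟩
    · rw [LinearMap.add_apply]
      exact Submodule.add_mem_sup (hpA.map_mem x) (hpB.map_mem x)
    · obtain ⟨a, ha, b, hb, rfl⟩ := Submodule.mem_sup.mp hx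
      rw [LinearMap.add_apply, map_add, map_add, hpA.map_id a ha, hAB b hb, hBA a ha,
        hpB.map_id b hb]
      abel
  rw [res_eq_of_isProj hp hfg (inE_sup hfA hfB) (inE_sup hgA hgB),
    res_eq_of_isProj hpA hfg hfA hgA, res_eq_of_isProj hpB hfg hfB hgB]
  have hsplit : cm ((pA + pB) * f) g = cm (pA * f) g + cm (pB * f) g := by
    unfold cm
    simp only [add_mul, mul_add]
    abel
  rw [hsplit]
  have h0A := (valid_proj hpA hfA hgA).inE0 hfg
  have h0B := (valid_proj hpB hfB hgB).inE0 hfg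
  have h1 : InE0 (A ⊔ B) (cm (pA * f) g) := by
    refine ⟨FA_RR_NearLE.mono_right le_sup_left h0A.1, inE2_sup h0A.2 ?_⟩
    unfold cm
    refine InE2.sub ?_ ((inE2_of_kill hAB hfB).mul_left g)
    rw [mul_assoc]
    exact inE2_of_kill hAB (hfB.mul hgB)
  have h2 : InE0 (A ⊔ B) (cm (pB * f) g) := by
    refine ⟨FA_RR_NearLE.mono_right le_sup_right h0B.1, inE2_sup ?_ h0B.2⟩
    unfold cm
    refine InE2.sub ?_ ((inE2_of_kill hBA hfA).mul_left g)
    rw [mul_assoc]
    exact inE2_of_kill hBA (hfA.mul hgA)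
  exact tr_add h1 h2

theorem exists_isProj_pair (hdisj : Disjoint A B) :
    ∃ pA pB : End K V, LinearMap.IsProj A pA ∧ LinearMap.IsProj B pB ∧
      (∀ b ∈ B, pA b = 0) ∧ (∀ a ∈ A, pB a = 0) := by
  obtain ⟨C, hC⟩ := Submodule.exists_isCompl (A ⊔ B)
  have hA : IsCompl A (B ⊔ C) :=
    ⟨hdisj.disjoint_sup_right_of_disjoint_sup_left hC.disjoint, by
      rw [codisjoint_iff, ← sup_assoc]
      exact codisjoint_iff.mp hC.codisjoint⟩
  have hB : IsCompl B (A ⊔ C) :=
    ⟨hdisj.symm.disjoint_sup_right_of_disjoint_sup_left (by rw [sup_comm]; exact hC.disjoint), by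
      rw [codisjoint_iff, ← sup_assoc, sup_comm B A]
      exact codisjoint_iff.mp hC.codisjoint⟩
  refine ⟨A.projection (B ⊔ C) hA, B.projection (A ⊔ C) hB,
    ⟨fun x => Submodule.projection_apply_mem hA x,
      fun x hx => Submodule.projection_apply_of_mem_left hA hx⟩,
    ⟨fun x => Submodule.projection_apply_mem hB x,
      fun x hx => Submodule.projection_apply_of_mem_left hB hx⟩, ?_, ?_⟩
  · intro b hb
    exact Submodule.projection_apply_right hA ⟨b, Submodule.mem_sup_left hb⟩
  · intro a ha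
    exact Submodule.projection_apply_right hB ⟨a, Submodule.mem_sup_left ha⟩

/-- Additivity of the residue for disjoint subspaces. -/
theorem res_sup_of_disjoint (hdisj : Disjoint A B)
    (hfA : InE A f) (hgA : InE A g) (hfB : InE B f) (hgB : InE B g) (hfg : Commute f g) :
    res (A ⊔ B) f g = res A f g + res B f g := by
  obtain ⟨pA, pB, hpA, hpB, hAB, hBA⟩ := exists_isProj_pair hdisj
  exact res_sup_of_isProj hpA hpB hAB hBA hfA hgA hfB hgB hfg

/-- (R5) additivity of the residue when `A ⊓ B` is finite-dimensional. -/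
theorem res_sup (hAB : FA_RR_NearLE (A ⊓ B) ⊥)
    (hfA : InE A f) (hgA : InE A g) (hfB : InE B f) (hgB : InE B g) (hfg : Commute f g) :
    res (A ⊔ B) f g = res A f g + res B f g := by
  obtain ⟨C, hC⟩ := Submodule.exists_isCompl (A ⊓ B)
  set A' := A ⊓ C with hA'
  have hA'le : A' ≤ A := inf_le_left
  have hsup : A' ⊔ (A ⊓ B) = A := by
    rw [hA', inf_sup_assoc_of_le C (inf_le_left : A ⊓ B ≤ A), sup_comm,
      codisjoint_iff.mp hC.codisjoint, inf_top_eq]
  have hdisj : Disjoint A' B := by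
    rw [disjoint_iff, eq_bot_iff]
    intro x hx
    have h1 : x ∈ A ⊓ B := ⟨hx.1.1, hx.2⟩
    have h2 : x ∈ C := hx.1.2
    exact (disjoint_iff.mp hC.disjoint).le ⟨h1, h2⟩
  have hsup' : A' ⊔ B = A ⊔ B := by
    apply le_antisymm (sup_le_sup_right hA'le B)
    refine sup_le ?_ le_sup_right
    rw [← hsup]
    exact sup_le le_sup_left (inf_le_right.trans le_sup_right)
  have h1 : FA_RR_NearLE A' A := FA_RR_NearLE.of_le hA'le
  have h2 : FA_RR_NearLE A A' := by
    obtain ⟨F, hF, hle⟩ := hAB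
    refine ⟨F, hF, ?_⟩
    rw [← hsup]
    refine sup_le le_sup_left (hle.trans ?_)
    rw [bot_sup_eq]
    exact le_sup_right
  rw [← hsup', res_sup_of_disjoint hdisj (inE_congr h2 h1 hfA) (inE_congr h2 h1 hgA) hfB hgB hfg,
    res_congr h2 h1 hfg hfA hgA]

/-- (R4) the local computation: if `g` is invertible with `g A ≤ A`, `h A ≤ A`,
`A = g A + K e`, `e ∉ g A` and `h e ≡ c e` mod `g A`, then `res (h g⁻¹, g) = c`. -/
theorem res_unit {g' : End K V} {e : V} {c : K} (hgg' : g * g' = 1) (hg'g : g' * g = 1)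
    (hhg : Commute h g) (hgA : A.map g ≤ A) (hhA : A.map h ≤ A) (he : e ∈ A)
    (hAe : A ≤ A.map g ⊔ K ∙ e) (he' : e ∉ A.map g) (hc : h e - c • e ∈ A.map g) :
    InE A (h * g') ∧ res A (h * g') g = c := by
  have hp := isProj_proj A
  set p := proj A with hpdef
  have hgmem : ∀ x ∈ A, g x ∈ A := fun x hx => hgA ⟨x, hx, rfl⟩
  have hhmem : ∀ x ∈ A, h x ∈ A := fun x hx => hhA ⟨x, hx, rfl⟩
  have hg'gx : ∀ x, g' (g x) = x := fun x => by
    rw [← Module.End.mul_apply, hg'g, Module.End.one_apply]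
  have hgg'x : ∀ x, g (g' x) = x := fun x => by
    rw [← Module.End.mul_apply, hgg', Module.End.one_apply]
  have hhgx : ∀ x, h (g x) = g (h x) := fun x => by
    rw [← Module.End.mul_apply, ← Module.End.mul_apply, hhg.eq]
  have hhg'x : ∀ x, h (g' x) = g' (h x) := fun x => by
    have := hhgx (g' x)
    rw [hgg'x] at this
    rw [this, hg'gx]
  -- `g' ∈ E(A)`
  have hg'E : InE A g' := by
    refine ⟨K ∙ (g' e), inferInstance, ?_⟩
    rintro _ ⟨x, hx, rfl⟩
    obtain ⟨y, ⟨a, ha, rfl⟩, z, hz, hsum⟩ := Submodule.mem_sup.mp (hAe hx)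
    obtain ⟨k, rfl⟩ := Submodule.mem_span_singleton.mp hz
    rw [← hsum, map_add, hg'gx, map_smul]
    exact Submodule.add_mem_sup ha (Submodule.smul_mem _ k (Submodule.mem_span_singleton_self _))
  have hfE : InE A (h * g') := (inE_of_map_le hhA).mul hg'E
  refine ⟨hfE, ?_⟩
  have hgE : InE A g := inE_of_map_le hgA
  -- the valid pair `(h g', g p)`
  have hv : Valid A (h * g') g (h * g') (g * p) := by
    have hgp1 : InE1 A (g * p) := inE1_of_forall_mem (fun x => by
      rw [Module.End.mul_apply]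
      exact hgmem _ (hp.map_mem x))
    refine ⟨hfE, hgp1.inE,
      by rw [sub_self]; exact inE2_zero, inE2_of_forall_eq_zero (fun x hx => ?_),
      Or.inr hgp1⟩
    rw [LinearMap.sub_apply, Module.End.mul_apply, hp.map_id x hx, sub_self]
  have hcomm : Commute (h * g') g := by
    have h1 : Commute g' g := by
      show g' * g = g * g'
      rw [hg'g, hgg']
    exact hhg.mul_left h1
  rw [hv.res_eq hcomm hfE hgE]
  set θ := cm (h * g') (g * p) with hθ
  have hθx : ∀ x, θ x = h (p x) - g (p (g' (h x))) := by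
    intro x
    simp only [hθ, cm, LinearMap.sub_apply, Module.End.mul_apply]
    rw [hg'gx, hhg'x]
  have hθmem : ∀ x, θ x ∈ A := by
    intro x
    rw [hθx]
    exact Submodule.sub_mem _ (hhmem _ (hp.map_mem _)) (hgmem _ (hp.map_mem _))
  have hθg : ∀ a ∈ A, θ (g a) = 0 := by
    intro a ha
    rw [hθx, hp.map_id _ (hgmem a ha), hhgx, hg'gx, hp.map_id _ (hhmem a ha), sub_self]
  -- `h e = c e + g a₀`
  obtain ⟨a₀, ha₀, ha₀e⟩ := hc
  have hhe : h e = c • e + g a₀ := by
    rw [ha₀e]
    abel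
  set e' := e - g (p (g' e)) with he'def
  have hθe : θ e = c • e' := by
    rw [hθx, hp.map_id e he, hhe, map_add, map_smul, hg'gx, map_add, map_smul, hp.map_id a₀ ha₀,
      map_add, map_smul, he'def, smul_sub]
    abel
  have hθe' : θ e' = c • e' := by
    rw [he'def, map_sub, hθg _ (hp.map_mem _), sub_zero, hθe]
  have he'0 : e' ≠ 0 := by
    intro h0
    apply he'
    rw [he'def, sub_eq_zero] at h0
    exact ⟨_, hp.map_mem _, h0.symm⟩
  -- the trace space
  have hW : IsTrSpace θ (K ∙ e') := by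
    refine ⟨inferInstance, ?_, 2, ?_⟩
    · intro x hx
      obtain ⟨k, rfl⟩ := Submodule.mem_span_singleton.mp hx
      rw [map_smul, hθe']
      exact Submodule.smul_mem _ _ (Submodule.smul_mem _ _ (Submodule.mem_span_singleton_self _))
    · rintro _ ⟨x, rfl⟩
      rw [pow_two, Module.End.mul_apply]
      obtain ⟨y, ⟨a, ha, rfl⟩, z, hz, hsum⟩ := Submodule.mem_sup.mp (hAe (hθmem x))
      obtain ⟨k, rfl⟩ := Submodule.mem_span_singleton.mp hz
      rw [← hsum, map_add, hθg a ha, zero_add, map_smul, hθe]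
      exact Submodule.smul_mem _ _ (Submodule.smul_mem _ _ (Submodule.mem_span_singleton_self _))
  rw [hW.tr_eq]
  unfold trOn
  have hrestr : θ.restrict hW.stable = c • LinearMap.id := by
    ext ⟨x, hx⟩
    obtain ⟨k, rfl⟩ := Submodule.mem_span_singleton.mp hx
    simp only [LinearMap.coe_restrict_apply, map_smul, hθe', LinearMap.smul_apply,
      LinearMap.id_coe, id_eq, Submodule.coe_smul]
    rw [smul_comm]
  rw [hrestr, map_smul, LinearMap.trace_id, finrank_span_singleton he'0]
  simp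

end FA_RR.Tate
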