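import Mathlib
import Fermat.Agent.Lib.RR.WeilB
import Fermat.Agent.Lib.RR.TateSum

/-!
# Residues on a curve, part 1 (item 77, WP-L)

`V` = the repartitions of `F / K`. Multiplication operators `mu f`, the restriction `restr S` to a
set of places `S`, the subspaces `AS S D = {α | supported in S, ord_v α_v ≥ -D v}`, and
`mu f ∈ E(AS S D)`.
-/

set_option autoImplicit false
set_option linter.style.haveILetI false

noncomputable section

open AlgebraicCurve WithZero IntermediateField

namespace FA_RR.Resid

open FA_RR.WPB FA_RR.WPC FA_RR.Tate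

variable {K F : Type*} [Field K] [Field F] [Algebra K F]

/-- Multiplication by `f ∈ F` on the repartitions. -/
def mu (f : F) : Module.End K ↥(repartitions K F) := LinearMap.mulLeft K (diag f)

theorem mu_apply (f : F) (α : ↥(repartitions K F)) : mu f α = diag f * α := rfl

theorem mu_apply_apply (f : F) (α : ↥(repartitions K F)) (v : Place K F) :
    ((mu f α : ↥(repartitions K F)) : Place K F → F) v = f * (α : Place K F → F) v := rfl

theorem mu_mul (f g : F) : mu (K := K) (f * g) = mu f * mu g := by
  ext α
  rw [Module.End.mul_apply, mu_apply, mu_apply, mu_apply, diag_mul, mul_assoc]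

theorem mu_one : mu (K := K) (1 : F) = 1 := by
  ext α
  rw [mu_apply, diag_one, one_mul, Module.End.one_apply]

theorem mu_zero : mu (K := K) (0 : F) = 0 := by
  ext α
  rw [mu_apply, diag_zero, zero_mul, LinearMap.zero_apply]

theorem mu_add (f g : F) : mu (K := K) (f + g) = mu f + mu g := by
  ext α
  rw [LinearMap.add_apply, mu_apply, mu_apply, mu_apply, diag_add, add_mul]

theorem mu_smul (c : K) (f : F) : mu (K := K) (c • f) = c • mu f := by
  apply LinearMap.ext
  intro α
  apply Subtype.ext
  funext v
  show (c • f) * _ = c • (f * _)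
  rw [smul_mul_assoc]

theorem mu_algebraMap (c : K) : mu (K := K) (algebraMap K F c) = c • 1 := by
  rw [Algebra.algebraMap_eq_smul_one, mu_smul, mu_one]

theorem mu_commute (f g : F) : Commute (mu (K := K) f) (mu g) := by
  show mu f * mu g = mu g * mu f
  rw [← mu_mul, ← mu_mul, mul_comm]

theorem mu_mul_inv {f : F} (hf : f ≠ 0) : mu (K := K) f * mu f⁻¹ = 1 := by
  rw [← mu_mul, mul_inv_cancel₀ hf, mu_one]

theorem mu_inv_mul {f : F} (hf : f ≠ 0) : mu (K := K) f⁻¹ * mu f = 1 := by
  rw [← mu_mul, inv_mul_cancel₀ hf, mu_one]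

open Classical in
/-- The indicator function of a set of places. -/
def ind (S : Set (Place K F)) : ↥(repartitions K F) :=
  ⟨fun v => if v ∈ S then 1 else 0, by
    apply mem_repartitions_of_finite
    convert Set.finite_empty
    ext v
    simp only [Set.mem_ofPred_eq, Set.mem_empty_iff_false, iff_false, not_not]
    split_ifs <;> simp⟩

theorem ind_apply_of_mem {S : Set (Place K F)} {v : Place K F} (hv : v ∈ S) :
    ((ind S : ↥(repartitions K F)) : Place K F → F) v = 1 := by
  classical
  show (if v ∈ S then (1 : F) else 0) = 1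
  rw [if_pos hv]

theorem ind_apply_of_not_mem {S : Set (Place K F)} {v : Place K F} (hv : v ∉ S) :
    ((ind S : ↥(repartitions K F)) : Place K F → F) v = 0 := by
  classical
  show (if v ∈ S then (1 : F) else 0) = 0
  rw [if_neg hv]

/-- Restriction of a repartition to a set of places. -/
def restr (S : Set (Place K F)) : Module.End K ↥(repartitions K F) :=
  LinearMap.mulLeft K (ind S)

theorem restr_apply_of_mem {S : Set (Place K F)} {v : Place K F} (hv : v ∈ S)
    (α : ↥(repartitions K F)) :
    ((restr S α : ↥(repartitions K F)) : Place K F → F) v = (α : Place K F → F) v := by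
  show ((ind S : ↥(repartitions K F)) : Place K F → F) v * _ = _
  rw [ind_apply_of_mem hv, one_mul]

theorem restr_apply_of_not_mem {S : Set (Place K F)} {v : Place K F} (hv : v ∉ S)
    (α : ↥(repartitions K F)) :
    ((restr S α : ↥(repartitions K F)) : Place K F → F) v = 0 := by
  show ((ind S : ↥(repartitions K F)) : Place K F → F) v * _ = _
  rw [ind_apply_of_not_mem hv, zero_mul]

theorem restr_eq_self {S : Set (Place K F)} {α : ↥(repartitions K F)}
    (h : ∀ v ∉ S, (α : Place K F → F) v = 0) : restr S α = α := by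
  apply Subtype.ext
  funext v
  by_cases hv : v ∈ S
  · rw [restr_apply_of_mem hv]
  · rw [restr_apply_of_not_mem hv, h v hv]

theorem restr_add_restr_compl (S : Set (Place K F)) (α : ↥(repartitions K F)) :
    restr S α + restr Sᶜ α = α := by
  apply Subtype.ext
  funext v
  rw [add_apply']
  by_cases hv : v ∈ S
  · have hv' : v ∉ Sᶜ := fun h => h hv
    rw [restr_apply_of_mem hv, restr_apply_of_not_mem hv', add_zero]
  · have hv' : v ∈ Sᶜ := hv
    rw [restr_apply_of_not_mem hv, restr_apply_of_mem hv', zero_add]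

/-- `A_S(D)`: the repartitions supported in `S` with poles bounded by `D`. -/
def AS (S : Set (Place K F)) (D : Divisor K F) : Submodule K ↥(repartitions K F) :=
  (repartitionsOf D).map (restr S)

theorem mem_AS_iff {S : Set (Place K F)} {D : Divisor K F} {α : ↥(repartitions K F)} :
    α ∈ AS S D ↔ (∀ v ∈ S, v.adicValuation ((α : Place K F → F) v) ≤ exp (D v)) ∧
      ∀ v ∉ S, (α : Place K F → F) v = 0 := by
  constructor
  · rintro ⟨β, hβ, rfl⟩
    refine ⟨fun v hv => ?_, fun v hv => restr_apply_of_not_mem hv β⟩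
    rw [restr_apply_of_mem hv]
    exact hβ v
  · rintro ⟨h1, h2⟩
    refine ⟨α, fun v => ?_, restr_eq_self h2⟩
    by_cases hv : v ∈ S
    · exact h1 v hv
    · rw [h2 v hv]
      simp

theorem AS_univ (D : Divisor K F) : AS Set.univ D = repartitionsOf D := by
  ext α
  rw [mem_AS_iff]
  constructor
  · intro h v
    exact h.1 v trivial
  · intro h
    exact ⟨fun v _ => h v, fun v hv => absurd trivial hv⟩

theorem AS_le_repartitionsOf (S : Set (Place K F)) (D : Divisor K F) :
    AS S D ≤ repartitionsOf D := by
  intro α hα v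
  rw [mem_AS_iff] at hα
  by_cases hv : v ∈ S
  · exact hα.1 v hv
  · rw [hα.2 v hv]
    simp

theorem disjoint_AS {S T : Set (Place K F)} (h : Disjoint S T) (D D' : Divisor K F) :
    Disjoint (AS S D) (AS T D') := by
  rw [Submodule.disjoint_def]
  intro α hS hT
  rw [mem_AS_iff] at hS hT
  apply Subtype.ext
  funext v
  by_cases hv : v ∈ S
  · exact hT.2 v (fun hvT => Set.disjoint_left.mp h hv hvT)
  · exact hS.2 v hv

theorem AS_union {S T : Set (Place K F)} (h : Disjoint S T) (D : Divisor K F) :
    AS (S ∪ T) D = AS S D ⊔ AS T D := by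
  apply le_antisymm
  · intro α hα
    rw [mem_AS_iff] at hα
    have h1 : restr S α ∈ AS S D := by
      rw [mem_AS_iff]
      refine ⟨fun v hv => ?_, fun v hv => restr_apply_of_not_mem hv α⟩
      rw [restr_apply_of_mem hv]
      exact hα.1 v (Or.inl hv)
    have h2 : restr T α ∈ AS T D := by
      rw [mem_AS_iff]
      refine ⟨fun v hv => ?_, fun v hv => restr_apply_of_not_mem hv α⟩
      rw [restr_apply_of_mem hv]
      exact hα.1 v (Or.inr hv)
    have h3 : α = restr S α + restr T α := by
      apply Subtype.ext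
      funext v
      rw [add_apply']
      by_cases hvS : v ∈ S
      · rw [restr_apply_of_mem hvS,
          restr_apply_of_not_mem (fun hvT => Set.disjoint_left.mp h hvS hvT), add_zero]
      · by_cases hvT : v ∈ T
        · rw [restr_apply_of_not_mem hvS, restr_apply_of_mem hvT, zero_add]
        · rw [restr_apply_of_not_mem hvS, restr_apply_of_not_mem hvT, add_zero]
          exact hα.2 v (fun hcon => hcon.elim hvS hvT)
    rw [h3]
    exact Submodule.add_mem_sup h1 h2
  · refine sup_le ?_ ?_
    · intro α hα
      rw [mem_AS_iff] at hα ⊢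
      refine ⟨fun v hv => ?_, fun v hv => hα.2 v (fun hcon => hv (Or.inl hcon))⟩
      by_cases hvS : v ∈ S
      · exact hα.1 v hvS
      · rw [hα.2 v hvS]
        simp
    · intro α hα
      rw [mem_AS_iff] at hα ⊢
      refine ⟨fun v hv => ?_, fun v hv => hα.2 v (fun hcon => hv (Or.inr hcon))⟩
      by_cases hvT : v ∈ T
      · exact hα.1 v hvT
      · rw [hα.2 v hvT]
        simp

variable [IsAlgClosed K] [CharZero K]

omit [IsAlgClosed K] [CharZero K] in
theorem nearLE_step (hres : FA_RR_Target_residue K F) (D : Divisor K F) (P : Place K F) :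
    FA_RR_NearLE (repartitionsOf (D + Finsupp.single P 1)) (repartitionsOf D) := by
  obtain ⟨e, he, he'⟩ := exists_mem_A_add_not_mem D P
  refine ⟨K ∙ e, inferInstance, ?_⟩
  intro α hα
  obtain ⟨c, hc⟩ := A_step hres D P hα he he'
  have : α = (α - c • e) + c • e := by abel
  rw [this]
  exact Submodule.add_mem_sup hc (Submodule.smul_mem _ c (Submodule.mem_span_singleton_self e))

theorem nearLE_of_le (hF : FA_RR_IsFF K F) (D' : Divisor K F) :
    ∀ D'', D' ≤ D'' → FA_RR_NearLE (repartitionsOf D'') (repartitionsOf D') := by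
  apply divisor_induction (p := fun D'' => FA_RR_NearLE (repartitionsOf D'')
      (repartitionsOf D')) D'
  · exact FA_RR_NearLE.refl _
  · intro D'' P _ ih
    exact FA_RR_NearLE.trans (nearLE_step (residue hF) D'' P) ih

/-- `A(D) ≺ A(D')` for all divisors `D`, `D'`. -/
theorem nearLE_repartitionsOf (hF : FA_RR_IsFF K F) (D D' : Divisor K F) :
    FA_RR_NearLE (repartitionsOf D) (repartitionsOf D') := by
  have h1 : D ≤ D ⊔ D' := le_sup_left
  have h2 : D' ≤ D ⊔ D' := le_sup_right
  have h3 : repartitionsOf D ≤ repartitionsOf (D ⊔ D') := repartitionsOf_mono h1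
  have h4 := nearLE_of_le hF D' (D ⊔ D') h2
  exact FA_RR_NearLE.mono_left h3 h4

theorem nearLE_AS (hF : FA_RR_IsFF K F) (S : Set (Place K F)) (D D' : Divisor K F) :
    FA_RR_NearLE (AS S D) (AS S D') :=
  FA_RR_NearLE.map (restr S) (nearLE_repartitionsOf hF D D')

omit [IsAlgClosed K] [CharZero K] in
/-- Multiplication by `f` maps `A_S(D)` into `A_S(D - div f)`. -/
theorem map_mu_AS_le (S : Set (Place K F)) (D E : Divisor K F) {f : F} (hf : f ≠ 0)
    (hE : ∀ v : Place K F, E v = v.ord f) : (AS S D).map (mu f) ≤ AS S (D - E) := by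
  rintro _ ⟨α, hα, rfl⟩
  have hα := mem_AS_iff.mp hα
  rw [mem_AS_iff]
  refine ⟨fun v hv => ?_, fun v hv => ?_⟩
  · rw [mu_apply_apply, map_mul, v.adicValuation_eq_exp_neg_ord hf, Finsupp.sub_apply, hE v,
      sub_eq_add_neg, add_comm, exp_add]
    exact mul_le_mul_right (hα.1 v hv) _
  · rw [mu_apply_apply, hα.2 v hv, mul_zero]

omit [IsAlgClosed K] [CharZero K] in
/-- Multiplication by a function regular on `S` preserves `A_S(D)`. -/
theorem map_mu_AS_le_of_regular (S : Set (Place K F)) (D : Divisor K F) {f : F}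
    (hf : ∀ v ∈ S, v.adicValuation f ≤ 1) : (AS S D).map (mu f) ≤ AS S D := by
  rintro _ ⟨α, hα, rfl⟩
  have hα := mem_AS_iff.mp hα
  rw [mem_AS_iff]
  refine ⟨fun v hv => ?_, fun v hv => ?_⟩
  · rw [mu_apply_apply, map_mul]
    calc v.adicValuation f * v.adicValuation ((α : Place K F → F) v)
        ≤ 1 * exp (D v) := mul_le_mul' (hf v hv) (hα.1 v hv)
      _ = exp (D v) := one_mul _
  · rw [mu_apply_apply, hα.2 v hv, mul_zero]

/-- **`mu f ∈ E(A_S(D))`.** -/
theorem inE_mu (hF : FA_RR_IsFF K F) (S : Set (Place K F)) (D : Divisor K F) (f : F) :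
    InE (AS S D) (mu f) := by
  rcases eq_or_ne f 0 with rfl | hf
  · rw [mu_zero]
    exact inE_zero
  haveI := hasPrincipalDivisors hF
  obtain ⟨E, hE, -⟩ := HasPrincipalDivisors.exists_divisor (K := K) f hf
  exact FA_RR_NearLE.mono_left (map_mu_AS_le S D E hf hE) (nearLE_AS hF S _ _)

/-- **The local residue pairing** at the place `v`: Tate's residue of the multiplication
operators `mu f`, `mu g` with respect to `A_{v}(0)` (repartitions supported at `v` and integral
at `v`). -/
def resv (v : Place K F) (f g : F) : K := res (AS {v} 0) (mu f) (mu g)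

omit [IsAlgClosed K] [CharZero K] in
theorem resv_def (v : Place K F) (f g : F) : resv v f g = res (AS {v} 0) (mu f) (mu g) := rfl

omit [IsAlgClosed K] [CharZero K] in
/-- (R1) the local residue vanishes on pairs of functions regular at `v`. -/
theorem resv_eq_zero_of_regular (v : Place K F) {f g : F} (hf : v.adicValuation f ≤ 1)
    (hg : v.adicValuation g ≤ 1) : resv v f g = 0 := by
  apply res_eq_zero_of_map_le _ _ (mu_commute f g)
  · exact map_mu_AS_le_of_regular {v} 0 (fun w hw => by rw [Set.mem_singleton_iff.mp hw]; exact hf)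
  · exact map_mu_AS_le_of_regular {v} 0 (fun w hw => by rw [Set.mem_singleton_iff.mp hw]; exact hg)

end FA_RR.Resid
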