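import Mathlib
import Fermat.Agent.Lib.RR.ResidA

/-!
# Residues on a curve, part 3: the residue theorem (item 77, WP-L)

`∑_v resv v f g = 0` for all `f, g ∈ F`.
-/

set_option autoImplicit false
set_option linter.style.haveILetI false

noncomputable section

open AlgebraicCurve WithZero IntermediateField

namespace FA_RR.Resid

open FA_RR.WPB FA_RR.WPC FA_RR.Tate

variable {K F : Type*} [Field K] [Field F] [Algebra K F]

/-- A subspace with finite-dimensional quotient is near the whole space. -/
theorem nearLE_top_of_finite_quotient {V : Type*} [AddCommGroup V] [Module K V]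
    (W : Submodule K V) [Module.Finite K (V ⧸ W)] : FA_RR_NearLE ⊤ W := by
  obtain ⟨C, hC⟩ := Submodule.exists_isCompl W
  refine ⟨C, Module.Finite.equiv (Submodule.quotientEquivOfIsCompl W C hC), ?_⟩
  rw [codisjoint_iff.mp hC.codisjoint]

theorem map_mu_principal_le (f : F) :
    (principalRepartitions K F).map (mu f) ≤ principalRepartitions K F := by
  rintro _ ⟨α, hα, rfl⟩
  obtain ⟨h, hh⟩ := mem_principalRepartitions_iff.mp hα
  rw [mem_principalRepartitions_iff]
  refine ⟨f * h, ?_⟩
  funext v
  rw [mu_apply_apply, hh]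

theorem AS_empty (D : Divisor K F) : AS (∅ : Set (Place K F)) D = ⊥ := by
  rw [eq_bot_iff]
  intro α hα
  rw [mem_AS_iff] at hα
  rw [Submodule.mem_bot]
  apply Subtype.ext
  funext v
  exact hα.2 v (Set.notMem_empty v)

variable [IsAlgClosed K] [CharZero K]

/-- `A(0) ∩ F = K` is finite-dimensional. -/
theorem nearLE_inf_principal (hF : FA_RR_IsFF K F) :
    FA_RR_NearLE (repartitionsOf (0 : Divisor K F) ⊓ principalRepartitions K F) ⊥ := by
  refine ⟨K ∙ (1 : ↥(repartitions K F)), inferInstance, ?_⟩
  rintro α ⟨h1, h2⟩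
  obtain ⟨f, hf⟩ := mem_principalRepartitions_iff.mp h2
  have hα : α = diag f := Subtype.ext hf
  rw [hα] at h1 ⊢
  obtain ⟨c, rfl⟩ := L_zero hF (diag_mem_repartitionsOf_iff.mp h1)
  apply Submodule.mem_sup_right
  rw [Submodule.mem_span_singleton]
  refine ⟨c, ?_⟩
  apply Subtype.ext
  funext v
  show c • (1 : F) = algebraMap K F c
  rw [Algebra.algebraMap_eq_smul_one]

/-- The residue with respect to `A(0)` vanishes. -/
theorem res_A0_eq_zero (hF : FA_RR_IsFF K F) (f g : F) :
    res (repartitionsOf (0 : Divisor K F)) (mu f) (mu g) = 0 := by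
  have hE : ∀ h : F, InE (repartitionsOf (0 : Divisor K F)) (mu h) := fun h => by
    have := inE_mu hF Set.univ 0 h
    rwa [AS_univ] at this
  have hEF : ∀ h : F, InE (principalRepartitions K F) (mu h) := fun h =>
    inE_of_map_le (map_mu_principal_le h)
  have h1 := res_sup (nearLE_inf_principal hF) (hE f) (hE g) (hEF f) (hEF g) (mu_commute f g)
  haveI : Module.Finite K (↥(repartitions K F) ⧸
      (repartitionsOf (0 : Divisor K F) ⊔ principalRepartitions K F)) := finiteH1 hF 0
  have h2 := res_eq_zero_of_top_nearLE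
    (nearLE_top_of_finite_quotient
      (repartitionsOf (0 : Divisor K F) ⊔ principalRepartitions K F)) (mu_commute f g)
  have h3 := res_eq_zero_of_map_le (map_mu_principal_le (K := K) f)
    (map_mu_principal_le (K := K) g) (mu_commute f g)
  rw [h2, h3, add_zero] at h1
  exact h1.symm

/-- The residue with respect to `A_T(0)` for a finite set `T` is the sum of the local residues. -/
theorem res_AS_finset (hF : FA_RR_IsFF K F) (f g : F) (T : Finset (Place K F)) :
    res (AS (↑T : Set (Place K F)) 0) (mu f) (mu g) = ∑ v ∈ T, resv v f g := by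
  classical
  induction T using Finset.induction_on with
  | empty =>
    rw [Finset.coe_empty, Finset.sum_empty, AS_empty]
    exact res_eq_zero_of_nearLE_bot (FA_RR_NearLE.refl _) (mu_commute f g)
  | insert v T hv ih =>
    rw [Finset.sum_insert hv, ← ih, resv_def]
    have hdisj : Disjoint ({v} : Set (Place K F)) (↑T : Set (Place K F)) := by
      rw [Set.disjoint_singleton_left]
      exact fun h => hv (Finset.mem_coe.mp h)
    have hunion : (↑(insert v T) : Set (Place K F)) = {v} ∪ ↑T := by
      rw [Finset.coe_insert]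
      rfl
    rw [hunion, AS_union hdisj]
    exact res_sup_of_disjoint (disjoint_AS hdisj 0 0) (inE_mu hF _ 0 f) (inE_mu hF _ 0 g)
      (inE_mu hF _ 0 f) (inE_mu hF _ 0 g) (mu_commute f g)

/-- **The residue theorem** for the local residue pairings. -/
theorem resv_sum (hF : FA_RR_IsFF K F) (f g : F) :
    (Function.support fun v : Place K F => resv v f g).Finite ∧
      ∑ᶠ v : Place K F, resv v f g = 0 := by
  classical
  have hfin : ({v : Place K F | v.ord f < 0} ∪ {v : Place K F | v.ord g < 0}).Finite :=
    (finite_poles hF f).union (finite_poles hF g)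
  set T : Finset (Place K F) := hfin.toFinset with hT
  have hreg : ∀ v : Place K F, v ∉ T → v.adicValuation f ≤ 1 ∧ v.adicValuation g ≤ 1 := by
    intro v hv
    rw [hT, Set.Finite.mem_toFinset, Set.mem_union, not_or] at hv
    constructor
    · by_contra hcon
      exact hv.1 (v.not_adicValuation_le_one_iff.mp hcon)
    · by_contra hcon
      exact hv.2 (v.not_adicValuation_le_one_iff.mp hcon)
  have hsupp : (Function.support fun v : Place K F => resv v f g) ⊆ ↑T := by
    intro v hv
    by_contra hvT
    apply hv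
    exact resv_eq_zero_of_regular v (hreg v hvT).1 (hreg v hvT).2
  refine ⟨T.finite_toSet.subset hsupp, ?_⟩
  rw [finsum_eq_sum_of_support_subset _ hsupp, ← res_AS_finset hF f g T]
  -- split `A(0) = A_T(0) ⊕ A_{Tᶜ}(0)`
  have hdisj : Disjoint (↑T : Set (Place K F)) (↑T : Set (Place K F))ᶜ := disjoint_compl_right
  have h1 := res_sup_of_disjoint (disjoint_AS hdisj 0 0) (inE_mu hF _ 0 f) (inE_mu hF _ 0 g)
    (inE_mu hF _ 0 f) (inE_mu hF _ 0 g) (mu_commute f g)
  rw [← AS_union hdisj, Set.union_compl_self, AS_univ, res_A0_eq_zero hF f g] at h1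
  have h2 : res (AS (↑T : Set (Place K F))ᶜ 0) (mu f) (mu g) = 0 := by
    apply res_eq_zero_of_map_le _ _ (mu_commute f g)
    · exact map_mu_AS_le_of_regular _ 0 (fun v hv => (hreg v (fun h => hv h)).1)
    · exact map_mu_AS_le_of_regular _ 0 (fun v hv => (hreg v (fun h => hv h)).2)
  rw [h2, add_zero] at h1
  exact h1.symm

end FA_RR.Resid
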