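import Mathlib
import Fermat.Agent.Lib.RR.ResidA
import Fermat.Agent.Lib.RR.OrdDiff

/-!
# Residues on a curve, part 2 (item 77, WP-L local)

* bilinearity and Leibniz rule of the local pairing `resv v f g`;
* the `K`-linear form `resΩ v : Ω[F⁄K] →ₗ[K] K` with `resΩ v (f • D g) = resv v f g`;
* (R1) `resΩ v (f • D g) = 0` if `f, g ∈ O_v`;
* (R2) `resΩ v ((h t⁻¹) • D t) = h(v)` if `ord_v t = 1`.
-/

set_option autoImplicit false
set_option linter.style.haveILetI false

noncomputable section

open AlgebraicCurve WithZero IntermediateField KaehlerDifferential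

namespace FA_RR.Resid

open FA_RR.WPB FA_RR.WPC FA_RR.Tate

variable {K F : Type*} [Field K] [Field F] [Algebra K F] [IsAlgClosed K] [CharZero K]

section Pairing

variable (hF : FA_RR_IsFF K F) (v : Place K F)
include hF

theorem resv_add_left (f h g : F) : resv v (f + h) g = resv v f g + resv v h g := by
  unfold resv
  rw [mu_add]
  exact res_add_left (inE_mu hF _ _ f) (inE_mu hF _ _ h) (inE_mu hF _ _ g) (mu_commute f g)
    (mu_commute h g)

theorem resv_add_right (f g h : F) : resv v f (g + h) = resv v f g + resv v f h := by
  unfold resv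
  rw [mu_add]
  exact res_add_right (inE_mu hF _ _ f) (inE_mu hF _ _ g) (inE_mu hF _ _ h) (mu_commute f g)
    (mu_commute f h)

omit hF [IsAlgClosed K] [CharZero K] in
theorem resv_smul_left (c : K) (f g : F) : resv v (c • f) g = c * resv v f g := by
  unfold resv
  rw [mu_smul]
  exact res_smul_left c _ _

omit hF [IsAlgClosed K] [CharZero K] in
theorem resv_smul_right (c : K) (f g : F) : resv v f (c • g) = c * resv v f g := by
  unfold resv
  rw [mu_smul]
  exact res_smul_right c _ _

/-- Leibniz rule -/
theorem resv_mul_right (f g h : F) :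
    resv v f (g * h) = resv v (f * g) h + resv v (f * h) g := by
  unfold resv
  rw [mu_mul, mu_mul, mu_mul]
  exact res_mul_right (inE_mu hF _ _ f) (inE_mu hF _ _ g) (inE_mu hF _ _ h) (mu_commute f g)
    (mu_commute f h) (mu_commute g h)

theorem resv_one_right (f : F) : resv v f 1 = 0 := by
  have h := resv_mul_right hF v f 1 1
  rw [mul_one, mul_one] at h
  have h2 : resv v f 1 + resv v f 1 = resv v f 1 + 0 := by rw [add_zero]; exact h.symm
  exact add_left_cancel h2

end Pairing

/-! ### The `F`-module `Hom_K(F, K)` -/

variable (K F) in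
/-- `F →ₗ[K] K` with the `F`-module structure `(a • φ) f = φ (a f)`. -/
def FDual : Type _ := F →ₗ[K] K

omit [IsAlgClosed K] [CharZero K] in
instance : AddCommGroup (FDual K F) := inferInstanceAs (AddCommGroup (F →ₗ[K] K))

instance : Module K (FDual K F) := inferInstanceAs (Module K (F →ₗ[K] K))

/-- the underlying linear form -/
def FDual.toLin (φ : FDual K F) : F →ₗ[K] K := φ

/-- a linear form as an element of `FDual` -/
def FDual.ofLin (φ : F →ₗ[K] K) : FDual K F := φ

omit [IsAlgClosed K] [CharZero K] in
@[ext]
theorem FDual.ext {φ ψ : FDual K F} (h : ∀ f : F, φ.toLin f = ψ.toLin f) : φ = ψ :=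
  LinearMap.ext h

instance : Module F (FDual K F) where
  smul a φ := FDual.ofLin (φ.toLin.comp (LinearMap.mulLeft K a))
  one_smul φ := by
    apply FDual.ext
    intro f
    show φ.toLin (1 * f) = φ.toLin f
    rw [one_mul]
  mul_smul a b φ := by
    apply FDual.ext
    intro f
    show φ.toLin (a * b * f) = φ.toLin (b * (a * f))
    congr 1
    ring
  smul_zero a := by
    apply FDual.ext
    intro f
    rfl
  smul_add a φ ψ := by
    apply FDual.ext
    intro f
    rfl
  add_smul a b φ := by
    apply FDual.ext
    intro f
    show φ.toLin ((a + b) * f) = φ.toLin (a * f) + φ.toLin (b * f)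
    rw [add_mul, map_add]
  zero_smul φ := by
    apply FDual.ext
    intro f
    show φ.toLin (0 * f) = 0
    rw [zero_mul, map_zero]

omit [IsAlgClosed K] [CharZero K] in
theorem FDual.smul_apply (a : F) (φ : FDual K F) (f : F) :
    (a • φ).toLin f = φ.toLin (a * f) := rfl

omit [IsAlgClosed K] [CharZero K] in
theorem FDual.add_apply (φ ψ : FDual K F) (f : F) :
    (φ + ψ).toLin f = φ.toLin f + ψ.toLin f := rfl

omit [IsAlgClosed K] [CharZero K] in
theorem FDual.ksmul_apply (c : K) (φ : FDual K F) (f : F) :
    (c • φ).toLin f = c * φ.toLin f := rfl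

instance : IsScalarTower K F (FDual K F) where
  smul_assoc c a φ := by
    apply FDual.ext
    intro f
    show φ.toLin ((c • a) * f) = c * φ.toLin (a * f)
    rw [smul_mul_assoc, map_smul, smul_eq_mul]

/-! ### The residue as a linear form on differentials -/

section Form

variable (hF : FA_RR_IsFF K F) (v : Place K F)

/-- `f ↦ resv v f g` as an element of `FDual`. -/
def resvL (g : F) : FDual K F :=
  FDual.ofLin
    { toFun := fun f => resv v f g
      map_add' := fun f h => resv_add_left hF v f h g
      map_smul' := fun c f => by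
        rw [RingHom.id_apply, smul_eq_mul]
        exact resv_smul_left v c f g }

theorem resvL_apply (g f : F) : (resvL hF v g).toLin f = resv v f g := rfl

/-- The derivation `g ↦ (f ↦ resv v f g)`. -/
def resvDer : Derivation K F (FDual K F) where
  toFun g := resvL hF v g
  map_add' g h := by
    apply FDual.ext
    intro f
    rw [FDual.add_apply, resvL_apply, resvL_apply, resvL_apply]
    exact resv_add_right hF v f g h
  map_smul' c g := by
    apply FDual.ext
    intro f
    rw [RingHom.id_apply, FDual.ksmul_apply, resvL_apply, resvL_apply]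
    exact resv_smul_right v c f g
  map_one_eq_zero' := by
    apply FDual.ext
    intro f
    show resv v f 1 = 0
    exact resv_one_right hF v f
  leibniz' g h := by
    apply FDual.ext
    intro f
    show resv v f (g * h) = resv v (g * f) h + resv v (h * f) g
    rw [resv_mul_right hF v f g h, mul_comm g f, mul_comm h f]

theorem resvDer_apply (g : F) : resvDer hF v g = resvL hF v g := rfl

/-- evaluation at `1` -/
def evalOne : FDual K F →ₗ[K] K where
  toFun φ := φ.toLin 1
  map_add' _ _ := rfl
  map_smul' _ _ := rfl

/-- **The local residue** at `v` as a `K`-linear form on the Kähler differentials. -/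
def resΩ : Ω[F⁄K] →ₗ[K] K :=
  evalOne.comp ((resvDer hF v).liftKaehlerDifferential.restrictScalars K)

theorem resΩ_smul_D (f g : F) : resΩ hF v (f • D K F g) = resv v f g := by
  show ((resvDer hF v).liftKaehlerDifferential (f • D K F g)).toLin 1 = _
  rw [map_smul, Derivation.liftKaehlerDifferential_comp_D, FDual.smul_apply, resvDer_apply,
    resvL_apply, mul_one]

/-- (R1) -/
theorem resΩ_eq_zero_of_regular {f g : F} (hf : v.adicValuation f ≤ 1)
    (hg : v.adicValuation g ≤ 1) : resΩ hF v (f • D K F g) = 0 := by
  rw [resΩ_smul_D]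
  exact resv_eq_zero_of_regular v hf hg

end Form

end FA_RR.Resid

end
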