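import Mathlib
import Fermat.Agent.Lib.RR.ResidB
import Fermat.Agent.Lib.RR.Assembly

/-!
# Residues on a curve: final assembly (item 77, WP-L)

`residues_of` : `FA_RR_Target_residues K F` from the local computation `resv_unit` and the residue
theorem `resv_sum` for the pairing `resv`.
-/

set_option autoImplicit false
set_option linter.style.haveILetI false

noncomputable section

open AlgebraicCurve WithZero IntermediateField KaehlerDifferential

namespace FA_RR.Resid

variable {K F : Type*} [Field K] [Field F] [Algebra K F] [IsAlgClosed K] [CharZero K]

/-- `FA_RR_Target_residues` from the two remaining facts about the pairing `resv`. -/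
theorem residues_of (hF : FA_RR_IsFF K F)
    (hunit : ∀ (v : Place K F) (t h : F) (c : K), v.ord t = 1 →
      v.adicValuation (h - algebraMap K F c) < 1 → resv v (h * t⁻¹) t = c)
    (hsum : ∀ f g : F, (Function.support fun v : Place K F => resv v f g).Finite ∧
      ∑ᶠ v : Place K F, resv v f g = 0) :
    FA_RR_Target_residues K F := by
  refine ⟨resΩ hF, ?_, ?_, ?_⟩
  · intro v f g hf hg
    exact resΩ_eq_zero_of_regular hF v hf hg
  · intro v t h c ht hc
    rw [resΩ_smul_D]
    exact hunit v t h c ht hc
  · intro ω
    obtain ⟨x, hx, -⟩ := id hF
    obtain ⟨f, hf⟩ := kaehler hF x hx ω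
    have : (fun v : Place K F => resΩ hF v ω) = fun v => resv v f x := by
      funext v
      rw [hf, resΩ_smul_D]
    rw [this]
    exact hsum f x

end FA_RR.Resid

end
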