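import Mathlib
import Fermat.Agent.Lib.RR.ResidA

/-!
# Residues on a curve, part 2: the residue of `h dt / t` (item 77, WP-L)

`resv v (h t⁻¹) t = h(v)` for a uniformizer `t` at `v` and `h` regular at `v`.
-/

set_option autoImplicit false
set_option linter.style.haveILetI false

noncomputable section

open AlgebraicCurve WithZero IntermediateField

namespace FA_RR.Resid

open FA_RR.WPB FA_RR.WPC FA_RR.Tate

variable {K F : Type*} [Field K] [Field F] [Algebra K F]

theorem mem_AS_singleton_iff {v : Place K F} {α : ↥(repartitions K F)} :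
    α ∈ AS {v} 0 ↔ v.adicValuation ((α : Place K F → F) v) ≤ 1 ∧
      ∀ w : Place K F, w ≠ v → (α : Place K F → F) w = 0 := by
  rw [mem_AS_iff]
  constructor
  · rintro ⟨h1, h2⟩
    refine ⟨by simpa using h1 v rfl, fun w hw => h2 w (fun h => hw (Set.mem_singleton_iff.mp h))⟩
  · rintro ⟨h1, h2⟩
    refine ⟨fun w hw => ?_, fun w hw => h2 w (fun h => hw (Set.mem_singleton_iff.mpr h))⟩
    rw [Set.mem_singleton_iff.mp hw]
    simpa using h1

theorem single_mem_AS {v : Place K F} {x : F} (hx : v.adicValuation x ≤ 1) :
    WPC.single v x ∈ AS {v} 0 := by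
  rw [mem_AS_singleton_iff]
  refine ⟨?_, fun w hw => single_apply_of_ne v x hw⟩
  rw [single_apply_same]
  exact hx

theorem val_uniformizer {v : Place K F} {t : F} (ht : v.ord t = 1) :
    t ≠ 0 ∧ v.adicValuation t = exp (-1) := by
  have ht0 : t ≠ 0 := by
    rintro rfl
    rw [v.ord_zero] at ht
    exact zero_ne_one ht
  refine ⟨ht0, ?_⟩
  rw [v.adicValuation_eq_exp_neg_ord ht0, ht]

/-- An element of the maximal ideal is `t` times an integral element. -/
theorem val_div_uniformizer {v : Place K F} {t x : F} (ht : v.ord t = 1)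
    (hx : v.adicValuation x < 1) : v.adicValuation (x / t) ≤ 1 := by
  obtain ⟨ht0, hvt⟩ := val_uniformizer ht
  have h1 : v.adicValuation x ≤ exp (-1) := by
    apply le_exp_of_lt_exp_succ
    simpa using hx
  rw [map_div₀, hvt]
  exact div_le_one_of_le₀ h1 zero_le

theorem single_mem_map_mu {v : Place K F} {t x : F} (ht : v.ord t = 1)
    (hx : v.adicValuation x < 1) : WPC.single v x ∈ (AS {v} 0).map (mu t) := by
  obtain ⟨ht0, -⟩ := val_uniformizer ht
  refine ⟨WPC.single v (x / t), single_mem_AS (val_div_uniformizer ht hx), ?_⟩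
  apply Subtype.ext
  funext w
  rw [mu_apply_apply]
  by_cases hw : w = v
  · subst hw
    rw [single_apply_same, single_apply_same]
    field_simp
  · rw [single_apply_of_ne v _ hw, single_apply_of_ne v _ hw, mul_zero]

variable [IsAlgClosed K] [CharZero K]

/-- **(R2)** `res_v (h dt / t) = h(v)`. -/
theorem resv_unit (hF : FA_RR_IsFF K F) (v : Place K F) {t h : F} {c : K} (ht : v.ord t = 1)
    (hc : v.adicValuation (h - algebraMap K F c) < 1) : resv v (h * t⁻¹) t = c := by
  obtain ⟨ht0, hvt⟩ := val_uniformizer ht
  have hvt1 : v.adicValuation t ≤ 1 := by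
    rw [hvt, ← exp_zero, exp_le_exp]
    omega
  have hvh : v.adicValuation h ≤ 1 := by
    have : h = (h - algebraMap K F c) + algebraMap K F c := by ring
    rw [this]
    exact (Valuation.map_add _ _ _).trans (max_le hc.le (v.adicValuation_algebraMap_le_one c))
  have hreg : ∀ {x : F}, v.adicValuation x ≤ 1 → ∀ w ∈ ({v} : Set (Place K F)),
      w.adicValuation x ≤ 1 := by
    intro x hx w hw
    rw [Set.mem_singleton_iff.mp hw]
    exact hx
  rw [resv_def, mu_mul]
  refine (res_unit (A := AS {v} 0) (g := mu t) (h := mu h) (g' := mu t⁻¹)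
    (e := WPC.single v 1) (c := c) (mu_mul_inv ht0) (mu_inv_mul ht0) (mu_commute h t)
    (map_mu_AS_le_of_regular {v} 0 (hreg hvt1)) (map_mu_AS_le_of_regular {v} 0 (hreg hvh))
    (single_mem_AS (by simp)) ?_ ?_ ?_).2
  · -- `A ≤ t A + K e`
    intro α hα
    obtain ⟨h1, h2⟩ := mem_AS_singleton_iff.mp hα
    obtain ⟨c', hc'⟩ := residue hF v _ h1
    have hsplit : α = WPC.single v ((α : Place K F → F) v - algebraMap K F c') +
        c' • WPC.single v 1 := by
      apply Subtype.ext
      funext w
      rw [add_apply', smul_apply']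
      by_cases hw : w = v
      · subst hw
        rw [single_apply_same, single_apply_same, Algebra.smul_def, mul_one]
        ring
      · rw [single_apply_of_ne v _ hw, single_apply_of_ne v _ hw, h2 w hw, smul_zero, add_zero]
    rw [hsplit]
    exact Submodule.add_mem_sup (single_mem_map_mu ht hc')
      (Submodule.smul_mem _ c' (Submodule.mem_span_singleton_self _))
  · -- `e ∉ t A`
    rintro ⟨β, hβ, hβe⟩
    obtain ⟨h1, -⟩ := mem_AS_singleton_iff.mp hβ
    have h3 := congrArg (fun γ : ↥(repartitions K F) => (γ : Place K F → F) v) hβe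
    simp only [mu_apply_apply, single_apply_same] at h3
    have h4 := congrArg v.adicValuation h3
    rw [map_mul, map_one, hvt] at h4
    have h5 : exp (-1 : ℤ) * v.adicValuation ((β : Place K F → F) v) ≤ exp (-1 : ℤ) * 1 :=
      mul_le_mul_right h1 _
    rw [h4, mul_one, ← exp_zero, exp_le_exp] at h5
    omega
  · -- `h e ≡ c e`
    have : mu h (WPC.single v 1) - c • WPC.single v 1 =
        WPC.single v (h - algebraMap K F c) := by
      apply Subtype.ext
      funext w
      rw [sub_apply', smul_apply', mu_apply_apply]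
      by_cases hw : w = v
      · subst hw
        rw [single_apply_same, single_apply_same, Algebra.smul_def, mul_one, mul_one]
      · rw [single_apply_of_ne v _ hw, single_apply_of_ne v _ hw, mul_zero, smul_zero, sub_zero]
    rw [this]
    exact single_mem_map_mu ht hc

end FA_RR.Resid
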