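import Mathlib
import Fermat.Agent.Lib.RR.ResidFinal
import Fermat.Agent.Lib.RR.ResidC
import Fermat.Agent.Lib.RR.ResidU

/-!
# Riemann–Roch for function fields: the final statements (item 77)

For `K` algebraically closed of characteristic zero and `F / K` a function field in one variable
(`hF : FA_RR_IsFF K F`), all unconditional:

* `FA_RR.Main.residues` : `FA_RR_Target_residues K F` (local residues, residue theorem);
* `FA_RR.Main.hasCanonicalDivisor` : `HasCanonicalDivisor`;
* `FA_RR.Main.degree_canonicalDivisorOf` : `deg div ω = 2g - 2`;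
* `FA_RR.Main.genus_eq_genusFF` : `genus K F = genusFF K F`;
* `FA_RR.Main.riemann_roch` : `ℓ(D) - ℓ(W - D) = deg D + 1 - g`;
* `FA_RR.Main.exists_regular_submodule` : the regular differentials form a `K`-subspace of
  dimension `genusFF K F`.
-/

set_option autoImplicit false
set_option linter.style.haveILetI false

noncomputable section

open AlgebraicCurve WithZero IntermediateField KaehlerDifferential

namespace FA_RR.Main

variable {K F : Type*} [Field K] [Field F] [Algebra K F] [IsAlgClosed K] [CharZero K]

/-- **Local residues and the residue theorem.** -/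
theorem residues (hF : FA_RR_IsFF K F) : FA_RR_Target_residues K F :=
  FA_RR.Resid.residues_of hF (fun v _ _ _ ht hc => FA_RR.Resid.resv_unit hF v ht hc)
    (FA_RR.Resid.resv_sum hF)

theorem hasCanonicalDivisor (hF : FA_RR_IsFF K F) : HasCanonicalDivisor (K := K) (F := F) :=
  FA_RR.WPE.hasCanonicalDivisor hF (residues hF)

theorem degree_canonicalDivisorOf (hF : FA_RR_IsFF K F)
    [HasCanonicalDivisor (K := K) (F := F)] {ω : Ω[F⁄K]} (hω : ω ≠ 0) :
    Divisor.degree (canonicalDivisorOf hω) = 2 * (genusFF K F : ℤ) - 2 :=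
  FA_RR.WPE.degree_canonicalDivisorOf' hF (residues hF) hω

theorem genus_eq_genusFF (hF : FA_RR_IsFF K F) [HasCanonicalDivisor (K := K) (F := F)] :
    genus K F = genusFF K F :=
  FA_RR.WPE.genus_eq_genusFF hF (residues hF)

theorem riemann_roch (hF : FA_RR_IsFF K F) [HasCanonicalDivisor (K := K) (F := F)]
    {ω : Ω[F⁄K]} (hω : ω ≠ 0) (E : Divisor K F) :
    (Module.finrank K (riemannRochSpace E) : ℤ) -
        (Module.finrank K (riemannRochSpace (canonicalDivisorOf hω - E)) : ℤ)
      = Divisor.degree E + 1 - (genusFF K F : ℤ) :=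
  FA_RR.WPE.riemann_roch hF (residues hF) hω E

theorem exists_regular_submodule (hF : FA_RR_IsFF K F) :
    ∃ R : Submodule K Ω[F⁄K], (R : Set Ω[F⁄K]) = FA_RR_regularDifferentials K F ∧
      Module.finrank K R = genusFF K F :=
  FA_RR.WPE.exists_regular_submodule hF (residues hF)

end FA_RR.Main

end
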